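import Mathlib

set_option linter.unusedSectionVars false
set_option linter.unusedVariables false
set_option autoImplicit false

/-!
# Extension of a character with values in the 2-torsion of `ZMod 4`
-/

namespace Fermat.Agent.LT.Psi

/-- the isomorphism of the 2-torsion of `ZMod 4` with `ZMod 2` -/
def half (t : ZMod 4) : ZMod 2 := if t = 0 then 0 else 1

/-- twice -/
def dbl (t : ZMod 2) : ZMod 4 := if t = 0 then 0 else 2

theorem half_add {s t : ZMod 4} (hs : 2 * s = 0) (ht : 2 * t = 0) :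
    half (s + t) = half s + half t := by
  revert s t; decide

theorem dbl_add (s t : ZMod 2) : dbl (s + t) = dbl s + dbl t := by
  revert s t; decide

theorem dbl_half {s : ZMod 4} (hs : 2 * s = 0) : dbl (half s) = s := by
  revert s; decide

theorem two_mul_dbl (s : ZMod 2) : 2 * dbl s = 0 := by
  revert s; decide

/-- `dbl` as a homomorphism -/
def dblHom : ZMod 2 →+ ZMod 4 where
  toFun := dbl
  map_zero' := by decide
  map_add' := dbl_add

theorem exists_range_hom {G V W : Type*} [AddCommGroup G] [AddCommGroup V] [AddCommGroup W]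
    (D : G →+ V) (ε : G →+ W) (hD : ∀ x, D x = 0 → ε x = 0) :
    ∃ μ : D.range →+ W, ∀ x, μ (D.rangeRestrict x) = ε x := by
  have hker : D.rangeRestrict.ker ≤ ε.ker := by
    intro x hx
    rw [AddMonoidHom.mem_ker] at hx ⊢
    exact hD x (congrArg Subtype.val hx)
  exact ⟨D.rangeRestrict.liftOfSurjective D.rangeRestrict_surjective ⟨ε, hker⟩,
    fun x => AddMonoidHom.liftOfRightInverse_comp_apply _ _ _ _ x⟩

theorem exists_linear {G V : Type*} [AddCommGroup G] [AddCommGroup V] [Module (ZMod 2) V]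
    (D : G →+ V) (ε : G →+ ZMod 2) (hD : ∀ x, D x = 0 → ε x = 0) :
    ∃ g : V →ₗ[ZMod 2] ZMod 2, ∀ x, g (D x) = ε x := by
  obtain ⟨μ, hμ⟩ := exists_range_hom D ε hD
  let p : Submodule (ZMod 2) V := AddSubgroup.toZModSubmodule 2 D.range
  let μ' : p →+ ZMod 2 :=
    { toFun := fun x => μ ⟨x.1, x.2⟩
      map_zero' := map_zero μ
      map_add' := fun x y => map_add μ ⟨x.1, x.2⟩ ⟨y.1, y.2⟩ }
  obtain ⟨g, hg⟩ := LinearMap.exists_extend (p := p) (μ'.toZModLinearMap 2)
  refine ⟨g, fun x => ?_⟩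
  rw [← hμ]
  exact LinearMap.congr_fun hg ⟨D x, ⟨x, rfl⟩⟩

theorem exists_ext {G : Type*} [AddCommGroup G] {I : Type*} (D : G →+ (I →₀ ZMod 2))
    (ε : G →+ ZMod 4) (h2 : ∀ x, 2 * ε x = 0) (hD : ∀ x, D x = 0 → ε x = 0) :
    ∃ l : I → ZMod 2, ∀ x, ε x = dbl ((D x).sum fun i c => c * l i) := by
  classical
  let ε' : G →+ ZMod 2 :=
    { toFun := fun x => half (ε x)
      map_zero' := by rw [map_zero]; rfl
      map_add' := fun x y => by rw [map_add, half_add (h2 x) (h2 y)] }
  obtain ⟨g, hg⟩ := exists_linear D ε' (fun x hx => by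
    change half (ε x) = 0
    rw [hD x hx]; rfl)
  refine ⟨fun i => g (Finsupp.single i 1), fun x => ?_⟩
  have h4 : g (D x) = (D x).sum fun i c => c * g (Finsupp.single i 1) := by
    conv_lhs => rw [← Finsupp.sum_single (D x)]
    rw [map_finsuppSum]
    refine Finsupp.sum_congr fun i _ => ?_
    rw [← smul_eq_mul, ← map_smul, Finsupp.smul_single, smul_eq_mul, mul_one]
  rw [← h4, hg]
  exact (dbl_half (h2 x)).symm

end Fermat.Agent.LT.Psi
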