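import Mathlib
import Fermat.Agent.LT.Psi.SymTC

set_option linter.unusedSectionVars false
set_option linter.unusedVariables false
set_option autoImplicit false

/-!
# Quadratic Hilbert symbols over totally complex fields `F ⊆ Qbar`
-/

open NumberField IsDedekindDomain nonZeroDivisors Pointwise

namespace Fermat.Agent.LT.Psi

open Fermat.Agent.CFT
open Fermat.Agent.LocalF (sym sym_eq_zero_iff Z1_map_mul sym_apply)
open Fermat.Agent.Frob (below mem_below)
open Loc (levU)

local notation "Om" => AlgebraicClosure ℚ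

local notation "Γ" => (AlgebraicClosure ℚ ≃ₐ[ℚ] AlgebraicClosure ℚ)

theorem hz2 : IsPrimitiveRoot (-1 : Om) 2 := IsPrimitiveRoot.neg_one 0 (by norm_num)

section Generic

variable {U : Subgroup Γ}

theorem smul_root {α : Om} (hα : ∀ g : U, g • (α ^ 2) = α ^ 2) (g : U) : g • α = α ∨ g • α = -α := by
  have := hα g
  rw [smul_pow'] at this
  exact sq_eq_sq_iff_eq_or_eq_neg.1 this

theorem kummer_two_eq_zero_iff {α : Om} (hα0 : α ≠ 0) (hα : ∀ g : U, g • (α ^ 2) = α ^ 2) (g : U) :
    kummer 2 (-1 : Om) α g = 0 ↔ g • α = α := kummer_eq_zero_iff hz2 hα0 (hα g)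

/-- a symbol is trivial iff the conic has a point -/
theorem cup_mem_B2_iff_conic {α β : Om} (hα0 : α ≠ 0) (hβ0 : β ≠ 0)
    (hα : ∀ g : U, g • (α ^ 2) = α ^ 2) (hβ : ∀ g : U, g • (β ^ 2) = β ^ 2) :
    cup (kummer 2 (-1 : Om) α : U → ZMod 2) (kummer 2 (-1 : Om) β) ∈
      B2 ((galLevels ℚ Om).restrict U) (triv 2 U) ↔
      ∃ X Y : Om, (∀ g : U, g • X = X) ∧ (∀ g : U, g • Y = Y) ∧
        X ^ 2 - α ^ 2 * Y ^ 2 = β ^ 2 := by
  have hneg : ∀ g : U, g • (-1 : Om) = -1 := fun g => by
    rw [smul_neg, smul_one]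
  have hpart : ∀ (g : U), g • (2 : Om) = 2 := fun g => map_ofNat (g : Γ) 2
  by_cases hfix : ∀ g : U, g • α = α
  · constructor
    · intro _
      refine ⟨(1 + β ^ 2) / 2, (1 - β ^ 2) / (2 * α), fun g => ?_, fun g => ?_, ?_⟩
      · rw [div_eq_mul_inv, smul_mul', smul_add, smul_one, hβ, smul_inv'', hpart]
      · rw [div_eq_mul_inv, smul_mul', smul_sub, smul_one, hβ, smul_inv'', smul_mul', hpart, hfix]
      · field_simp
        ring
    · intro _
      have h0 : cup (kummer 2 (-1 : Om) α : U → ZMod 2) (kummer 2 (-1 : Om) β) = 0 := by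
        funext g h
        rw [cup_apply, (kummer_two_eq_zero_iff hα0 hα g).2 (hfix g), zero_mul]
        rfl
      rw [h0]
      exact Submodule.zero_mem _
  · push Not at hfix
    obtain ⟨σ, hσ⟩ := hfix
    have hσ' : σ • α = -α := (smul_root hα σ).resolve_left hσ
    have hκm : ∀ g h : U, kummer 2 (-1 : Om) α (g * h) =
        kummer 2 (-1 : Om) α g + kummer 2 (-1 : Om) α h :=
      fun g h => kummer_map_mul hz2 hα0 (hneg g) (hα g) (hα h)
    have hκ : ((galLevels ℚ Om).restrict U).LC (kummer 2 (-1 : Om) α : U → ZMod 2) :=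
      kummer_LC hz2 (isGal_Om.restrict U) hα0 hneg hα
    have hκσ : kummer 2 (-1 : Om) α σ = 1 := by
      have h1 : kummer 2 (-1 : Om) α σ ≠ 0 := fun h => hσ ((kummer_two_eq_zero_iff hα0 hα σ).1 h)
      generalize kummer 2 (-1 : Om) α σ = c at h1
      revert c
      decide
    let H : Subgroup U :=
      { carrier := {g | g • α = α}
        mul_mem' := fun {a b} ha hb => by
          change (a * b) • α = α
          rw [mul_smul, hb, ha]
        one_mem' := one_smul _ _
        inv_mem' := fun {a} ha => by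
          change a⁻¹ • α = α
          rw [inv_smul_eq_iff]
          exact ha.symm }
    have hH : ∀ g, g ∈ H ↔ kummer 2 (-1 : Om) α g = 0 := fun g =>
      (kummer_two_eq_zero_iff hα0 hα g).symm
    rw [cup_mem_B2_iff hz2 (isGal_Om.restrict U) hneg (hdiv_Om two_ne_zero) hκ hκm hH hκσ hβ0 hβ]
    have hprod : ∀ a : Om, ∏ i ∈ Finset.range 2, σ ^ i • a = a * σ • a := by
      intro a
      rw [Finset.prod_range_succ, Finset.prod_range_one, pow_zero, one_smul, pow_one]
    constructor
    · rintro ⟨a, ha, hab⟩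
      rw [hprod] at hab
      have hconj : ∀ h ∈ H, h • (σ • a) = σ • a := by
        intro h hh
        have h1 : σ⁻¹ * h * σ ∈ H := by
          change (σ⁻¹ * h * σ) • α = α
          rw [mul_smul, mul_smul, hσ', smul_neg, show h • α = α from hh, ← hσ', inv_smul_smul]
        have h2 := ha _ h1
        rw [mul_smul, mul_smul, inv_smul_eq_iff] at h2
        exact h2
      have hσσ : σ • σ • a = a := by
        have h1 : σ * σ ∈ H := by
          change (σ * σ) • α = α
          rw [mul_smul, hσ', smul_neg, hσ', neg_neg]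
        have h2 := ha _ h1
        rwa [mul_smul] at h2
      have hfixU : ∀ z : Om, (∀ h ∈ H, h • z = z) → σ • z = z → ∀ g : U, g • z = z := by
        intro z hz1 hz2 g
        by_cases hg : g • α = α
        · exact hz1 g hg
        · have hg' : g • α = -α := (smul_root hα g).resolve_left hg
          have h1 : g * σ⁻¹ ∈ H := by
            change (g * σ⁻¹) • α = α
            have h3 : σ⁻¹ • α = -α := by
              rw [inv_smul_eq_iff, smul_neg, hσ', neg_neg]
            rw [mul_smul, h3, smul_neg, hg', neg_neg]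
          have h2 := hz1 _ h1
          rw [mul_smul] at h2
          have h4 : σ⁻¹ • z = z := by rw [inv_smul_eq_iff, hz2]
          rwa [h4] at h2
      refine ⟨(a + σ • a) / 2, (a - σ • a) / (2 * α), hfixU _ ?_ ?_, hfixU _ ?_ ?_, ?_⟩
      · intro h hh
        rw [div_eq_mul_inv, smul_mul', smul_add, ha h hh, hconj h hh, smul_inv'', hpart]
      · rw [div_eq_mul_inv, smul_mul', smul_add, hσσ, smul_inv'', hpart, add_comm]
      · intro h hh
        rw [div_eq_mul_inv, smul_mul', smul_sub, ha h hh, hconj h hh, smul_inv'', smul_mul', hpart,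
          show h • α = α from hh]
      · rw [div_eq_mul_inv, smul_mul', smul_sub, hσσ, smul_inv'', smul_mul', hpart, hσ']
        field_simp
        ring
      · rw [← hab]
        field_simp
        ring
    · rintro ⟨X, Y, hX, hY, hXY⟩
      refine ⟨X + α * Y, fun g hg => ?_, ?_⟩
      · rw [smul_add, smul_mul', hX, hY, show g • α = α from hg]
      · rw [hprod, smul_add, smul_mul', hX, hY, hσ', ← hXY]
        ring

end Generic

end Fermat.Agent.LT.Psi
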