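import Mathlib
import Fermat.Agent.LT.Psi.Quad

set_option linter.unusedSectionVars false
set_option linter.unusedVariables false
set_option autoImplicit false

/-!
# Quadratic Hilbert symbols over totally complex fields `F ⊆ Qbar`: API
-/

open NumberField IsDedekindDomain nonZeroDivisors Pointwise

namespace Fermat.Agent.LT.Psi

open Fermat.Agent.CFT
open Fermat.Agent.LocalF (sym sym_eq_zero_iff Z1_map_mul sym_apply)
open Fermat.Agent.Frob (below mem_below)
open Loc

local notation "Om" => AlgebraicClosure ℚ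

local notation "Γ" => (AlgebraicClosure ℚ ≃ₐ[ℚ] AlgebraicClosure ℚ)

section

variable (F : IntermediateField ℚ Om) [FiniteDimensional ℚ F]

theorem neg_one_mem' : (-1 : Om) ∈ F := neg_mem (one_mem _)

/-- the quadratic Hilbert symbol at `v`, with values in `ZMod 2` -/
noncomputable def hs (v : HeightOneSpectrum (𝓞 F)) (x y : Fˣ) : ZMod 2 :=
  sv hz2 (neg_one_mem' F) v (kp 2 F (Additive.ofMul x)) (kp 2 F (Additive.ofMul y))

variable {F} {v : HeightOneSpectrum (𝓞 F)}

theorem hs_mul_left (x x' y : Fˣ) : hs F v (x * x') y = hs F v x y + hs F v x' y := by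
  rw [hs, hs, hs, ofMul_mul, map_add, map_add, LinearMap.add_apply]

theorem hs_mul_right (x y y' : Fˣ) : hs F v x (y * y') = hs F v x y + hs F v x y' := by
  rw [hs, hs, hs, ofMul_mul, map_add, map_add]

theorem zmod2_add_self (a : ZMod 2) : a + a = 0 := by
  revert a; decide

theorem zmod2_neg (a : ZMod 2) : -a = a := by
  revert a; decide

theorem zmod2_ne_zero {a : ZMod 2} (h : a ≠ 0) : a = 1 := by
  revert a; decide

theorem hs_sq_left (x y : Fˣ) : hs F v (x ^ 2) y = 0 := by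
  rw [pow_two, hs_mul_left, zmod2_add_self]

theorem hs_sq_right (x y : Fˣ) : hs F v x (y ^ 2) = 0 := by
  rw [pow_two, hs_mul_right, zmod2_add_self]

theorem hs_comm (x y : Fˣ) : hs F v x y = hs F v y x := by
  rw [hs, hs, sv_apply, sv_apply, Fermat.Agent.LocalF.sym_skew, map_neg, zmod2_neg]

theorem hs_one_left (y : Fˣ) : hs F v 1 y = 0 := by
  have := hs_sq_left (F := F) (v := v) 1 y
  rwa [one_pow] at this

theorem hs_one_right (y : Fˣ) : hs F v y 1 = 0 := by rw [hs_comm, hs_one_left]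

theorem hs_inv_right (x y : Fˣ) : hs F v x y⁻¹ = hs F v x y := by
  have h := hs_mul_right (v := v) x y y⁻¹
  rw [mul_inv_cancel, hs_one_right] at h
  have h2 : ∀ a b : ZMod 2, 0 = a + b → b = a := by decide
  exact h2 _ _ h

theorem hs_div_right (x y y' : Fˣ) : hs F v x (y / y') = hs F v x y + hs F v x y' := by
  rw [div_eq_mul_inv, hs_mul_right, hs_inv_right]

theorem hs_zpow_right (x y : Fˣ) (n : ℤ) : hs F v x (y ^ n) = n * hs F v x y := by
  rw [hs, hs, ofMul_zpow, kp_zsmul, map_smul, smul_eq_mul]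

/-- vanishing of the symbol: a point on the conic over the decomposition field -/
theorem hs_eq_zero_iff_conic (x y : Fˣ) : hs F v x y = 0 ↔
    ∃ X Y : Om, (∀ g ∈ Loc.UA (Av v) F, g X = X) ∧ (∀ g ∈ Loc.UA (Av v) F, g Y = Y) ∧
      X ^ 2 - ((x : F) : Om) * Y ^ 2 = ((y : F) : Om) := by
  rw [hs, sv_eq_zero_iff_cup]
  have hx : root 2 (Additive.ofMul x) ^ 2 = ((x : F) : Om) := root_pow _
  have hy : root 2 (Additive.ofMul y) ^ 2 = ((y : F) : Om) := root_pow _
  have h := cup_mem_B2_iff_conic (U := Loc.UA (Av v) F) (α := root 2 (Additive.ofMul x))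
    (β := root 2 (Additive.ofMul y)) (root_ne_zero _) (root_ne_zero _)
    (fun g => smul_root_pow (p := 2) (Additive.ofMul x) ⟨g, g.2.2⟩)
    (fun g => smul_root_pow (p := 2) (Additive.ofMul y) ⟨g, g.2.2⟩)
  rw [hx, hy] at h
  refine h.trans ?_
  constructor
  · rintro ⟨X, Y, hX, hY, h⟩
    exact ⟨X, Y, fun g hg => hX ⟨g, hg⟩, fun g hg => hY ⟨g, hg⟩, h⟩
  · rintro ⟨X, Y, hX, hY, h⟩
    exact ⟨X, Y, fun g => hX g g.2, fun g => hY g g.2, h⟩

/-- global norms have trivial symbols -/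
theorem hs_norm {x y : Fˣ} {X Y : F} (h : X ^ 2 - (x : F) * Y ^ 2 = y) : hs F v x y = 0 := by
  rw [hs_eq_zero_iff_conic]
  refine ⟨X, Y, fun g hg => smul_coe_of_mem ⟨g, hg.2⟩ X, fun g hg => smul_coe_of_mem ⟨g, hg.2⟩ Y, ?_⟩
  have := congrArg (fun t : F => (t : Om)) h
  simpa using this

theorem finite_hs (x y : Fˣ) [IsTotallyComplex F] : {v | hs F v x y ≠ 0}.Finite :=
  (symDataTC hz2 (neg_one_mem' F)).finite_s _ _

/-- **quadratic reciprocity** -/
theorem sum_hs [IsTotallyComplex F] (x y : Fˣ) : ∑ᶠ v, hs F v x y = 0 := by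
  obtain ⟨c, hc, h⟩ := exists_reciprocity_tc hz2 (neg_one_mem' F)
  have h1 := (h (fun v => hs F v x y) (finite_hs x y)).1
    ⟨sym (LL F) 2 (kum hz2 (neg_one_mem' F) (kp 2 F (Additive.ofMul x)))
      (kum hz2 (neg_one_mem' F) (kp 2 F (Additive.ofMul y))), fun v => rfl⟩
  rw [← h1]
  exact finsum_congr fun v => by rw [zmod2_ne_zero (hc v), one_mul]

/-- existence of elements with prescribed symbols -/
theorem exists_hs [IsTotallyComplex F] (x : Fˣ) (a : HeightOneSpectrum (𝓞 F) → ZMod 2)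
    (ha : a.support.Finite) (h : ∀ v, (∀ y, hs F v x y = 0) → a v = 0)
    (hsum : ∑ᶠ v, a v = 0) : ∃ y : Fˣ, ∀ v, hs F v x y = a v := by
  obtain ⟨c, hc, hrec⟩ := exists_reciprocity_tc hz2 (neg_one_mem' F)
  obtain ⟨α, hα⟩ := (hrec a ha).2 (by
    rw [← hsum]
    exact finsum_congr fun v => by rw [zmod2_ne_zero (hc v), one_mul])
  obtain ⟨y, hy⟩ := exists_sym_glob_tc hz2 (neg_one_mem' F) (kp 2 F (Additive.ofMul x)) α
    (fun v hv => by
      rw [hα]
      refine h v fun y => ?_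
      rw [hs, hv, LinearMap.zero_apply])
  obtain ⟨y', rfl⟩ := kp_surjective 2 F y
  refine ⟨Additive.toMul y', fun v => ?_⟩
  rw [← hα, hy]
  rfl

/-- **Hasse norm theorem** for quadratic extensions -/
theorem exists_norm_of_hs [IsTotallyComplex F] {x y : Fˣ} (h : ∀ v, hs F v x y = 0) :
    ∃ X Y : F, X ^ 2 - (x : F) * Y ^ 2 = y := by
  have h1 := hasseNorm_tc hz2 (neg_one_mem' F) (kp 2 F (Additive.ofMul x))
    (kp 2 F (Additive.ofMul y)) h
  rw [sym_eq_zero_iff] at h1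
  have hx : root 2 (Additive.ofMul x) ^ 2 = ((x : F) : Om) := root_pow _
  have hy : root 2 (Additive.ofMul y) ^ 2 = ((y : F) : Om) := root_pow _
  obtain ⟨X, Y, hX, hY, hXY⟩ := (cup_mem_B2_iff_conic (U := F.fixingSubgroup)
    (α := root 2 (Additive.ofMul x))
    (β := root 2 (Additive.ofMul y)) (root_ne_zero _) (root_ne_zero _)
    (fun g => smul_root_pow (p := 2) (Additive.ofMul x) g)
    (fun g => smul_root_pow (p := 2) (Additive.ofMul y) g)).1 h1
  refine ⟨⟨X, mem_iff_fixed.2 hX⟩, ⟨Y, mem_iff_fixed.2 hY⟩, ?_⟩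
  apply Subtype.ext
  rw [hx, hy] at hXY
  simpa using hXY

/-- the symbol at good places -/
theorem hs_of_even [IsTotallyComplex F] (hv : v ∉ Tp F 2) {x : Fˣ}
    (hx : (2 : ℤ) ∣ ordH F v (Additive.ofMul x)) {y' : Fˣ} (hy' : hs F v x y' ≠ 0) (y : Fˣ) :
    hs F v x y = (ordH F v (Additive.ofMul y) : ZMod 2) := by
  set D := symDataTC hz2 (neg_one_mem' F) with hD
  have hv' : v ∉ D.Tp := fun h => hv (mem_TpF.1 h)
  obtain ⟨π, hπ⟩ := D.exists_ord_eq_one hv'
  have hx' : D.ord v (kp 2 F (Additive.ofMul x)) = 0 := (ordp_kp_eq_zero_iff v _).2 hx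
  have h1 := D.s_formula hv' hx' hπ
  have h2 : D.s v (kp 2 F (Additive.ofMul x)) π = 1 := by
    refine zmod2_ne_zero fun h => hy' ?_
    have h3 := h1 (kp 2 F (Additive.ofMul y'))
    rw [h, mul_zero] at h3
    exact h3
  have h3 := h1 (kp 2 F (Additive.ofMul y))
  rw [h2, mul_one] at h3
  refine h3.trans ?_
  exact ordp_kp v _

theorem hs_eq_zero_of_even (hv : v ∉ Tp F 2) {x y : Fˣ}
    (hx : (2 : ℤ) ∣ ordH F v (Additive.ofMul x)) (hy : (2 : ℤ) ∣ ordH F v (Additive.ofMul y)) :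
    hs F v x y = 0 :=
  sv_eq_zero_of_ord hz2 (neg_one_mem' F) hv ((ordp_kp_eq_zero_iff v _).2 hx)
    ((ordp_kp_eq_zero_iff v _).2 hy)

end

end Fermat.Agent.LT.Psi
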