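import Mathlib
import Fermat.Agent.LT.Psi.Hs

set_option linter.unusedSectionVars false
set_option linter.unusedVariables false
set_option autoImplicit false

/-!
# Approximation: elements close to one, and the conic criterion
-/

open NumberField IsDedekindDomain nonZeroDivisors Pointwise

namespace Fermat.Agent.LT.Psi

open Fermat.Agent.CFT
open Fermat.Agent.Frob (below mem_below)
open Loc

local notation "Om" => AlgebraicClosure ℚ

local notation "Γ" => (AlgebraicClosure ℚ ≃ₐ[ℚ] AlgebraicClosure ℚ)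

section Near

/-- `x` is close to `1` at `v` -/
def Near {K : Type*} [Field K] [NumberField K] (v : HeightOneSpectrum (𝓞 K)) (n : ℕ) (x : K) :
    Prop := v.valuation K (x - 1) ≤ WithZero.exp (-(n : ℤ))

variable {K : Type*} [Field K] [NumberField K] {v : HeightOneSpectrum (𝓞 K)}

theorem near_mono {m n : ℕ} (h : m ≤ n) {x : K} (hx : Near v n x) : Near v m x :=
  le_trans hx (WithZero.exp_le_exp.2 (by omega))

theorem near_one (n : ℕ) : Near v n (1 : K) := by
  rw [Near, sub_self, map_zero]; exact zero_le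

theorem exp_neg_le_one (n : ℕ) : WithZero.exp (-(n : ℤ)) ≤ 1 := by
  rw [← WithZero.exp_zero]; exact WithZero.exp_le_exp.2 (by omega)

theorem Near.val_le {n : ℕ} {x : K} (hx : Near v n x) : v.valuation K x ≤ 1 := by
  have h : x = (x - 1) + 1 := by ring
  rw [h]
  exact (Valuation.map_add _ _ _).trans (max_le (le_trans hx (exp_neg_le_one n)) (map_one _).le)

theorem Near.val_eq {n : ℕ} (hn : 1 ≤ n) {x : K} (hx : Near v n x) : v.valuation K x = 1 := by
  have h : x = (x - 1) + 1 := by ring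
  have h2 : v.valuation K (x - 1) < v.valuation K 1 := by
    rw [map_one]
    refine lt_of_le_of_lt hx ?_
    rw [← WithZero.exp_zero]
    exact WithZero.exp_lt_exp.2 (by omega)
  rw [h, Valuation.map_add_eq_of_lt_right _ h2, map_one]

theorem Near.ne_zero {n : ℕ} (hn : 1 ≤ n) {x : K} (hx : Near v n x) : x ≠ 0 := by
  rintro rfl
  have := hx.val_eq hn
  rw [map_zero] at this
  exact zero_ne_one this

theorem Near.mul {n : ℕ} {x y : K} (hx : Near v n x) (hy : Near v n y) : Near v n (x * y) := by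
  have h : x * y - 1 = x * (y - 1) + (x - 1) := by ring
  rw [Near, h]
  refine (Valuation.map_add _ _ _).trans (max_le ?_ hx)
  rw [map_mul]
  exact (mul_le_mul' hx.val_le hy).trans (one_mul _).le

theorem Near.inv {n : ℕ} (hn : 1 ≤ n) {x : K} (hx : Near v n x) : Near v n x⁻¹ := by
  have h0 := hx.ne_zero hn
  have h : x⁻¹ - 1 = -(x⁻¹ * (x - 1)) := by field_simp; ring
  rw [Near, h, Valuation.map_neg, map_mul, map_inv₀, hx.val_eq hn, inv_one, one_mul]
  exact hx

theorem Near.div {n : ℕ} (hn : 1 ≤ n) {x y : K} (hx : Near v n x) (hy : Near v n y) :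
    Near v n (x / y) := by
  rw [div_eq_mul_inv]; exact hx.mul (hy.inv hn)

end Near

section

variable {F : IntermediateField ℚ Om} [FiniteDimensional ℚ F]

instance fact_lv (v : HeightOneSpectrum (𝓞 F)) : Fact (lv v).Prime := ⟨lv_prime v⟩

/-- a global element moving the standard place to `Av v` -/
noncomputable def gv (v : HeightOneSpectrum (𝓞 F)) : GalGlob :=
  (exists_eq_smul_padicPlace (lv v) (Av_lies v)).choose

theorem Av_eq (v : HeightOneSpectrum (𝓞 F)) : Av v = gv v • padicPlace (lv v) :=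
  (exists_eq_smul_padicPlace (lv v) (Av_lies v)).choose_spec

theorem below_gv (v : HeightOneSpectrum (𝓞 F)) :
    Frob.below (𝓞 F) (gv v • padicPlace (lv v)) = v.asIdeal := by
  rw [← Av_eq]; exact below_Av v

/-- the embedding of `Qbar` into the local field at `v` -/
noncomputable def jv (v : HeightOneSpectrum (𝓞 F)) : Om →ₐ[ℚ] PadicAlgCl (lv v) :=
  jg (lv v) (gv v)

/-- the base of the norm -/
noncomputable def cv (v : HeightOneSpectrum (𝓞 F)) : ℝ :=
  (exists_norm_jg_eq (lv v) (gv v) (below_gv v)).choose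

theorem cv_pos (v : HeightOneSpectrum (𝓞 F)) : 0 < cv v :=
  (exists_norm_jg_eq (lv v) (gv v) (below_gv v)).choose_spec.1

theorem cv_lt_one (v : HeightOneSpectrum (𝓞 F)) : cv v < 1 :=
  (exists_norm_jg_eq (lv v) (gv v) (below_gv v)).choose_spec.2.1

theorem norm_jv (v : HeightOneSpectrum (𝓞 F)) (x : Fˣ) :
    ‖jv v ((x : F) : Om)‖ = cv v ^ (ordH F v (Additive.ofMul x)) :=
  (exists_norm_jg_eq (lv v) (gv v) (below_gv v)).choose_spec.2.2 x

theorem valuation_le_iff (v : HeightOneSpectrum (𝓞 F)) (n : ℕ) (x : F) :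
    v.valuation F x ≤ WithZero.exp (-(n : ℤ)) ↔ ‖jv v (x : Om)‖ ≤ cv v ^ n := by
  by_cases hx : x = 0
  · subst hx
    have h1 : ((0 : F) : Om) = 0 := rfl
    rw [map_zero, h1, map_zero, norm_zero]
    exact ⟨fun _ => pow_nonneg (cv_pos v).le n, fun _ => zero_le⟩
  · have h1 := norm_jv v (Units.mk0 x hx)
    have h2 := valuation_eq_exp v (Units.mk0 x hx)
    rw [Units.val_mk0] at h1 h2
    rw [h1, h2, WithZero.exp_le_exp, ← zpow_natCast,
      zpow_le_zpow_iff_right_of_lt_one₀ (cv_pos v) (cv_lt_one v)]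
    omega

theorem near_iff (v : HeightOneSpectrum (𝓞 F)) (n : ℕ) (x : F) :
    Near v n x ↔ ‖jv v (x : Om) - 1‖ ≤ cv v ^ n := by
  rw [Near, valuation_le_iff]
  have : ((x - 1 : F) : Om) = (x : Om) - 1 := rfl
  rw [this, map_sub, map_one]

theorem exists_pow_lt (v : HeightOneSpectrum (𝓞 F)) {ε : ℝ} (hε : 0 < ε) :
    ∃ n : ℕ, cv v ^ n < ε := exists_pow_lt_of_lt_one hε (cv_lt_one v)

/-- elements close to one are local squares -/
theorem exists_near_sq (v : HeightOneSpectrum (𝓞 F)) : ∃ n : ℕ, ∀ x : Fˣ, Near v n (x : F) →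
    sv hz2 (neg_one_mem' F) v (kp 2 F (Additive.ofMul x)) = 0 := by
  obtain ⟨ε, hε, h⟩ := exists_pow_of_near (lv v) Nat.prime_two
  obtain ⟨n, hn⟩ := exists_pow_lt v hε
  refine ⟨n, fun x hx => ?_⟩
  rw [near_iff] at hx
  obtain ⟨y, hy, hyx⟩ := h (KL (lv v) F (gv v)) (jv v ((x : F) : Om))
    (jg_mem_KL _ _ _ (x : F).2) (lt_of_le_of_lt hx hn)
  have h1 : x ∈ Loc.PA 2 (Av v) F := by
    rw [Av_eq, mem_PA_iff_jg (lv v) F Nat.prime_two]
    exact ⟨y, hy, hyx⟩
  rw [sv_eq_zero_iff_van]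
  exact (mem_PA_iff_van hz2 (neg_one_mem' F) (Av v) x).1 h1

/-- the level at `v` from which elements are squares -/
noncomputable def lev (v : HeightOneSpectrum (𝓞 F)) : ℕ := (exists_near_sq v).choose + 1

theorem one_le_lev (v : HeightOneSpectrum (𝓞 F)) : 1 ≤ lev v := by
  rw [lev]; omega

theorem hs_near_left {v : HeightOneSpectrum (𝓞 F)} {x : Fˣ} (h : Near v (lev v) (x : F)) (y : Fˣ) :
    hs F v x y = 0 := by
  rw [hs, (exists_near_sq v).choose_spec x (near_mono (by rw [lev]; omega) h),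
    LinearMap.zero_apply]

theorem hs_near_right {v : HeightOneSpectrum (𝓞 F)} {x : Fˣ} (h : Near v (lev v) (x : F))
    (y : Fˣ) : hs F v y x = 0 := by rw [hs_comm, hs_near_left h]

/-- simultaneous approximation of points on conics -/
theorem exists_conic_approx (T : Finset (HeightOneSpectrum (𝓞 F))) (x y : Fˣ)
    (h : ∀ v ∈ T, hs F v x y = 0) (n : ℕ) :
    ∃ X Y : F, X ^ 2 - (x : F) * Y ^ 2 ≠ 0 ∧
      ∀ v ∈ T, Near v n ((X ^ 2 - (x : F) * Y ^ 2) / (y : F)) := by
  classical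
  rcases T.eq_empty_or_nonempty with rfl | hTne
  · exact ⟨1, 0, by simp, by simp⟩
  have hT : ∀ v : T, ∃ X Y : Om, (∀ g ∈ Loc.UA (Av (v : HeightOneSpectrum (𝓞 F))) F, g X = X) ∧
      (∀ g ∈ Loc.UA (Av (v : HeightOneSpectrum (𝓞 F))) F, g Y = Y) ∧
      X ^ 2 - ((x : F) : Om) * Y ^ 2 = ((y : F) : Om) := fun v =>
    (hs_eq_zero_iff_conic x y).1 (h v v.2)
  choose X Y hX hY hXY using hT
  have hXm : ∀ v : T, jv (v : HeightOneSpectrum (𝓞 F)) (X v) ∈
      KL (lv (v : HeightOneSpectrum (𝓞 F))) F (gv (v : HeightOneSpectrum (𝓞 F))) := fun v =>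
    (fixed_iff_mem_KL _ F _ _).1 (by rw [← Av_eq]; exact hX v)
  have hYm : ∀ v : T, jv (v : HeightOneSpectrum (𝓞 F)) (Y v) ∈
      KL (lv (v : HeightOneSpectrum (𝓞 F))) F (gv (v : HeightOneSpectrum (𝓞 F))) := fun v =>
    (fixed_iff_mem_KL _ F _ _).1 (by rw [← Av_eq]; exact hY v)
  -- continuity
  have hcont : ∀ v : T, ∃ δ : ℝ, 0 < δ ∧ ∀ X' Y' : PadicAlgCl (lv (v : HeightOneSpectrum (𝓞 F))),
      ‖jv (v : HeightOneSpectrum (𝓞 F)) (X v) - X'‖ < δ →
      ‖jv (v : HeightOneSpectrum (𝓞 F)) (Y v) - Y'‖ < δ →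
      ‖(X' ^ 2 - jv (v : HeightOneSpectrum (𝓞 F)) ((x : F) : Om) * Y' ^ 2) /
        jv (v : HeightOneSpectrum (𝓞 F)) ((y : F) : Om) - 1‖ <
          cv (v : HeightOneSpectrum (𝓞 F)) ^ (n + 1) := by
    intro v
    set j := jv (v : HeightOneSpectrum (𝓞 F)) with hj
    have hy0 : j ((y : F) : Om) ≠ 0 := by
      rw [Ne, map_eq_zero]
      exact_mod_cast y.ne_zero
    have hc : Continuous fun q : PadicAlgCl (lv (v : HeightOneSpectrum (𝓞 F))) ×
        PadicAlgCl (lv (v : HeightOneSpectrum (𝓞 F))) =>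
        ‖(q.1 ^ 2 - j ((x : F) : Om) * q.2 ^ 2) / j ((y : F) : Om) - 1‖ := by fun_prop
    have h0 : ‖((j (X v)) ^ 2 - j ((x : F) : Om) * (j (Y v)) ^ 2) / j ((y : F) : Om) - 1‖ = 0 := by
      rw [← map_pow, ← map_pow, ← map_mul, ← map_sub, hXY, div_self hy0, sub_self, norm_zero]
    have h1 := Metric.continuous_iff.1 hc (j (X v), j (Y v)) (cv (v : HeightOneSpectrum (𝓞 F)) ^
      (n + 1)) (pow_pos (cv_pos _) _)
    obtain ⟨δ, hδ, hh⟩ := h1
    refine ⟨δ, hδ, fun X' Y' h2 h3 => ?_⟩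
    have h4 := hh (X', Y') (by
      rw [Prod.dist_eq, dist_comm, dist_eq_norm, dist_comm, dist_eq_norm]
      exact max_lt h2 h3)
    simp only at h4
    rw [h0, Real.dist_eq, sub_zero, abs_of_nonneg (norm_nonneg _)] at h4
    exact h4
  choose δ hδ hh using hcont
  have hTn : Nonempty T := hTne.to_subtype
  obtain ⟨v0, hv0⟩ := Finite.exists_min δ
  obtain ⟨X', hX'⟩ := weak_approx (L := F) (fun v : T => lv (v : HeightOneSpectrum (𝓞 F)))
    (fun v => gv (v : HeightOneSpectrum (𝓞 F))) (fun v => (v : HeightOneSpectrum (𝓞 F)))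
    Subtype.val_injective (fun v => below_gv _) (fun v => jv (v : HeightOneSpectrum (𝓞 F)) (X v))
    hXm (hδ v0)
  obtain ⟨Y', hY'⟩ := weak_approx (L := F) (fun v : T => lv (v : HeightOneSpectrum (𝓞 F)))
    (fun v => gv (v : HeightOneSpectrum (𝓞 F))) (fun v => (v : HeightOneSpectrum (𝓞 F)))
    Subtype.val_injective (fun v => below_gv _) (fun v => jv (v : HeightOneSpectrum (𝓞 F)) (Y v))
    hYm (hδ v0)
  have hnear : ∀ v ∈ T, Near v (n + 1) ((X' ^ 2 - (x : F) * Y' ^ 2) / (y : F)) := by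
    intro v hv
    rw [near_iff]
    have h1 := hh ⟨v, hv⟩ (jv v X') (jv v Y') ((hX' ⟨v, hv⟩).trans_le (hv0 _))
      ((hY' ⟨v, hv⟩).trans_le (hv0 _))
    refine le_of_eq_of_le ?_ h1.le
    have h2 : (((X' ^ 2 - (x : F) * Y' ^ 2) / (y : F) : F) : Om) =
        ((X' : Om) ^ 2 - ((x : F) : Om) * (Y' : Om) ^ 2) / ((y : F) : Om) := by
      push_cast
      rfl
    rw [h2]
    simp only [map_div₀, map_sub, map_pow, map_mul]
  refine ⟨X', Y', ?_, fun v hv => near_mono (Nat.le_succ n) (hnear v hv)⟩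
  intro h0
  obtain ⟨v, hv⟩ := hTne
  have h1 := (hnear v hv).ne_zero (by omega)
  rw [h0, zero_div] at h1
  exact h1 rfl

/-- converse: an approximate point kills the symbol -/
theorem hs_eq_zero_of_near {v : HeightOneSpectrum (𝓞 F)} {x y : Fˣ} {X Y : F}
    (h : Near v (lev v) ((X ^ 2 - (x : F) * Y ^ 2) / (y : F))) : hs F v x y = 0 := by
  have h0 := h.ne_zero (one_le_lev v)
  have h1 : X ^ 2 - (x : F) * Y ^ 2 ≠ 0 := fun h' => h0 (by rw [h', zero_div])
  have h2 := hs_near_right (x := Units.mk0 _ h1 / y) (by simpa using h) x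
  rw [hs_div_right, hs_norm (y := Units.mk0 _ h1) rfl, zero_add] at h2
  exact h2

theorem hs_eq_zero_iff_near {v : HeightOneSpectrum (𝓞 F)} {x y : Fˣ} {n : ℕ} (hn : lev v ≤ n) :
    hs F v x y = 0 ↔ ∃ X Y : F, Near v n ((X ^ 2 - (x : F) * Y ^ 2) / (y : F)) := by
  constructor
  · intro h
    obtain ⟨X, Y, -, hXY⟩ := exists_conic_approx {v} x y (by simpa using h) n
    exact ⟨X, Y, hXY v (by simp)⟩
  · rintro ⟨X, Y, hXY⟩
    exact hs_eq_zero_of_near (near_mono hn hXY)

/-- weak approximation -/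
theorem exists_approx_near (T : Finset (HeightOneSpectrum (𝓞 F)))
    (z : HeightOneSpectrum (𝓞 F) → Fˣ) (n : ℕ) :
    ∃ x : Fˣ, ∀ v ∈ T, Near v n ((x : F) / (z v : F)) := by
  classical
  rcases T.eq_empty_or_nonempty with rfl | hTne
  · exact ⟨1, by simp⟩
  have hTn : Nonempty T := hTne.to_subtype
  have hpos : ∀ v : T, 0 < cv (v : HeightOneSpectrum (𝓞 F)) ^ (n + 1) *
      ‖jv (v : HeightOneSpectrum (𝓞 F)) ((z v : F) : Om)‖ := by
    intro v
    refine mul_pos (pow_pos (cv_pos _) _) ?_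
    rw [norm_pos_iff, Ne, map_eq_zero]
    exact_mod_cast (z v).ne_zero
  obtain ⟨v0, hv0⟩ := Finite.exists_min fun v : T => cv (v : HeightOneSpectrum (𝓞 F)) ^ (n + 1) *
      ‖jv (v : HeightOneSpectrum (𝓞 F)) ((z v : F) : Om)‖
  obtain ⟨x, hx⟩ := weak_approx (L := F) (fun v : T => lv (v : HeightOneSpectrum (𝓞 F)))
    (fun v => gv (v : HeightOneSpectrum (𝓞 F))) (fun v => (v : HeightOneSpectrum (𝓞 F)))
    Subtype.val_injective (fun v => below_gv _)
    (fun v => jv (v : HeightOneSpectrum (𝓞 F)) ((z v : F) : Om))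
    (fun v => jg_mem_KL _ _ _ (z v : F).2) (hpos v0)
  have hnear : ∀ v ∈ T, Near v (n + 1) (x / (z v : F)) := by
    intro v hv
    rw [near_iff]
    have h1 := (hx ⟨v, hv⟩).trans_le (hv0 ⟨v, hv⟩)
    simp only at h1
    have hz0 : jv v ((z v : F) : Om) ≠ 0 := by
      rw [Ne, map_eq_zero]
      exact_mod_cast (z v).ne_zero
    have h2 : ((x / (z v : F) : F) : Om) = (x : Om) / ((z v : F) : Om) := rfl
    have h3 : jv v ((x / (z v : F) : F) : Om) - 1 =
        -((jv v ((z v : F) : Om) - jv v (x : Om)) / jv v ((z v : F) : Om)) := by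
      rw [h2, map_div₀]
      field_simp
      ring
    rw [h3, norm_neg, norm_div, div_le_iff₀ (norm_pos_iff.2 hz0)]
    exact h1.le
  have hx0 : x ≠ 0 := by
    rintro rfl
    obtain ⟨v, hv⟩ := hTne
    have h1 := (hnear v hv).ne_zero (by omega)
    rw [zero_div] at h1
    exact h1 rfl
  exact ⟨Units.mk0 x hx0, fun v hv => near_mono (Nat.le_succ n) (hnear v hv)⟩

end

end Fermat.Agent.LT.Psi
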