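import Mathlib
import Fermat.Agent.LT.Psi.Near

set_option linter.unusedSectionVars false
set_option linter.unusedVariables false
set_option autoImplicit false

/-!
# Quadratic extensions `K / L` inside `Qbar`: places, norms and symbols
-/

open NumberField IsDedekindDomain nonZeroDivisors Pointwise

namespace Fermat.Agent.LT.Psi

open Fermat.Agent.CFT
open Fermat.Agent.Frob (below mem_below)
open Loc (GalGlob)

local notation "Om" => AlgebraicClosure ℚ

local notation "Γ" => (AlgebraicClosure ℚ ≃ₐ[ℚ] AlgebraicClosure ℚ)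

section

variable {F : IntermediateField ℚ Om} [FiniteDimensional ℚ F]

/-- `x` is not a local square at `v` -/
def NS (v : HeightOneSpectrum (𝓞 F)) (x : Fˣ) : Prop := ∃ y, hs F v x y ≠ 0

theorem not_ns_iff {v : HeightOneSpectrum (𝓞 F)} {x : Fˣ} : ¬ NS v x ↔ ∀ y, hs F v x y = 0 := by
  rw [NS]; push Not; rfl

theorem not_ns_iff_sv {v : HeightOneSpectrum (𝓞 F)} {x : Fˣ} : ¬ NS v x ↔
    sv hz2 (neg_one_mem' F) v (kp 2 F (Additive.ofMul x)) = 0 := by
  rw [not_ns_iff]
  constructor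
  · intro h
    apply LinearMap.ext
    intro y
    obtain ⟨y, rfl⟩ := kp_surjective 2 F y
    exact h (Additive.toMul y)
  · intro h y
    rw [hs, h, LinearMap.zero_apply]

theorem ns_iff {A : ValuationSubring Om} {ℓ : ℕ} (hℓ : ℓ.Prime) (hA : A.LiesOverPrime ℓ)
    {x : Fˣ} {β : Om} (hβ : β ^ 2 = ((x : F) : Om)) :
    NS (placeBelow F A hℓ hA) x ↔ ∃ g ∈ Loc.UA A F, g β ≠ β := by
  set v := placeBelow F A hℓ hA with hv
  obtain ⟨h, hh⟩ := exists_smul_eq_of_placeBelow (L := F) hℓ hA (A' := Av v)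
    (by rw [below_Av]; rfl)
  rw [← not_iff_not, not_ns_iff_sv, sv_eq_zero_iff_van, hh, vanAt_smul (by
    exact Fermat.Agent.LocalF.Z1_map_mul _), vanAt_iff_fix]
  push Not
  have hr : root 2 (Additive.ofMul x) ^ 2 = β ^ 2 := by rw [hβ]; exact root_pow _
  rcases sq_eq_sq_iff_eq_or_eq_neg.1 hr with h1 | h1
  · rw [h1]
  · rw [h1]
    constructor
    · intro h2 g hg
      have h3 := h2 g hg
      rw [map_neg, neg_inj] at h3
      exact h3
    · intro h2 g hg
      rw [map_neg, h2 g hg]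

theorem exists_placeBelow (v : HeightOneSpectrum (𝓞 F)) :
    ∃ (A : ValuationSubring Om) (ℓ : ℕ) (hℓ : ℓ.Prime) (hA : A.LiesOverPrime ℓ),
      placeBelow F A hℓ hA = v :=
  ⟨Av v, lv v, lv_prime v, Av_lies v, placeBelow_Av v⟩

end

section

variable {L K : IntermediateField ℚ Om} [FiniteDimensional ℚ L] [FiniteDimensional ℚ K]
  [Algebra L K] [IsScalarTower L K Om]

theorem coe_algMap (x : L) : ((algebraMap L K x : K) : Om) = (x : Om) :=
  (IsScalarTower.algebraMap_apply L K Om x).symm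

theorem le_of_tower : L ≤ K := by
  intro x hx
  have := (algebraMap L K ⟨x, hx⟩ : K).2
  rwa [coe_algMap] at this

theorem isScalarTower_OO' : IsScalarTower (𝓞 L) (𝓞 K) Om :=
  IsScalarTower.of_algebraMap_eq fun x => IsScalarTower.algebraMap_apply L K Om (x : L)

theorem under_placeBelow' (A : ValuationSubring Om) {ℓ : ℕ} (hℓ : ℓ.Prime)
    (hA : A.LiesOverPrime ℓ) :
    under L (placeBelow K A hℓ hA) = placeBelow L A hℓ hA :=
  have := isScalarTower_OO' (L := L) (K := K)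
  HeightOneSpectrum.ext (Frob.below_comap (𝓞 L) (R' := 𝓞 K) A)

/-- if `g` and `τ` agree on `K`, they act in the same way on the places of `K` -/
theorem placeBelow_smul {g : Γ} {τ : Gal(K/L)} (h : ∀ x : K, ((τ x : K) : Om) = g (x : Om))
    {A : ValuationSubring Om} {ℓ : ℕ} (hℓ : ℓ.Prime) (hA : A.LiesOverPrime ℓ)
    (hA' : (g • A).LiesOverPrime ℓ) :
    placeBelow K (g • A) hℓ hA' = placeSmul τ (placeBelow K A hℓ hA) := by
  apply HeightOneSpectrum.ext
  change below (𝓞 K) (g • A) = τ • below (𝓞 K) A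
  ext x
  rw [Ideal.mem_pointwise_smul_iff_inv_smul_mem, mem_below, mem_below,
    Frob.mem_nonunits_smul_iff]
  have h1 : g⁻¹ • (algebraMap (𝓞 K) Om x) = algebraMap (𝓞 K) Om (τ⁻¹ • x) := by
    rw [inv_smul_eq_iff]
    have h2 := h ((τ⁻¹ • x : 𝓞 K) : K)
    have h3 : τ ((τ⁻¹ • x : 𝓞 K) : K) = (x : K) := by
      change τ (τ⁻¹ (x : K)) = x
      rw [← AlgEquiv.mul_apply, mul_inv_cancel, AlgEquiv.one_apply]
    rw [h3] at h2
    exact h2
  rw [← AlgEquiv.smul_def, h1]

/-- every element of `Gal(K/L)` comes from `Γ` -/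
theorem exists_lift [IsGalois L K] (τ : Gal(K/L)) :
    ∃ g ∈ L.fixingSubgroup, ∀ x : K, ((τ x : K) : Om) = g (x : Om) := by
  have : Normal L Om := inferInstance
  obtain ⟨σ, hσ⟩ := AlgEquiv.restrictNormalHom_surjective (F := L) (K₁ := K) (E := Om) τ
  refine ⟨σ.restrictScalars ℚ, ?_, fun x => ?_⟩
  · rw [IntermediateField.mem_fixingSubgroup_iff]
    intro x hx
    exact σ.commutes ⟨x, hx⟩
  · have h1 : σ.restrictNormal K = τ := hσ
    rw [← h1]
    exact AlgEquiv.restrictNormal_commutes σ K x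

/-- every element of `G_L` restricts to `K` -/
theorem exists_restrict [IsGalois L K] {g : Γ} (hg : g ∈ L.fixingSubgroup) :
    ∃ τ : Gal(K/L), ∀ x : K, ((τ x : K) : Om) = g (x : Om) := by
  rw [IntermediateField.mem_fixingSubgroup_iff] at hg
  let g' : Om ≃ₐ[L] Om := AlgEquiv.ofRingEquiv (f := (g : Om ≃+* Om)) (fun x => hg x x.2)
  exact ⟨g'.restrictNormal K, fun x => AlgEquiv.restrictNormal_commutes g' K x⟩

variable (L K) in
/-- `K = L(√a)` -/
structure Quad (a : Lˣ) where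
  α : K
  sq : α ^ 2 = algebraMap L K a
  nsq : ∀ b : L, b ^ 2 ≠ a
  top : IntermediateField.adjoin L {α} = ⊤
  τ : Gal(K/L)
  τα : τ α = -α

namespace Quad

variable {a : Lˣ} (Q : Quad L K a)

include Q

theorem hζL : IsPrimitiveRoot (-1 : L) 2 := IsPrimitiveRoot.neg_one 0 (by norm_num)

theorem isGalois : IsGalois L K := kummer_isGalois (p := 2) Q.hζL Q.nsq Q.sq Q.top

theorem finrank : Module.finrank L K = 2 := kummer_finrank (p := 2) Q.hζL Q.nsq Q.sq Q.top

theorem α_ne_zero : Q.α ≠ 0 := by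
  intro h
  have := Q.sq
  rw [h] at this
  have h2 : (algebraMap L K (a : L)) = 0 := by rw [← this]; ring
  rw [map_eq_zero] at h2
  exact a.ne_zero h2

theorem map_α (g : Gal(K/L)) : g Q.α = Q.α ∨ g Q.α = -Q.α := by
  have h : (g Q.α) ^ 2 = Q.α ^ 2 := by rw [← map_pow, Q.sq, AlgEquiv.commutes]
  exact sq_eq_sq_iff_eq_or_eq_neg.1 h

theorem eq_one_of {g : Gal(K/L)} (h : g Q.α = Q.α) : g = 1 :=
  kummer_eq_one (p := 2) Q.hζL Q.sq Q.top h

theorem ττ : Q.τ * Q.τ = 1 := by
  apply Q.eq_one_of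
  rw [AlgEquiv.mul_apply, Q.τα, map_neg, Q.τα, neg_neg]

theorem τ_τ (y : K) : Q.τ (Q.τ y) = y := by
  rw [← AlgEquiv.mul_apply, Q.ττ, AlgEquiv.one_apply]

theorem eq_one_or (g : Gal(K/L)) : g = 1 ∨ g = Q.τ := by
  rcases Q.map_α g with h | h
  · exact Or.inl (Q.eq_one_of h)
  · right
    have h1 : Q.τ * g = 1 := by
      apply Q.eq_one_of
      rw [AlgEquiv.mul_apply, h, map_neg, Q.τα, neg_neg]
    have h2 : Q.τ⁻¹ = Q.τ := by rw [inv_eq_iff_mul_eq_one, Q.ττ]
    rw [← h2]
    exact (inv_eq_of_mul_eq_one_right h1).symm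

theorem τ_ne_one : Q.τ ≠ 1 := by
  intro h
  have h1 := Q.τα
  rw [h, AlgEquiv.one_apply] at h1
  have h2 : (2 : K) * Q.α = 0 := by linear_combination h1
  rcases mul_eq_zero.1 h2 with h3 | h3
  · exact two_ne_zero h3
  · exact Q.α_ne_zero h3

theorem placeSmul_τ_τ (v : HeightOneSpectrum (𝓞 K)) :
    placeSmul Q.τ (placeSmul Q.τ v) = v := by
  apply HeightOneSpectrum.ext
  change Q.τ • Q.τ • v.asIdeal = v.asIdeal
  rw [← mul_smul, Q.ττ, one_smul]

theorem under_τ (v : HeightOneSpectrum (𝓞 K)) : under L (placeSmul Q.τ v) = under L v :=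
  under_placeSmul _ _

theorem eq_or_of_under {v w : HeightOneSpectrum (𝓞 K)} (h : under L v = under L w) :
    w = v ∨ w = placeSmul Q.τ v := by
  have := Q.isGalois
  obtain ⟨g, rfl⟩ := exists_placeSmul_eq h
  rcases Q.eq_one_or g with rfl | rfl
  · left
    apply HeightOneSpectrum.ext
    exact one_smul _ _
  · right; rfl

theorem val_τ (v : HeightOneSpectrum (𝓞 K)) (x : K) :
    (placeSmul Q.τ v).valuation K (Q.τ x) = v.valuation K x := valuation_smul _ _ _

theorem val_τ' (v : HeightOneSpectrum (𝓞 K)) (x : K) :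
    (placeSmul Q.τ v).valuation K x = v.valuation K (Q.τ x) := by
  rw [← Q.val_τ v (Q.τ x), Q.τ_τ]

/-- the place `𝔓` is fixed by `τ` iff `a` is not a square below -/
theorem ns_iff (v : HeightOneSpectrum (𝓞 K)) : NS (under L v) a ↔ placeSmul Q.τ v = v := by
  have := Q.isGalois
  obtain ⟨A, ℓ, hℓ, hA, rfl⟩ := exists_placeBelow v
  rw [under_placeBelow', Psi.ns_iff hℓ hA (β := (Q.α : Om)) (by
    have := congrArg (fun t : K => (t : Om)) Q.sq
    simpa [coe_algMap] using this)]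
  constructor
  · rintro ⟨g, hg, hgα⟩
    obtain ⟨τ, hτ⟩ := exists_restrict (K := K) hg.2
    have h1 : τ = Q.τ := by
      rcases Q.eq_one_or τ with h | h
      · exfalso
        apply hgα
        rw [← hτ, h]
        rfl
      · exact h
    rw [← h1]
    have hgA : g • A = A := hg.1
    have h2 := placeBelow_smul hτ hℓ hA (by rw [hgA]; exact hA)
    rw [← h2]
    congr 1
  · intro h
    have h1 : Q.τ • below (𝓞 K) A = below (𝓞 K) A := congrArg HeightOneSpectrum.asIdeal h
    obtain ⟨σ, hσ, hστ⟩ := Fermat.Agent.Frob.exists_mem_decomposition_restrict (K := L) K A hℓ hA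
      Q.τ h1
    refine ⟨_, mem_UA_restrictScalars hσ, ?_⟩
    intro h4
    apply Q.τ_ne_one
    apply Q.eq_one_of
    rw [← hστ]
    apply Subtype.ext
    exact (AlgEquiv.restrictNormal_commutes σ K Q.α).trans h4

end Quad

end

end Fermat.Agent.LT.Psi
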