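import Mathlib
import Fermat.Agent.LT.Psi.Tower

set_option linter.unusedSectionVars false
set_option linter.unusedVariables false
set_option autoImplicit false

/-!
# Quadratic extensions `K / L` inside `Qbar`: local computations
-/

open NumberField IsDedekindDomain nonZeroDivisors Pointwise

namespace Fermat.Agent.LT.Psi

open Fermat.Agent.CFT
open Fermat.Agent.Frob (below mem_below)
open Loc (GalGlob)

local notation "Om" => AlgebraicClosure ℚ

local notation "Γ" => (AlgebraicClosure ℚ ≃ₐ[ℚ] AlgebraicClosure ℚ)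

theorem finsum_fiber {X Y M : Type*} [AddCommMonoid M] (π : X → Y) (f : X → M)
    (hf : (Function.support f).Finite) :
    ∑ᶠ x, f x = ∑ᶠ y, ∑ᶠ (x : X) (_ : π x = y), f x := by
  classical
  rw [finsum_eq_sum_of_support_subset (s := hf.toFinset) _ (by rw [hf.coe_toFinset])]
  rw [← Finset.sum_fiberwise_of_maps_to (s := hf.toFinset) (t := hf.toFinset.image π) (g := π)
    (fun x hx => Finset.mem_image_of_mem π hx)]
  rw [finsum_eq_sum_of_support_subset (s := hf.toFinset.image π)]
  · refine Finset.sum_congr rfl fun y hy => ?_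
    rw [Finset.sum_filter]
    have h1 : ∀ x, (∑ᶠ (_ : π x = y), f x) = if π x = y then f x else 0 := fun x => by
      by_cases h : π x = y
      · rw [if_pos h, finsum_eq_if, if_pos h]
      · rw [if_neg h, finsum_eq_if, if_neg h]
    rw [finsum_congr h1, finsum_eq_sum_of_support_subset (s := hf.toFinset)]
    intro x hx
    rw [hf.coe_toFinset]
    intro h0
    apply hx
    simp only [h0, ite_self]
  · intro y hy
    rw [Function.mem_support] at hy
    rw [Finset.coe_image, hf.coe_toFinset]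
    by_contra hcon
    apply hy
    rw [← finsum_zero (α := X)]
    refine finsum_congr fun x => ?_
    rw [finsum_eq_if]
    split_ifs with h
    · by_contra h0
      exact hcon ⟨x, h0, h⟩
    · rfl

section Val

variable {K : Type*} [Field K] {Γ₀ : Type*} [LinearOrderedCommGroupWithZero Γ₀]

theorem val_aux (V : Valuation K Γ₀) {w x : K} (hw : w ≠ 0) (h2 : V 2 ≤ V (1 + w))
    (hx : V (x - 1) < V 2) (h2le : V 2 ≤ 1) : V 2 * V w ≤ V (w + x) := by
  rcases le_or_gt (V w) 1 with h | h
  · have h1 : V (w + x) = V (1 + w) := by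
      have e : w + x = (1 + w) + (x - 1) := by ring
      rw [e]
      exact Valuation.map_add_eq_of_lt_left _ (lt_of_lt_of_le hx h2)
    rw [h1]
    calc V 2 * V w ≤ V 2 * 1 := mul_le_mul_right h _
      _ = V 2 := mul_one _
      _ ≤ V (1 + w) := h2
  · have hx1 : V x = 1 := by
      have e : x = (x - 1) + 1 := by ring
      rw [e, Valuation.map_add_eq_of_lt_right _ (by rw [map_one]; exact lt_of_lt_of_le hx h2le),
        map_one]
    have h1 : V (w + x) = V w := Valuation.map_add_eq_of_lt_left _ (by rw [hx1]; exact h)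
    rw [h1]
    calc V 2 * V w ≤ 1 * V w := mul_le_mul_left h2le _
      _ = V w := one_mul _

end Val

section

variable {L K : IntermediateField ℚ Om} [FiniteDimensional ℚ L] [FiniteDimensional ℚ K]
  [Algebra L K] [IsScalarTower L K Om]

theorem near_up [IsGalois L K] {v : HeightOneSpectrum (𝓞 K)} {n : ℕ} {x : L} (h : Near (under L v) n x) :
    Near v n (algebraMap L K x) := by
  rw [Near] at h ⊢
  have h1 : algebraMap L K x - 1 = algebraMap L K (x - 1) := by rw [map_sub, map_one]
  rw [h1, ← HeightOneSpectrum.valuation_liesOver K (under L v) v]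
  have he : (under L v).asIdeal.ramificationIdx' v.asIdeal ≠ 0 := ramificationIdx_ne_zero v
  have h2 : (under L v).valuation L (x - 1) ≤ 1 := h.trans (exp_neg_le_one n)
  calc (under L v).valuation L (x - 1) ^ (under L v).asIdeal.ramificationIdx' v.asIdeal
      ≤ (under L v).valuation L (x - 1) := pow_le_of_le_one zero_le h2 he
    _ ≤ _ := h

namespace Quad

variable {a : Lˣ} (Q : Quad L K a)

include Q

theorem ramIdx {v : HeightOneSpectrum (𝓞 K)} (h2 : under L v ∉ Tp L 2)
    (ha : (2 : ℤ) ∣ ordH L (under L v) (Additive.ofMul a)) :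
    (under L v).asIdeal.ramificationIdx' v.asIdeal = 1 := by
  refine kummer_ramificationIdx_eq_one (p := 2) Q.hζL Q.nsq Q.sq Q.top v ?_ a.ne_zero ?_
  · intro h
    apply h2
    change ((2 : ℕ) : 𝓞 L) ∈ v.asIdeal.under (𝓞 L)
    rw [Ideal.mem_comap, map_natCast]
    exact h
  · have h : Units.mk0 (a : L) a.ne_zero = a := Units.ext rfl
    rw [h]
    exact ha

theorem ordH_alg {v : HeightOneSpectrum (𝓞 K)} (h2 : under L v ∉ Tp L 2)
    (ha : (2 : ℤ) ∣ ordH L (under L v) (Additive.ofMul a)) (x : Lˣ) :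
    ordH K v (Additive.ofMul (Units.map (algebraMap L K : L →* K) x)) =
      ordH L (under L v) (Additive.ofMul x) := by
  rw [ordH_algebraMap, Q.ramIdx h2 ha, Nat.cast_one, one_mul]

/-- `τ` on units -/
noncomputable def tu (x : Kˣ) : Kˣ := Units.map (Q.τ : K →* K) x

theorem coe_tu (x : Kˣ) : ((Q.tu x : Kˣ) : K) = Q.τ x := rfl

theorem tu_tu (x : Kˣ) : Q.tu (Q.tu x) = x := Units.ext (Q.τ_τ x)

theorem tu_mul (x y : Kˣ) : Q.tu (x * y) = Q.tu x * Q.tu y := Units.ext (map_mul Q.τ _ _)

theorem ordH_tu (v : HeightOneSpectrum (𝓞 K)) (x : Kˣ) :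
    ordH K v (Additive.ofMul (Q.tu x)) = ordH K (placeSmul Q.τ v) (Additive.ofMul x) := by
  have h1 := valuation_eq_exp v (Q.tu x)
  have h2 := valuation_eq_exp (placeSmul Q.τ v) x
  rw [coe_tu, ← Q.val_τ', h2, WithZero.exp_inj, neg_inj] at h1
  exact h1.symm

/-- the order of a norm -/
theorem ordH_norm {v : HeightOneSpectrum (𝓞 K)} (h2 : under L v ∉ Tp L 2)
    (ha : (2 : ℤ) ∣ ordH L (under L v) (Additive.ofMul a)) {x : Lˣ} {z : Kˣ}
    (hz : (z : K) * Q.τ z = algebraMap L K x) :
    ordH L (under L v) (Additive.ofMul x) =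
      ordH K v (Additive.ofMul z) + ordH K (placeSmul Q.τ v) (Additive.ofMul z) := by
  rw [← Q.ordH_alg h2 ha, ← Q.ordH_tu, ← map_add, ← ofMul_mul]
  congr 2
  apply Units.ext
  exact hz.symm

theorem near_τ {v : HeightOneSpectrum (𝓞 K)} {n : ℕ} {x : K} :
    Near (placeSmul Q.τ v) n (Q.τ x) ↔ Near v n x := by
  rw [Near, Near, ← Q.val_τ v (x - 1), map_sub Q.τ, map_one]

/-- invariance of the symbols -/
theorem hs_τ (v : HeightOneSpectrum (𝓞 K)) (x y : Kˣ) :
    hs K (placeSmul Q.τ v) (Q.tu x) (Q.tu y) = hs K v x y := by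
  have key : hs K (placeSmul Q.τ v) (Q.tu x) (Q.tu y) = 0 ↔ hs K v x y = 0 := by
    set n := lev v + lev (placeSmul Q.τ v) with hn
    rw [hs_eq_zero_iff_near (n := n) (by omega), hs_eq_zero_iff_near (n := n) (by omega)]
    constructor
    · rintro ⟨X, Y, h⟩
      refine ⟨Q.τ X, Q.τ Y, ?_⟩
      rw [← Q.near_τ]
      convert h using 1
      rw [coe_tu, coe_tu]
      simp only [map_div₀, map_sub, map_mul, map_pow, Q.τ_τ]
    · rintro ⟨X, Y, h⟩
      refine ⟨Q.τ X, Q.τ Y, ?_⟩
      rw [← Q.near_τ] at h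
      convert h using 1
      rw [coe_tu, coe_tu]
      simp only [map_div₀, map_sub, map_mul, map_pow]
  generalize hs K (placeSmul Q.τ v) (Q.tu x) (Q.tu y) = s at key
  generalize hs K v x y = t at key
  revert s t
  decide

/-- the level used in `fiber_sum_eq_zero` -/
noncomputable def lv2 (v : HeightOneSpectrum (𝓞 K)) : ℕ :=
  lev v + lev (placeSmul Q.τ v) + (ordH K v (Additive.ofMul (Units.mk0 (2 : K) two_ne_zero))).toNat
    + 1

theorem val_two (v : HeightOneSpectrum (𝓞 K)) : v.valuation K 2 ≤ 1 := by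
  have h1 := v.valuation_le_one (K := K) (2 : 𝓞 K)
  have h2 : algebraMap (𝓞 K) K 2 = 2 := map_ofNat _ 2
  rw [← h2]
  exact h1

theorem exp_lv2 (v : HeightOneSpectrum (𝓞 K)) :
    WithZero.exp (-(Q.lv2 v : ℤ)) =
      WithZero.exp (-((lev v + lev (placeSmul Q.τ v) + 1 : ℕ) : ℤ)) * v.valuation K 2 := by
  have h1 := valuation_eq_exp v (Units.mk0 (2 : K) two_ne_zero)
  rw [Units.val_mk0] at h1
  have h2 : 0 ≤ ordH K v (Additive.ofMul (Units.mk0 (2 : K) two_ne_zero)) := by
    have h3 := Q.val_two v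
    rw [h1, ← WithZero.exp_zero, WithZero.exp_le_exp] at h3
    omega
  rw [h1, ← WithZero.exp_add]
  congr 1
  rw [lv2]
  push_cast
  rw [Int.toNat_of_nonneg h2]
  ring

/-- the correction: `z τ(u) / u` is close to one -/
theorem exists_corr {v : HeightOneSpectrum (𝓞 K)} {x : L} {z : Kˣ}
    (hz : (z : K) * Q.τ z = algebraMap L K x) (hx : Near v (Q.lv2 v) (algebraMap L K x)) :
    ∃ u : Kˣ, Near v (lev v) ((z : K) * Q.τ u / u) ∧
      Near (placeSmul Q.τ v) (lev (placeSmul Q.τ v)) ((z : K) * Q.τ u / u) := by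
  -- a sign
  obtain ⟨w, c, hc0, hwc, hwx, h2w⟩ : ∃ w c : K, c ≠ 0 ∧ (z : K) * Q.τ c = w * c ∧
      w * Q.τ w = algebraMap L K x ∧ v.valuation K 2 ≤ v.valuation K (1 + w) := by
    have h1 : v.valuation K 2 ≤ max (v.valuation K (1 + z)) (v.valuation K (1 + -z)) := by
      have e : (2 : K) = (1 + z) + (1 + -z) := by ring
      conv_lhs => rw [e]
      exact Valuation.map_add _ _ _
    rcases le_max_iff.1 h1 with h | h
    · exact ⟨z, 1, one_ne_zero, by rw [map_one, mul_one], hz, h⟩
    · refine ⟨-z, Q.α, Q.α_ne_zero, by rw [Q.τα]; ring, ?_, h⟩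
      rw [map_neg, neg_mul_neg, hz]
  have hx' : v.valuation K (algebraMap L K x - 1) <
      v.valuation K 2 := by
    refine lt_of_le_of_lt hx ?_
    rw [Q.exp_lv2]
    have h0 : v.valuation K 2 ≠ 0 := by
      rw [Ne, map_eq_zero]; exact two_ne_zero
    have h3 : WithZero.exp (-((lev v + lev (placeSmul Q.τ v) + 1 : ℕ) : ℤ)) < 1 := by
      rw [← WithZero.exp_zero]
      exact WithZero.exp_lt_exp.2 (by omega)
    calc _ < 1 * v.valuation K 2 := by
          exact mul_lt_mul_of_pos_right h3 (zero_lt_iff.2 h0)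
      _ = _ := one_mul _
  have hw0 : w ≠ 0 := by
    rintro rfl
    have h4 : algebraMap L K x = 0 := by rw [← hwx, zero_mul]
    rw [h4] at hx
    exact (hx.ne_zero (by rw [lv2]; omega)) rfl
  have h20 : v.valuation K 2 ≠ 0 := by
    rw [Ne, map_eq_zero]; exact two_ne_zero
  have hw1 : 1 + w ≠ 0 := by
    intro h
    rw [h, map_zero] at h2w
    exact h20 (le_antisymm h2w zero_le)
  have hu0 : c * (1 + w) ≠ 0 := mul_ne_zero hc0 hw1
  -- the other place
  have h2w' : v.valuation K 2 ≤ (placeSmul Q.τ v).valuation K (1 + w) := by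
    rw [Q.val_τ', map_add, map_one]
    have h5 := val_aux (v.valuation K) hw0 h2w hx' (Q.val_two v)
    have h6 : (1 + Q.τ w) * w = w + algebraMap L K x := by rw [← hwx]; ring
    rw [← h6, map_mul] at h5
    exact le_of_mul_le_mul_right h5 (zero_lt_iff.2 (by rw [Ne, map_eq_zero]; exact hw0))
  have hkey : (z : K) * Q.τ (c * (1 + w)) / (c * (1 + w)) =
      1 + (algebraMap L K x - 1) / (1 + w) := by
    rw [map_mul, map_add, map_one]
    have h7 : (z : K) * (Q.τ c * (1 + Q.τ w)) = w * c + c * algebraMap L K x := by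
      rw [← hwx]
      linear_combination (1 + Q.τ w) * hwc
    rw [h7]
    field_simp
    ring
  have hgen : ∀ (V : Valuation K (WithZero (Multiplicative ℤ))) (m : ℕ),
      V (algebraMap L K x - 1) ≤ WithZero.exp (-(Q.lv2 v : ℤ)) → V 2 = v.valuation K 2 →
      V 2 ≤ V (1 + w) → m ≤ lev v + lev (placeSmul Q.τ v) + 1 →
      V ((z : K) * Q.τ (c * (1 + w)) / (c * (1 + w)) - 1) ≤ WithZero.exp (-(m : ℤ)) := by
    intro V m h8 h9 h10 hm
    rw [hkey, add_sub_cancel_left, map_div₀]
    have hpos : 0 < V (1 + w) := zero_lt_iff.2 (by rw [Ne, map_eq_zero]; exact hw1)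
    rw [div_le_iff₀ hpos]
    refine h8.trans ?_
    rw [Q.exp_lv2, ← h9]
    exact mul_le_mul' (WithZero.exp_le_exp.2 (by omega)) h10
  refine ⟨Units.mk0 _ hu0, ?_, ?_⟩
  · exact hgen (v.valuation K) (lev v) hx rfl h2w (by omega)
  · refine hgen ((placeSmul Q.τ v).valuation K) (lev (placeSmul Q.τ v)) ?_ ?_ ?_ (by omega)
    · rw [Q.val_τ', map_sub, map_one, AlgEquiv.commutes]
      exact hx
    · rw [Q.val_τ', map_ofNat]
    · rw [Q.val_τ' v 2, map_ofNat]
      exact h2w'

end Quad

end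

end Fermat.Agent.LT.Psi
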