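import Mathlib
import Fermat.Agent.LT.Psi.Tower2

set_option linter.unusedSectionVars false
set_option linter.unusedVariables false
set_option autoImplicit false

/-!
# Quadratic extensions `K / L` inside `Qbar`: sums over fibres
-/

open NumberField IsDedekindDomain nonZeroDivisors Pointwise

namespace Fermat.Agent.LT.Psi

open Fermat.Agent.CFT
open Fermat.Agent.Frob (below mem_below)
open Loc (GalGlob)

local notation "Om" => AlgebraicClosure ℚ

local notation "Γ" => (AlgebraicClosure ℚ ≃ₐ[ℚ] AlgebraicClosure ℚ)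

section

variable {L K : IntermediateField ℚ Om} [FiniteDimensional ℚ L] [FiniteDimensional ℚ K]
  [Algebra L K] [IsScalarTower L K Om]

theorem under_surj (P : HeightOneSpectrum (𝓞 L)) : ∃ v : HeightOneSpectrum (𝓞 K), under L v = P := by
  obtain ⟨A, ℓ, hℓ, hA, rfl⟩ := exists_placeBelow P
  exact ⟨placeBelow K A hℓ hA, under_placeBelow' A hℓ hA⟩

/-- the data at a good place -/
structure Good (a : Lˣ) (θ : Kˣ) (P : HeightOneSpectrum (𝓞 L)) : Prop where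
  two : P ∉ Tp L 2
  ord_a : (2 : ℤ) ∣ ordH L P (Additive.ofMul a)
  ord_θ : ∀ v : HeightOneSpectrum (𝓞 K), under L v = P → (2 : ℤ) ∣ ordH K v (Additive.ofMul θ)
  ns_θ : NS P a → ∀ v : HeightOneSpectrum (𝓞 K), under L v = P → NS v θ

namespace Quad

variable {a : Lˣ} (Q : Quad L K a)

include Q

theorem fiber_eq (v : HeightOneSpectrum (𝓞 K)) :
    {w : HeightOneSpectrum (𝓞 K) | under L w = under L v} = {v, placeSmul Q.τ v} := by
  ext w
  simp only [Set.mem_ofPred_eq, Set.mem_insert_iff, Set.mem_singleton_iff]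
  constructor
  · intro h
    exact Q.eq_or_of_under h.symm
  · rintro (rfl | rfl)
    · rfl
    · exact Q.under_τ v

theorem finsum_fiber_ns {M : Type*} [AddCommMonoid M] (f : HeightOneSpectrum (𝓞 K) → M)
    {v : HeightOneSpectrum (𝓞 K)} (h : placeSmul Q.τ v = v) :
    ∑ᶠ (w) (_ : under L w = under L v), f w = f v := by
  have h1 : ∑ᶠ (w) (_ : under L w = under L v), f w =
      ∑ᶠ (w) (_ : w ∈ {w : HeightOneSpectrum (𝓞 K) | under L w = under L v}), f w := rfl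
  rw [h1, Q.fiber_eq, h, Set.pair_eq_singleton, finsum_mem_singleton]

theorem finsum_fiber_sp {M : Type*} [AddCommMonoid M] (f : HeightOneSpectrum (𝓞 K) → M)
    {v : HeightOneSpectrum (𝓞 K)} (h : placeSmul Q.τ v ≠ v) :
    ∑ᶠ (w) (_ : under L w = under L v), f w = f v + f (placeSmul Q.τ v) := by
  have h1 : ∑ᶠ (w) (_ : under L w = under L v), f w =
      ∑ᶠ (w) (_ : w ∈ {w : HeightOneSpectrum (𝓞 K) | under L w = under L v}), f w := rfl
  rw [h1, Q.fiber_eq, finsum_mem_pair (Ne.symm h)]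

/-- `hs` at the conjugate place -/
theorem hs_conj {θ : Kˣ} (hθ : ∃ c : Kˣ, Q.tu θ = θ * c ^ 2) (v : HeightOneSpectrum (𝓞 K))
    (y : Kˣ) : hs K (placeSmul Q.τ v) θ (Q.tu y) = hs K v θ y := by
  obtain ⟨c, hc⟩ := hθ
  have h1 := Q.hs_τ v θ y
  rw [hc, hs_mul_left, hs_sq_left, add_zero] at h1
  exact h1

theorem hs_conj' {θ : Kˣ} (hθ : ∃ c : Kˣ, Q.tu θ = θ * c ^ 2) (v : HeightOneSpectrum (𝓞 K))
    (y : Kˣ) : hs K v θ (Q.tu y) = hs K (placeSmul Q.τ v) θ y := by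
  rw [← Q.hs_conj hθ v (Q.tu y), Q.tu_tu]

theorem ns_conj {θ : Kˣ} (hθ : ∃ c : Kˣ, Q.tu θ = θ * c ^ 2) (v : HeightOneSpectrum (𝓞 K)) :
    NS (placeSmul Q.τ v) θ ↔ NS v θ := by
  constructor
  · rintro ⟨y, hy⟩
    exact ⟨Q.tu y, by rwa [Q.hs_conj' hθ]⟩
  · rintro ⟨y, hy⟩
    exact ⟨Q.tu y, by rwa [Q.hs_conj hθ]⟩

/-- the local sum at a bad place -/
theorem hs_corr {θ : Kˣ} (hθ : ∃ c : Kˣ, Q.tu θ = θ * c ^ 2) {v : HeightOneSpectrum (𝓞 K)}
    {x : L} {z : Kˣ} (hz : (z : K) * Q.τ z = algebraMap L K x)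
    (hx : Near v (Q.lv2 v) (algebraMap L K x)) :
    ∃ u : Kˣ, hs K v θ z = hs K v θ u + hs K (placeSmul Q.τ v) θ u ∧
      hs K (placeSmul Q.τ v) θ z = hs K v θ u + hs K (placeSmul Q.τ v) θ u := by
  obtain ⟨u, h1, h2⟩ := Q.exists_corr hz hx
  have hval : (z : K) * Q.τ u / u = ((z * Q.tu u / u : Kˣ) : K) := by
    rw [Units.val_div_eq_div_val, Units.val_mul, coe_tu]
  rw [hval] at h1 h2
  have h3 := hs_near_right h1 θ
  have h4 := hs_near_right h2 θ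
  rw [hs_div_right, hs_mul_right, Q.hs_conj' hθ] at h3
  rw [hs_div_right, hs_mul_right, Q.hs_conj hθ] at h4
  have key : ∀ a b c : ZMod 2, a + b + c = 0 → a = c + b := by decide
  have key' : ∀ a b c : ZMod 2, a + b + c = 0 → a = b + c := by decide
  exact ⟨u, key _ _ _ h3, key' _ _ _ h4⟩

theorem fiber_sum_eq_zero {θ : Kˣ} (hθ : ∃ c : Kˣ, Q.tu θ = θ * c ^ 2)
    {v : HeightOneSpectrum (𝓞 K)}
    {x : L} {z : Kˣ} (hz : (z : K) * Q.τ z = algebraMap L K x)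
    (hx : Near v (Q.lv2 v) (algebraMap L K x)) :
    ∑ᶠ (w) (_ : under L w = under L v), hs K w θ z = 0 := by
  obtain ⟨u, h1, h2⟩ := Q.hs_corr hθ hz hx
  by_cases h : placeSmul Q.τ v = v
  · rw [Q.finsum_fiber_ns _ h, h1, h, zmod2_add_self]
  · rw [Q.finsum_fiber_sp _ h, h1, h2, zmod2_add_self]

omit Q in
theorem mem_Tp_under {v : HeightOneSpectrum (𝓞 K)} (h : v ∈ Tp K 2) : under L v ∈ Tp L 2 := by
  change ((2 : ℕ) : 𝓞 L) ∈ v.asIdeal.under (𝓞 L)
  rw [Ideal.mem_comap, map_natCast]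
  exact h

open scoped Classical in
/-- the value `β_P` -/
noncomputable def bt (θ : Kˣ) (P : HeightOneSpectrum (𝓞 L)) : ZMod 2 :=
  if ∃ v : HeightOneSpectrum (𝓞 K), under L v = P ∧ NS v θ then 1 else 0

omit Q in
theorem bt_of_ns {θ : Kˣ} {v : HeightOneSpectrum (𝓞 K)} (h : NS v θ) : bt θ (under L v) = 1 :=
  if_pos ⟨v, rfl, h⟩

theorem bt_of_not {θ : Kˣ} (hθ : ∃ c : Kˣ, Q.tu θ = θ * c ^ 2) {v : HeightOneSpectrum (𝓞 K)}
    (h : ¬ NS v θ) : bt θ (under L v) = 0 := by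
  rw [bt, if_neg]
  rintro ⟨w, hw, hns⟩
  rcases Q.eq_or_of_under hw.symm with rfl | rfl
  · exact h hns
  · exact h ((Q.ns_conj hθ v).1 hns)

/-- the symbol at a good place -/
theorem hs_good [IsTotallyComplex K] {θ : Kˣ} (hθ : ∃ c : Kˣ, Q.tu θ = θ * c ^ 2)
    {v : HeightOneSpectrum (𝓞 K)} (hP : Good a θ (under L v)) (z : Kˣ) :
    hs K v θ z = bt θ (under L v) * (ordH K v (Additive.ofMul z) : ZMod 2) := by
  by_cases h : NS v θ
  · rw [bt_of_ns h, one_mul]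
    obtain ⟨y, hy⟩ := h
    exact hs_of_even (fun h2 => hP.two (mem_Tp_under h2)) (hP.ord_θ v rfl) hy z
  · rw [Q.bt_of_not hθ h, zero_mul]
    exact not_ns_iff.1 h z

/-- the local sum at a good split place -/
theorem fiber_sum_split [IsTotallyComplex K] {θ : Kˣ} (hθ : ∃ c : Kˣ, Q.tu θ = θ * c ^ 2)
    {P : HeightOneSpectrum (𝓞 L)} (hP : Good a θ P) (hsp : ¬ NS P a)
    {x : Lˣ} {z : Kˣ} (hz : (z : K) * Q.τ z = algebraMap L K x) :
    ∑ᶠ (w) (_ : under L w = P), hs K w θ z = bt θ P * (ordH L P (Additive.ofMul x) : ZMod 2) := by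
  obtain ⟨v, rfl⟩ := under_surj (K := K) P
  have h1 : placeSmul Q.τ v ≠ v := fun h => hsp ((Q.ns_iff v).2 h)
  have h3 : Psi.hs K (placeSmul Q.τ v) θ z =
      bt θ (under L v) * (ordH K (placeSmul Q.τ v) (Additive.ofMul z) : ZMod 2) := by
    have h4 := Q.hs_good hθ (v := placeSmul Q.τ v) (by rw [Q.under_τ]; exact hP) z
    rwa [Q.under_τ] at h4
  rw [Q.finsum_fiber_sp _ h1, h3, Q.hs_good hθ hP, Q.ordH_norm hP.two hP.ord_a hz]
  push_cast
  ring

/-- the local sum at a good nonsplit place -/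
theorem fiber_sum_nonsplit [IsTotallyComplex K] {θ : Kˣ} (hθ : ∃ c : Kˣ, Q.tu θ = θ * c ^ 2)
    {P : HeightOneSpectrum (𝓞 L)} (hP : Good a θ P) (hsp : NS P a)
    {x : Lˣ} {z : Kˣ} (hz : (z : K) * Q.τ z = algebraMap L K x) :
    ∃ m : ℤ, ordH L P (Additive.ofMul x) = 2 * m ∧
      ∑ᶠ (w) (_ : under L w = P), hs K w θ z = (m : ZMod 2) := by
  obtain ⟨v, rfl⟩ := under_surj (K := K) P
  have h1 : placeSmul Q.τ v = v := (Q.ns_iff v).1 hsp
  refine ⟨ordH K v (Additive.ofMul z), ?_, ?_⟩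
  · rw [Q.ordH_norm hP.two hP.ord_a hz, h1]; ring
  · rw [Q.finsum_fiber_ns _ h1, Q.hs_good hθ hP, bt_of_ns (hP.ns_θ hsp v rfl), one_mul]

end Quad

end

end Fermat.Agent.LT.Psi
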