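import Mathlib
import Fermat.Agent.LT.Psi.Tower3
import Fermat.Agent.LT.Psi.Ext

set_option linter.unusedSectionVars false
set_option linter.unusedVariables false
set_option autoImplicit false

/-!
# The quartic character over `L`
-/

open NumberField IsDedekindDomain nonZeroDivisors Pointwise

namespace Fermat.Agent.LT.Psi

open Fermat.Agent.CFT
open Fermat.Agent.Frob (below mem_below)
open Loc (GalGlob)

local notation "Om" => AlgebraicClosure ℚ

local notation "Γ" => (AlgebraicClosure ℚ ≃ₐ[ℚ] AlgebraicClosure ℚ)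

/-- the order of `x` at `P` -/
noncomputable abbrev od {F : Type*} [Field F] [NumberField F] (P : HeightOneSpectrum (𝓞 F))
    (x : Fˣ) : ℤ := ordH F P (Additive.ofMul x)

section

variable {F : Type*} [Field F] [NumberField F] (P : HeightOneSpectrum (𝓞 F))

theorem od_mul (x y : Fˣ) : od P (x * y) = od P x + od P y := by
  rw [od, ofMul_mul, map_add]

theorem od_one : od P (1 : Fˣ) = 0 := by
  rw [od, ofMul_one, map_zero]

theorem finite_od (x : Fˣ) : {P | od P x ≠ 0}.Finite := finite_ordH_ne_zero _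

theorem Near.od_eq {P : HeightOneSpectrum (𝓞 F)} {n : ℕ} (hn : 1 ≤ n) {x : Fˣ}
    (h : Near P n (x : F)) : od P x = 0 := by
  have h1 := h.val_eq hn
  rw [valuation_eq_exp, ← WithZero.exp_zero, WithZero.exp_inj] at h1
  rw [od]
  omega

theorem exists_bound {α : Type*} {B : Set α} (hB : B.Finite) (f : α → ℕ) :
    ∃ n, 1 ≤ n ∧ ∀ x ∈ B, f x ≤ n := by
  obtain ⟨n, hn⟩ := (hB.image f).bddAbove
  exact ⟨max n 1, le_max_right _ _, fun x hx => (hn ⟨x, hx, rfl⟩).trans (le_max_left _ _)⟩

end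

section

variable {L K : IntermediateField ℚ Om} [FiniteDimensional ℚ L] [FiniteDimensional ℚ K]
  [Algebra L K] [IsScalarTower L K Om]

open scoped Classical in
/-- the symbol of `a` and `x` when `x` is close to one at the bad places -/
theorem hs_out [IsTotallyComplex L] {a : Lˣ} {B : Set (HeightOneSpectrum (𝓞 L))}
    (hB : ∀ P ∉ B, P ∉ Tp L 2 ∧ (2 : ℤ) ∣ od P a)
    {n : ℕ} (hn : ∀ P ∈ B, lev P ≤ n) {x : Lˣ} (hx : ∀ P ∈ B, Near P n (x : L))
    (P : HeightOneSpectrum (𝓞 L)) :
    hs L P a x = if P ∉ B ∧ NS P a then (od P x : ZMod 2) else 0 := by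
  by_cases h : P ∈ B
  · rw [if_neg (fun h' => h'.1 h), hs_near_right (near_mono (hn P h) (hx P h))]
  · by_cases h1 : NS P a
    · rw [if_pos ⟨h, h1⟩]
      obtain ⟨y, hy⟩ := h1
      exact hs_of_even (hB P h).1 (hB P h).2 hy x
    · rw [if_neg (fun h' => h1 h'.2)]
      exact not_ns_iff.1 h1 x

namespace Quad

variable {a : Lˣ} (Q : Quad L K a)

include Q

theorem exists_level (B : Set (HeightOneSpectrum (𝓞 L))) (hB : B.Finite) :
    ∃ n, 1 ≤ n ∧ (∀ P ∈ B, lev P ≤ n) ∧
      ∀ P ∈ B, ∃ v : HeightOneSpectrum (𝓞 K), under L v = P ∧ Q.lv2 v ≤ n := by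
  obtain ⟨n, h1, hn⟩ := exists_bound hB (fun P => lev P + Q.lv2 (under_surj (K := K) P).choose)
  refine ⟨n, h1, fun P hP => ?_, fun P hP => ⟨_, (under_surj (K := K) P).choose_spec, ?_⟩⟩
  · have := hn P hP; omega
  · have := hn P hP; omega

open scoped Classical in
/-- the main identity -/
theorem star [IsTotallyComplex L] [IsTotallyComplex K] {θ : Kˣ}
    (hθ : ∃ c : Kˣ, Q.tu θ = θ * c ^ 2) {B : Set (HeightOneSpectrum (𝓞 L))}
    (hgood : ∀ P ∉ B, Good (K := K) a θ P) {n : ℕ} (h1n : 1 ≤ n) (hn : ∀ P ∈ B, lev P ≤ n)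
    (hn2 : ∀ P ∈ B, ∃ v : HeightOneSpectrum (𝓞 K), under L v = P ∧ Q.lv2 v ≤ n)
    {x : Lˣ} (hx : ∀ P ∈ B, Near P n (x : L))
    (hev : ∀ P ∉ B, NS P a → (2 : ℤ) ∣ od P x) :
    ∑ᶠ P, (if P ∈ B then 0 else if NS P a then ((od P x / 2 : ℤ) : ZMod 2) else
      bt θ P * (od P x : ZMod 2)) = 0 := by
  have := Q.isGalois
  have h1 : ∀ P, hs L P a x = 0 := by
    intro P
    rw [hs_out (fun P hP => ⟨(hgood P hP).two, (hgood P hP).ord_a⟩) hn hx P]
    split_ifs with h
    · exact (ZMod.intCast_zmod_eq_zero_iff_dvd _ _).2 (hev P h.1 h.2)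
    · rfl
  obtain ⟨X, Y, hXY⟩ := exists_norm_of_hs h1
  have hz : (algebraMap L K X + Q.α * algebraMap L K Y) *
      Q.τ (algebraMap L K X + Q.α * algebraMap L K Y) = algebraMap L K x := by
    rw [← hXY]
    simp only [map_add, map_mul, map_sub, map_pow, AlgEquiv.commutes, Q.τα, ← Q.sq]
    ring
  have hz0 : algebraMap L K X + Q.α * algebraMap L K Y ≠ 0 := by
    intro h0
    rw [h0, zero_mul] at hz
    exact x.ne_zero ((map_eq_zero (algebraMap L K)).1 hz.symm)
  set z : Kˣ := Units.mk0 _ hz0 with hzdef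
  have hz' : (z : K) * Q.τ z = algebraMap L K x := hz
  have h2 := sum_hs θ z
  rw [finsum_fiber (under L) _ (finite_hs θ z)] at h2
  refine Eq.trans (finsum_congr fun P => ?_) h2
  by_cases hP : P ∈ B
  · rw [if_pos hP]
    obtain ⟨v, rfl, hv⟩ := hn2 P hP
    exact (Q.fiber_sum_eq_zero hθ hz' (near_mono hv (near_up (hx _ hP)))).symm
  · rw [if_neg hP]
    by_cases h : NS P a
    · rw [if_pos h]
      obtain ⟨m, hm, hsum⟩ := Q.fiber_sum_nonsplit hθ (hgood P hP) h hz'
      rw [hsum, od, hm, Int.mul_ediv_cancel_left _ (by norm_num : (2 : ℤ) ≠ 0)]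
    · rw [if_neg h]
      exact (Q.fiber_sum_split hθ (hgood P hP) h hz').symm

end Quad

/-- elements close to one at `B` -/
def nearS (B : Set (HeightOneSpectrum (𝓞 L))) (n : ℕ) (hn : 1 ≤ n) : Subgroup Lˣ where
  carrier := {x | ∀ P ∈ B, Near P n (x : L)}
  mul_mem' := fun {x y} hx hy P hP => by
    rw [Units.val_mul]; exact (hx P hP).mul (hy P hP)
  one_mem' := fun P hP => near_one n
  inv_mem' := fun {x} hx P hP => by
    rw [Units.val_inv_eq_inv_val]; exact (hx P hP).inv hn

open scoped Classical in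
/-- the parity vector -/
noncomputable def parity (a : Lˣ) (B : Set (HeightOneSpectrum (𝓞 L))) (x : Lˣ) :
    HeightOneSpectrum (𝓞 L) →₀ ZMod 2 :=
  Finsupp.ofSupportFinite (fun P => if P ∉ B ∧ NS P a then (od P x : ZMod 2) else 0)
    ((finite_od x).subset fun P hP => by
      intro h0
      apply hP
      simp only [h0, Int.cast_zero, ite_self])

open scoped Classical in
theorem parity_apply (a : Lˣ) (B : Set (HeightOneSpectrum (𝓞 L))) (x : Lˣ)
    (P : HeightOneSpectrum (𝓞 L)) :
    parity a B x P = if P ∉ B ∧ NS P a then (od P x : ZMod 2) else 0 := rfl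

open scoped Classical in
/-- the first approximation to the character -/
noncomputable def psi0 (a : Lˣ) (θ : Kˣ) (B : Set (HeightOneSpectrum (𝓞 L)))
    (P : HeightOneSpectrum (𝓞 L)) : ZMod 4 :=
  if P ∈ B then 0 else if NS P a then 1 else dbl (Quad.bt θ P)

theorem finite_mul_od (f : HeightOneSpectrum (𝓞 L) → ZMod 4) (x : Lˣ) :
    (Function.support fun P => (od P x : ZMod 4) * f P).Finite :=
  (finite_od x).subset fun P hP => by
    intro h0
    apply hP
    change (od P x : ZMod 4) * f P = 0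
    rw [h0, Int.cast_zero, zero_mul]

/-- the homomorphism attached to a function on the places -/
noncomputable def evalHom (f : HeightOneSpectrum (𝓞 L) → ZMod 4) : Additive Lˣ →+ ZMod 4 where
  toFun x := ∑ᶠ P, (od P x.toMul : ZMod 4) * f P
  map_zero' := by
    rw [← finsum_zero (α := HeightOneSpectrum (𝓞 L)) (M := ZMod 4)]
    refine finsum_congr fun P => ?_
    rw [toMul_zero, od_one, Int.cast_zero, zero_mul]
  map_add' x y := by
    rw [← finsum_add_distrib (finite_mul_od f _) (finite_mul_od f _)]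
    refine finsum_congr fun P => ?_
    rw [toMul_add, od_mul]
    push_cast
    ring

theorem evalHom_apply (f : HeightOneSpectrum (𝓞 L) → ZMod 4) (x : Lˣ) :
    evalHom f (Additive.ofMul x) = ∑ᶠ P, (od P x : ZMod 4) * f P := rfl

theorem cast_aux (f : ZMod 2) (m : ℤ) : 2 * ((m : ZMod 4) * dbl f) = 0 := by
  rw [mul_left_comm, two_mul_dbl, mul_zero]

theorem dbl_aux (m : ℤ) (f : ZMod 2) : (m : ZMod 4) * dbl f = dbl (m * f) := by
  have h : ∀ (c : ZMod 2), dbl c = (2 * (c.val : ZMod 4)) := by decide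
  have h3 : ((m : ZMod 2)).val % 2 = m % 2 := by
    have := ZMod.val_intCast (n := 2) m
    rw [this]
    norm_num
  rcases Int.even_or_odd' m with ⟨k, hk | hk⟩
  · subst hk
    have h2 : ((2 * k : ℤ) : ZMod 2) = 0 := by
      rw [Int.cast_mul]
      have : ((2 : ℤ) : ZMod 2) = 0 := by decide
      rw [this, zero_mul]
    rw [h2, zero_mul, Int.cast_mul, mul_right_comm]
    have h4 : ((2 : ℤ) : ZMod 4) * dbl f = 0 := by
      revert f; decide
    rw [h4, zero_mul]; rfl
  · subst hk
    have h2 : ((2 * k + 1 : ℤ) : ZMod 2) = 1 := by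
      rw [Int.cast_add, Int.cast_mul]
      have : ((2 : ℤ) : ZMod 2) = 0 := by decide
      rw [this, zero_mul, Int.cast_one, zero_add]
    rw [h2, one_mul, Int.cast_add, Int.cast_mul, add_mul, mul_right_comm]
    have h4 : ((2 : ℤ) : ZMod 4) * dbl f = 0 := by
      revert f; decide
    rw [h4, zero_mul, zero_add, Int.cast_one, one_mul]

namespace Quad

variable {a : Lˣ} (Q : Quad L K a)

include Q

/-- **the quartic character over `L`** -/
theorem exists_psi [IsTotallyComplex L] [IsTotallyComplex K] {θ : Kˣ}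
    (hθ : ∃ c : Kˣ, Q.tu θ = θ * c ^ 2) {B : Set (HeightOneSpectrum (𝓞 L))} (hB : B.Finite)
    (hgood : ∀ P ∉ B, Good (K := K) a θ P) :
    ∃ (ψ : HeightOneSpectrum (𝓞 L) → ZMod 4) (n : ℕ), 1 ≤ n ∧ (∀ P ∈ B, ψ P = 0) ∧
      (∀ P ∉ B, NS P a → ψ P = 1 ∨ ψ P = 3) ∧
      (∀ P ∉ B, ¬ NS P a → ψ P = dbl (bt θ P)) ∧
      ∀ x : Lˣ, (∀ P ∈ B, Near P n (x : L)) → ∑ᶠ P, (od P x : ZMod 4) * ψ P = 0 := by
  classical
  obtain ⟨n, h1n, hn, hn2⟩ := Q.exists_level B hB
  let S := nearS B n h1n
  let D : Additive S →+ (HeightOneSpectrum (𝓞 L) →₀ ZMod 2) :=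
    { toFun := fun x => parity a B (x.toMul : Lˣ)
      map_zero' := by
        ext P
        rw [parity_apply, toMul_zero, Subgroup.coe_one, od_one, Int.cast_zero, ite_self]
        rfl
      map_add' := fun x y => by
        ext P
        rw [Finsupp.add_apply, parity_apply, parity_apply, parity_apply, toMul_add,
          Subgroup.coe_mul, od_mul]
        split_ifs
        · push_cast; rfl
        · rw [add_zero] }
  let ε : Additive S →+ ZMod 4 := (evalHom (psi0 a θ B)).comp S.subtype.toAdditive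
  have hε : ∀ x : S, ε (Additive.ofMul x) = ∑ᶠ P, (od P (x : Lˣ) : ZMod 4) * psi0 a θ B P :=
    fun x => rfl
  have hD : ∀ (x : S) P, D (Additive.ofMul x) P =
      if P ∉ B ∧ NS P a then (od P (x : Lˣ) : ZMod 2) else 0 := fun x P => rfl
  have hbad : ∀ P ∉ B, P ∉ Tp L 2 ∧ (2 : ℤ) ∣ od P a :=
    fun P hP => ⟨(hgood P hP).two, (hgood P hP).ord_a⟩
  have h2 : ∀ x, 2 * ε x = 0 := by
    intro x
    obtain ⟨x, rfl⟩ := Additive.ofMul.surjective x
    rw [hε]
    refine ((AddMonoidHom.mulLeft (2 : ZMod 4)).map_finsum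
      (finite_mul_od (psi0 a θ B) (x : Lˣ))).trans ?_
    simp only [AddMonoidHom.coe_mulLeft]
    have h3 : ∀ P, 2 * ((od P (x : Lˣ) : ZMod 4) * psi0 a θ B P) = dblHom (hs L P a x) := by
      intro P
      rw [hs_out hbad hn x.2 P]
      by_cases hP : P ∈ B
      · rw [if_neg (fun h => h.1 hP), psi0, if_pos hP, mul_zero, mul_zero]; rfl
      · by_cases h : NS P a
        · rw [if_pos ⟨hP, h⟩, psi0, if_neg hP, if_pos h, mul_one]
          change _ = dbl _
          have h5 := dbl_aux (od P (x : Lˣ)) 1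
          rw [mul_one] at h5
          rw [← h5, mul_comm]
          rfl
        · rw [if_neg (fun h' => h h'.2), psi0, if_neg hP, if_neg h, cast_aux]; rfl
    rw [finsum_congr h3, ← AddMonoidHom.map_finsum _ (finite_hs a x), sum_hs, map_zero]
  have hker : ∀ x, D x = 0 → ε x = 0 := by
    intro x hx
    obtain ⟨x, rfl⟩ := Additive.ofMul.surjective x
    have hev : ∀ P ∉ B, NS P a → (2 : ℤ) ∣ od P (x : Lˣ) := by
      intro P hP h
      have h4 := DFunLike.congr_fun hx P
      rw [hD, if_pos ⟨hP, h⟩, Finsupp.zero_apply] at h4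
      exact (ZMod.intCast_zmod_eq_zero_iff_dvd _ _).1 h4
    have h5 := Q.star hθ hgood h1n hn hn2 x.2 hev
    rw [hε]
    have h6 : ∀ P, (od P (x : Lˣ) : ZMod 4) * psi0 a θ B P = dblHom (if P ∈ B then 0 else
        if NS P a then ((od P (x : Lˣ) / 2 : ℤ) : ZMod 2) else
          bt θ P * (od P (x : Lˣ) : ZMod 2)) := by
      intro P
      change _ = dbl _
      by_cases hP : P ∈ B
      · rw [if_pos hP, psi0, if_pos hP, mul_zero]; rfl
      · rw [if_neg hP, psi0, if_neg hP]
        by_cases h : NS P a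
        · rw [if_pos h, if_pos h, mul_one]
          obtain ⟨m, hm⟩ := hev P hP h
          rw [hm, Int.mul_ediv_cancel_left _ (by norm_num : (2 : ℤ) ≠ 0), Int.cast_mul]
          have h7 := dbl_aux m 1
          rw [mul_one] at h7
          rw [← h7, mul_comm]
          rfl
        · rw [if_neg h, if_neg h, dbl_aux, mul_comm]
    rw [finsum_congr h6, ← AddMonoidHom.map_finsum, h5, map_zero]
    refine (finite_od (x : Lˣ)).subset fun P hP => ?_
    intro h0
    apply hP
    simp [h0]
  obtain ⟨l, hl⟩ := exists_ext D ε h2 hker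
  refine ⟨fun P => psi0 a θ B P + (if P ∉ B ∧ NS P a then dbl (l P) else 0), n, h1n, ?_, ?_, ?_, ?_⟩
  · intro P hP
    simp [psi0, hP]
  · intro P hP h
    have h8 : ∀ c : ZMod 2, 1 + dbl c = 1 ∨ 1 + dbl c = 3 := by decide
    simp only [psi0, hP, h, if_true, if_false, not_false_eq_true, and_self]
    exact h8 _
  · intro P hP h
    simp [psi0, hP, h]
  · intro x hx
    have h9 := hl (Additive.ofMul (⟨x, hx⟩ : S))
    rw [hε] at h9
    change ∑ᶠ P, (od P x : ZMod 4) * psi0 a θ B P = _ at h9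
    have h10 : ∀ P, (od P x : ZMod 4) * (psi0 a θ B P + (if P ∉ B ∧ NS P a then dbl (l P) else 0))
        = (od P x : ZMod 4) * psi0 a θ B P +
          (od P x : ZMod 4) * (if P ∉ B ∧ NS P a then dbl (l P) else 0) := fun P => mul_add _ _ _
    rw [finsum_congr h10, finsum_add_distrib (finite_mul_od _ _) (finite_mul_od _ _), h9]
    have h11 : ∀ P, (od P x : ZMod 4) * (if P ∉ B ∧ NS P a then dbl (l P) else 0) =
        dblHom (D (Additive.ofMul (⟨x, hx⟩ : S)) P * l P) := by
      intro P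
      rw [hD]
      change _ = dbl _
      split_ifs
      · rw [dbl_aux]
      · rw [mul_zero, zero_mul]; rfl
    have h12 : ∑ᶠ P, (od P x : ZMod 4) * (if P ∉ B ∧ NS P a then dbl (l P) else 0) =
        dbl ((D (Additive.ofMul (⟨x, hx⟩ : S))).sum fun i c => c * l i) := by
      rw [finsum_congr h11, ← AddMonoidHom.map_finsum]
      · change dbl _ = dbl _
        congr 1
        rw [finsum_eq_sum_of_support_subset (s := (D (Additive.ofMul (⟨x, hx⟩ : S))).support)]
        · rfl
        · intro P hP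
          rw [Finset.mem_coe, Finsupp.mem_support_iff]
          intro h0
          apply hP
          simp only [h0, zero_mul]
      · refine (D (Additive.ofMul (⟨x, hx⟩ : S))).hasFiniteSupport.subset fun P hP => ?_
        rw [Function.mem_support] at hP ⊢
        intro h0
        exact hP (by rw [h0, zero_mul])
    rw [h12]
    have h13 : ∀ c : ZMod 2, dbl c + dbl c = 0 := by decide
    exact h13 _

end Quad

end

end Fermat.Agent.LT.Psi
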