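import Mathlib
import Fermat.Agent.LT.Psi.Star

set_option linter.unusedSectionVars false
set_option linter.unusedVariables false
set_option autoImplicit false

/-!
# Quadratic Kummer theory inside `Qbar`
-/

open NumberField IsDedekindDomain nonZeroDivisors Pointwise

namespace Fermat.Agent.LT.Psi

open Fermat.Agent.CFT
open Fermat.Agent.Frob (below mem_below)
open Loc (GalGlob)

local notation "Om" => AlgebraicClosure ℚ

local notation "Γ" => (AlgebraicClosure ℚ ≃ₐ[ℚ] AlgebraicClosure ℚ)

section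

variable {L : IntermediateField ℚ Om}

/-- a quadratic character is given by a square root -/
theorem exists_sqrt {κ : L.fixingSubgroup → ZMod 2} (hκ : (LL L).LC κ)
    (hκm : ∀ g h, κ (g * h) = κ g + κ h) :
    ∃ (x : Lˣ) (β : Om), β ≠ 0 ∧ β ^ 2 = ((x : L) : Om) ∧
      ∀ g : L.fixingSubgroup, (g : Γ) β = β ↔ κ g = 0 := by
  obtain ⟨y, hy0, hy, hκ'⟩ := exists_kummer_eq hz2 (isGal_Om.restrict _)
    (mem_iff_fixed.1 (neg_mem (one_mem L) : (-1 : Om) ∈ L)) hκ hκm
  have hyL : y ^ 2 ∈ L := mem_iff_fixed.2 hy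
  have hne : (⟨y ^ 2, hyL⟩ : L) ≠ 0 := by
    intro h
    exact pow_ne_zero 2 hy0 (congrArg Subtype.val h)
  refine ⟨Units.mk0 ⟨y ^ 2, hyL⟩ hne, y, hy0, rfl, fun g => ?_⟩
  rw [hκ']
  exact (kummer_eq_zero_iff hz2 hy0 (hy g)).symm

/-- characters trivial on a field are locally constant -/
theorem lc_of_field {κ : L.fixingSubgroup → ZMod 2} (hκm : ∀ g h, κ (g * h) = κ g + κ h)
    {F : IntermediateField ℚ Om} [FiniteDimensional ℚ F]
    (h : ∀ g : L.fixingSubgroup, (g : Γ) ∈ F.fixingSubgroup → κ g = 0) : (LL L).LC κ := by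
  refine ⟨_, ⟨F.fixingSubgroup, mem_galLevels.2 ⟨F, inferInstance, le_rfl⟩, le_rfl⟩, fun g s hs => ?_⟩
  rw [hκm, h s hs, add_zero]

end

section

variable {L K : IntermediateField ℚ Om} [FiniteDimensional ℚ L] [FiniteDimensional ℚ K]
  [Algebra L K] [IsScalarTower L K Om]

theorem fix_anti : K.fixingSubgroup ≤ L.fixingSubgroup :=
  IntermediateField.fixingSubgroup_antitone (le_of_tower (L := L) (K := K))

/-- construction of the quadratic data -/
theorem exists_quad {x : Lˣ} {β : Om} (hβ : β ^ 2 = ((x : L) : Om))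
    (hK : ∀ g ∈ L.fixingSubgroup, g ∈ K.fixingSubgroup ↔ g β = β)
    {g0 : Γ} (hg0 : g0 ∈ L.fixingSubgroup) (hg0β : g0 β ≠ β) :
    ∃ Q : Quad L K x, ((Q.α : K) : Om) = β := by
  have hβ0 : β ≠ 0 := by
    rintro rfl
    exact hg0β (map_zero g0)
  have hsign : ∀ g ∈ L.fixingSubgroup, g β = β ∨ g β = -β := by
    intro g hg
    have h1 : (g β) ^ 2 = β ^ 2 := by
      rw [← map_pow, hβ]
      exact (IntermediateField.mem_fixingSubgroup_iff _ _).1 hg _ (x : L).2
    exact sq_eq_sq_iff_eq_or_eq_neg.1 h1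
  have hβK : β ∈ K := by
    rw [mem_iff_fixed]
    intro g
    exact (hK g (fix_anti (L := L) g.2)).1 g.2
  set α : K := ⟨β, hβK⟩ with hα
  have hα0 : α ≠ 0 := fun h => hβ0 (congrArg Subtype.val h)
  have hsq : α ^ 2 = algebraMap L K x := by
    apply Subtype.ext
    rw [coe_algMap]
    exact hβ
  have hnsq : ∀ b : L, b ^ 2 ≠ x := by
    intro b hb
    have h1 : (b : Om) ^ 2 = β ^ 2 := by
      rw [hβ, ← hb]; rfl
    apply hg0β
    have h2 : g0 (b : Om) = b := (IntermediateField.mem_fixingSubgroup_iff _ _).1 hg0 _ b.2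
    rcases sq_eq_sq_iff_eq_or_eq_neg.1 h1 with h | h
    · rw [← h, h2]
    · have h3 : β = -(b : Om) := by rw [h, neg_neg]
      rw [h3, map_neg, h2]
  have hg0β' : g0 β = -β := (hsign g0 hg0).resolve_left hg0β
  have htop : IntermediateField.adjoin L {α} = ⊤ := by
    rw [eq_top_iff]
    intro y _
    -- the even and odd parts
    have hs : ((y : Om) + g0 y) / 2 ∈ L := by
      rw [mem_iff_fixed]
      intro g
      change (g : Γ) (((y : Om) + g0 y) / 2) = _
      rw [map_div₀, map_add]
      have h2 : (g : Γ) 2 = 2 := map_ofNat _ 2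
      rw [h2]
      congr 1
      rcases hsign g g.2 with h | h
      · have h3 : (g : Γ) ∈ K.fixingSubgroup := (hK g g.2).2 h
        have h4 : (g0⁻¹ * g * g0 : Γ) ∈ K.fixingSubgroup := by
          rw [hK _ (mul_mem (mul_mem (inv_mem hg0) g.2) hg0)]
          rw [AlgEquiv.mul_apply, AlgEquiv.mul_apply, hg0β', map_neg, h, map_neg]
          have h5 : g0⁻¹ β = -β := by
            have h6 : g0⁻¹ (g0 β) = β := by rw [← AlgEquiv.mul_apply, inv_mul_cancel]; rfl
            rw [hg0β', map_neg] at h6
            exact neg_eq_iff_eq_neg.1 h6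
          rw [h5, neg_neg]
        have h5 : (g : Γ) (g0 y) = g0 y := by
          have h6 : (g0⁻¹ * g * g0 : Γ) (y : Om) = y :=
            (IntermediateField.mem_fixingSubgroup_iff _ _).1 h4 _ y.2
          have h7 := congrArg g0 h6
          rw [← AlgEquiv.mul_apply] at h7
          rw [← AlgEquiv.mul_apply, ← h7]
          congr 1
          group
        rw [h5, (IntermediateField.mem_fixingSubgroup_iff _ _).1 h3 _ y.2]
      · have h4 : (g0⁻¹ * g : Γ) ∈ K.fixingSubgroup := by
          rw [hK _ (mul_mem (inv_mem hg0) g.2), AlgEquiv.mul_apply, h, map_neg]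
          have h6 : g0⁻¹ (g0 β) = β := by rw [← AlgEquiv.mul_apply, inv_mul_cancel]; rfl
          rw [hg0β', map_neg] at h6
          exact h6
        have h5 : (g * g0 : Γ) ∈ K.fixingSubgroup := by
          rw [hK _ (mul_mem g.2 hg0), AlgEquiv.mul_apply, hg0β', map_neg, h, neg_neg]
        have h6 : (g : Γ) (y : Om) = g0 y := by
          have h7 := congrArg g0 ((IntermediateField.mem_fixingSubgroup_iff _ _).1 h4 _ y.2)
          rw [← AlgEquiv.mul_apply] at h7
          rw [← h7]
          congr 1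
          group
        have h7 : (g : Γ) (g0 (y : Om)) = y := by
          rw [← AlgEquiv.mul_apply]
          exact (IntermediateField.mem_fixingSubgroup_iff _ _).1 h5 _ y.2
        rw [h6, h7, add_comm]
    have ht : ((y : Om) - g0 y) / (2 * β) ∈ L := by
      rw [mem_iff_fixed]
      intro g
      change (g : Γ) (((y : Om) - g0 y) / (2 * β)) = _
      rw [map_div₀, map_sub, map_mul]
      have h2 : (g : Γ) 2 = 2 := map_ofNat _ 2
      rw [h2]
      rcases hsign g g.2 with h | h
      · have h3 : (g : Γ) ∈ K.fixingSubgroup := (hK g g.2).2 h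
        have h4 : (g0⁻¹ * g * g0 : Γ) ∈ K.fixingSubgroup := by
          rw [hK _ (mul_mem (mul_mem (inv_mem hg0) g.2) hg0)]
          rw [AlgEquiv.mul_apply, AlgEquiv.mul_apply, hg0β', map_neg, h, map_neg]
          have h5 : g0⁻¹ β = -β := by
            have h6 : g0⁻¹ (g0 β) = β := by rw [← AlgEquiv.mul_apply, inv_mul_cancel]; rfl
            rw [hg0β', map_neg] at h6
            exact neg_eq_iff_eq_neg.1 h6
          rw [h5, neg_neg]
        have h5 : (g : Γ) (g0 y) = g0 y := by
          have h6 : (g0⁻¹ * g * g0 : Γ) (y : Om) = y :=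
            (IntermediateField.mem_fixingSubgroup_iff _ _).1 h4 _ y.2
          have h7 := congrArg g0 h6
          rw [← AlgEquiv.mul_apply] at h7
          rw [← AlgEquiv.mul_apply, ← h7]
          congr 1
          group
        rw [h5, (IntermediateField.mem_fixingSubgroup_iff _ _).1 h3 _ y.2, h]
      · have h4 : (g0⁻¹ * g : Γ) ∈ K.fixingSubgroup := by
          rw [hK _ (mul_mem (inv_mem hg0) g.2), AlgEquiv.mul_apply, h, map_neg]
          have h6 : g0⁻¹ (g0 β) = β := by rw [← AlgEquiv.mul_apply, inv_mul_cancel]; rfl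
          rw [hg0β', map_neg] at h6
          exact h6
        have h5 : (g * g0 : Γ) ∈ K.fixingSubgroup := by
          rw [hK _ (mul_mem g.2 hg0), AlgEquiv.mul_apply, hg0β', map_neg, h, neg_neg]
        have h6 : (g : Γ) (y : Om) = g0 y := by
          have h7 := congrArg g0 ((IntermediateField.mem_fixingSubgroup_iff _ _).1 h4 _ y.2)
          rw [← AlgEquiv.mul_apply] at h7
          rw [← h7]
          congr 1
          group
        have h7 : (g : Γ) (g0 (y : Om)) = y := by
          rw [← AlgEquiv.mul_apply]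
          exact (IntermediateField.mem_fixingSubgroup_iff _ _).1 h5 _ y.2
        rw [h6, h7, h]
        field_simp
        ring
    have hy : y = algebraMap L K ⟨_, hs⟩ + α * algebraMap L K ⟨_, ht⟩ := by
      apply Subtype.ext
      change (y : Om) = ((algebraMap L K ⟨_, hs⟩ : K) : Om) + β * ((algebraMap L K ⟨_, ht⟩ : K) : Om)
      rw [coe_algMap, coe_algMap]
      change (y : Om) = ((y : Om) + g0 y) / 2 + β * (((y : Om) - g0 y) / (2 * β))
      field_simp
      ring
    rw [hy]
    exact add_mem (IntermediateField.algebraMap_mem _ _)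
      (mul_mem (IntermediateField.mem_adjoin_simple_self L α) (IntermediateField.algebraMap_mem _ _))
  have hgal : IsGalois L K := kummer_isGalois (p := 2) (IsPrimitiveRoot.neg_one 0 (by norm_num))
    hnsq hsq htop
  obtain ⟨τ, hτ⟩ := exists_restrict (K := K) hg0
  refine ⟨⟨α, hsq, hnsq, htop, τ, ?_⟩, rfl⟩
  apply Subtype.ext
  rw [hτ]
  exact hg0β'

end

end Fermat.Agent.LT.Psi
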