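import Mathlib
import Fermat.Agent.LT.Psi.Kum2

set_option linter.unusedSectionVars false
set_option linter.unusedVariables false
set_option autoImplicit false

/-!
# Quaternionic data over `E`
-/

open NumberField IsDedekindDomain nonZeroDivisors Pointwise

namespace Fermat.Agent.LT.Psi

open Fermat.Agent.CFT
open Fermat.Agent.Frob (below mem_below)
open Loc (GalGlob)

local notation "Om" => AlgebraicClosure ℚ

local notation "Γ" => (AlgebraicClosure ℚ ≃ₐ[ℚ] AlgebraicClosure ℚ)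

/-- a representation of `G_E` on a quaternion group: `d`, `a` are two characters with joint kernel
`r ∈ {1, z}`, and `r g ^ 2 = z` outside the joint kernel -/
structure QDat (E : IntermediateField ℚ Om) (G0 : Type*) [Group G0] where
  r : E.fixingSubgroup →* G0
  z : G0
  z_ne : z ≠ 1
  d : E.fixingSubgroup → ZMod 2
  a : E.fixingSubgroup → ZMod 2
  d_mul : ∀ g h, d (g * h) = d g + d h
  a_mul : ∀ g h, a (g * h) = a g + a h
  F : IntermediateField ℚ Om
  fin : FiniteDimensional ℚ F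
  lev : ∀ g : E.fixingSubgroup, (g : Γ) ∈ F.fixingSubgroup → r g = 1
  surj : ∀ s t, ∃ g, d g = s ∧ a g = t
  ker : ∀ g, d g = 0 → a g = 0 → r g = 1 ∨ r g = z
  sq : ∀ g, ¬ (d g = 0 ∧ a g = 0) → r g * r g = z

namespace QDat

variable {E : IntermediateField ℚ Om} {G0 : Type*} [Group G0] (T : QDat E G0)

theorem d_one : T.d 1 = 0 := by simpa using T.d_mul 1 1

theorem a_one : T.a 1 = 0 := by simpa using T.a_mul 1 1

theorem d_inv (g : E.fixingSubgroup) : T.d g⁻¹ = T.d g := by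
  have h := T.d_mul g g⁻¹
  rw [mul_inv_cancel, T.d_one] at h
  have h2 : ∀ a b : ZMod 2, 0 = a + b → b = a := by decide
  exact h2 _ _ h

theorem a_inv (g : E.fixingSubgroup) : T.a g⁻¹ = T.a g := by
  have h := T.a_mul g g⁻¹
  rw [mul_inv_cancel, T.a_one] at h
  have h2 : ∀ a b : ZMod 2, 0 = a + b → b = a := by decide
  exact h2 _ _ h

theorem d_conj (g h : E.fixingSubgroup) : T.d (h * g * h⁻¹) = T.d g := by
  rw [T.d_mul, T.d_mul, T.d_inv]
  have h2 : ∀ a b : ZMod 2, a + b + a = b := by decide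
  exact h2 _ _

theorem a_conj (g h : E.fixingSubgroup) : T.a (h * g * h⁻¹) = T.a g := by
  rw [T.a_mul, T.a_mul, T.a_inv]
  have h2 : ∀ a b : ZMod 2, a + b + a = b := by decide
  exact h2 _ _

theorem of_r_one {g : E.fixingSubgroup} (h : T.r g = 1) : T.d g = 0 ∧ T.a g = 0 := by
  by_contra hcon
  have := T.sq g hcon
  rw [h, mul_one] at this
  exact T.z_ne this.symm

theorem of_r_z {g : E.fixingSubgroup} (h : T.r g = T.z) : T.d g = 0 ∧ T.a g = 0 := by
  by_contra hcon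
  have := T.sq g hcon
  rw [h] at this
  exact T.z_ne (mul_eq_left.1 this)

theorem sq_ker (g : E.fixingSubgroup) : T.d (g * g) = 0 ∧ T.a (g * g) = 0 := by
  rw [T.d_mul, T.a_mul, zmod2_add_self, zmod2_add_self]
  exact ⟨rfl, rfl⟩

theorem zz : T.z * T.z = 1 := by
  obtain ⟨g, hg, -⟩ := T.surj 1 1
  have h1 : T.r g * T.r g = T.z := T.sq g (fun h => by rw [hg] at h; exact one_ne_zero h.1)
  rw [← map_mul] at h1
  have h2 := T.sq_ker g
  rcases T.ker (g * g * (g * g)) (T.sq_ker (g * g)).1 (T.sq_ker (g * g)).2 with h | h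
  · rw [map_mul, h1] at h; exact h
  · rw [map_mul, h1] at h
    exact absurd (mul_eq_left.1 h) T.z_ne

theorem r_conj_one {g h : E.fixingSubgroup} : T.r (h * g * h⁻¹) = 1 ↔ T.r g = 1 := by
  rw [map_mul, map_mul, map_inv]
  constructor
  · intro h1
    have h2 := congrArg (fun t => (T.r h)⁻¹ * t * T.r h) h1
    simpa [mul_assoc] using h2
  · intro h1
    rw [h1, mul_one, mul_inv_cancel]

theorem d_lc : (LL E).LC T.d := by
  have := T.fin
  exact lc_of_field T.d_mul (F := T.F) fun g hg => (T.of_r_one (T.lev g hg)).1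

theorem a_lc : (LL E).LC T.a := by
  have := T.fin
  exact lc_of_field T.a_mul (F := T.F) fun g hg => (T.of_r_one (T.lev g hg)).2

/-- the field cut out by `d` and `a` -/
theorem exists_K [FiniteDimensional ℚ E] : ∃ K : IntermediateField ℚ Om, FiniteDimensional ℚ K ∧
    E ≤ K ∧ ∀ g : E.fixingSubgroup, (g : Γ) ∈ K.fixingSubgroup ↔ T.d g = 0 ∧ T.a g = 0 := by
  have := T.fin
  let H : Subgroup E.fixingSubgroup :=
    { carrier := {g | T.d g = 0 ∧ T.a g = 0}
      mul_mem' := fun {g h} hg hh => by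
        change T.d (g * h) = 0 ∧ T.a (g * h) = 0
        rw [T.d_mul, T.a_mul, hg.1, hg.2, hh.1, hh.2]
        exact ⟨rfl, rfl⟩
      one_mem' := ⟨T.d_one, T.a_one⟩
      inv_mem' := fun {g} hg => by
        change T.d g⁻¹ = 0 ∧ T.a g⁻¹ = 0
        rw [T.d_inv, T.a_inv]; exact hg }
  have hU : H.map E.fixingSubgroup.subtype ∈ galLevels ℚ Om := by
    refine mem_galLevels.2 ⟨E ⊔ T.F, inferInstance, ?_⟩
    intro g hg
    have h1 : g ∈ E.fixingSubgroup := IntermediateField.fixingSubgroup_antitone le_sup_left hg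
    have h2 : g ∈ T.F.fixingSubgroup := IntermediateField.fixingSubgroup_antitone le_sup_right hg
    exact ⟨⟨g, h1⟩, T.of_r_one (T.lev ⟨g, h1⟩ h2), rfl⟩
  obtain ⟨K, hK, hKU⟩ := exists_field_of_mem hU
  refine ⟨K, hK, ?_, fun g => ?_⟩
  · intro x hx
    rw [mem_iff_fixed]
    rintro ⟨g, hg⟩
    rw [hKU] at hg
    obtain ⟨⟨g', hg'⟩, -, rfl⟩ := hg
    exact (IntermediateField.mem_fixingSubgroup_iff _ _).1 hg' _ hx
  · rw [hKU]
    constructor
    · rintro ⟨g', h, h'⟩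
      have : g' = g := Subtype.ext h'
      rw [← this]
      exact h
    · intro h
      exact ⟨g, h, rfl⟩

end QDat

section

variable {E L K : IntermediateField ℚ Om} [FiniteDimensional ℚ E] [FiniteDimensional ℚ L]
  [FiniteDimensional ℚ K] [Algebra E L] [IsScalarTower E L Om] [Algebra L K]
  [IsScalarTower L K Om] {G0 : Type*} [Group G0]

/-- the Kummer generators attached to quaternionic data -/
structure Tow (T : QDat E G0) (L K : IntermediateField ℚ Om) [FiniteDimensional ℚ L]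
    [FiniteDimensional ℚ K] [Algebra E L] [IsScalarTower E L Om] [Algebra L K]
    [IsScalarTower L K Om] where
  hL : ∀ g : E.fixingSubgroup, (g : Γ) ∈ L.fixingSubgroup ↔ T.d g = 0
  hK : ∀ g : E.fixingSubgroup, (g : Γ) ∈ K.fixingSubgroup ↔ T.d g = 0 ∧ T.a g = 0
  dE : Eˣ
  aE : Eˣ
  aL : Lˣ
  aL_eq : (aL : L) = algebraMap E L aE
  QE : Quad E L dE
  QL : Quad L K aL
  θ : Kˣ
  ω : Om
  ω_sq : ω ^ 2 = ((θ : K) : Om)
  hd : ∀ g : E.fixingSubgroup, (g : Γ) ((QE.α : L) : Om) = ((QE.α : L) : Om) ↔ T.d g = 0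
  ha : ∀ g : E.fixingSubgroup, (g : Γ) ((QL.α : K) : Om) = ((QL.α : K) : Om) ↔ T.a g = 0
  hω : ∀ g : E.fixingSubgroup, (g : Γ) ∈ K.fixingSubgroup → ((g : Γ) ω = ω ↔ T.r g = 1)

theorem exists_tow (T : QDat E G0)
    (hL : ∀ g : E.fixingSubgroup, (g : Γ) ∈ L.fixingSubgroup ↔ T.d g = 0)
    (hK : ∀ g : E.fixingSubgroup, (g : Γ) ∈ K.fixingSubgroup ↔ T.d g = 0 ∧ T.a g = 0) :
    Nonempty (Tow T L K) := by
  have := T.fin
  obtain ⟨dE, βd, hβd0, hβd, hd⟩ := exists_sqrt T.d_lc T.d_mul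
  obtain ⟨aE, βa, hβa0, hβa, ha⟩ := exists_sqrt T.a_lc T.a_mul
  obtain ⟨gd, hgd, -⟩ := T.surj 1 0
  obtain ⟨ga, hga, hga'⟩ := T.surj 0 1
  have hEL : L.fixingSubgroup ≤ E.fixingSubgroup := fix_anti
  have hLK : K.fixingSubgroup ≤ L.fixingSubgroup := fix_anti
  obtain ⟨QE, hQE⟩ := exists_quad (L := E) (K := L) (x := dE) (β := βd) hβd
    (fun g hg => (hL ⟨g, hg⟩).trans (hd ⟨g, hg⟩).symm) gd.2
    (fun h => by
      have := (hd gd).1 h
      rw [hgd] at this
      exact one_ne_zero this)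
  have hβa' : βa ^ 2 = ((Units.map (algebraMap E L : E →* L) aE : Lˣ) : L) := by
    rw [hβa, Units.coe_map]
    exact (coe_algMap (K := L) (aE : E)).symm
  obtain ⟨QL, hQL⟩ := exists_quad (L := L) (K := K)
    (x := Units.map (algebraMap E L : E →* L) aE) (β := βa) hβa'
    (fun g hg => by
      rw [hK ⟨g, hEL hg⟩, ← ha ⟨g, hEL hg⟩]
      exact and_iff_right ((hL ⟨g, hEL hg⟩).1 hg)) ((hL ga).2 hga)
    (fun h => by
      have := (ha ga).1 h
      rw [hga'] at this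
      exact one_ne_zero this)
  -- the last step
  classical
  let κ : K.fixingSubgroup → ZMod 2 := fun g => if T.r ⟨g, hEL (hLK g.2)⟩ = 1 then 0 else 1
  have hκ1 : ∀ g : K.fixingSubgroup, T.r ⟨g, hEL (hLK g.2)⟩ = 1 ∨ T.r ⟨g, hEL (hLK g.2)⟩ = T.z :=
    fun g => T.ker _ ((hK ⟨g, hEL (hLK g.2)⟩).1 g.2).1 ((hK ⟨g, hEL (hLK g.2)⟩).1 g.2).2
  have hκm : ∀ g h, κ (g * h) = κ g + κ h := by
    intro g h
    have hmul : T.r ⟨(g * h : K.fixingSubgroup), hEL (hLK (g * h).2)⟩ =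
        T.r ⟨g, hEL (hLK g.2)⟩ * T.r ⟨h, hEL (hLK h.2)⟩ := by
      rw [← map_mul]; rfl
    change (if T.r ⟨(g * h : K.fixingSubgroup), hEL (hLK (g * h).2)⟩ = 1 then (0 : ZMod 2) else 1) =
      (if T.r ⟨g, hEL (hLK g.2)⟩ = 1 then (0 : ZMod 2) else 1) +
      (if T.r ⟨h, hEL (hLK h.2)⟩ = 1 then (0 : ZMod 2) else 1)
    rw [hmul]
    rcases hκ1 g with h1 | h1 <;> rcases hκ1 h with h2 | h2
    · rw [h1, h2, mul_one, if_pos rfl, add_zero]
    · rw [h1, h2, one_mul, if_neg T.z_ne, if_pos rfl, zero_add]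
    · rw [h1, h2, mul_one, if_neg T.z_ne, if_pos rfl, add_zero]
    · rw [h1, h2, T.zz, if_pos rfl, if_neg T.z_ne]; rfl
  have hκlc : (LL K).LC κ := lc_of_field hκm (F := T.F) fun g hg =>
    if_pos (T.lev ⟨g, hEL (hLK g.2)⟩ hg)
  obtain ⟨θ, ω, hω0, hω, hωκ⟩ := exists_sqrt hκlc hκm
  refine ⟨⟨hL, hK, dE, aE, _, rfl, QE, QL, θ, ω, hω, ?_, ?_, ?_⟩⟩
  · intro g; rw [hQE]; exact hd g
  · intro g; rw [hQL]; exact ha g
  · intro g hg
    rw [hωκ ⟨g, hg⟩]
    constructor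
    · intro h
      by_contra h2
      have h3 : κ ⟨g, hg⟩ = 1 := if_neg h2
      rw [h] at h3
      exact zero_ne_one h3
    · intro h
      exact if_pos h

end

end Fermat.Agent.LT.Psi
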