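import Mathlib

set_option autoImplicit false

/-!
# Extension of the quadratic character to a quartic one: abstract part

`A` = divisors of `L`, `B` = divisors of `K₄`, `C` = divisors of `E` (away from the bad places),
`P` = principal divisors of elements close to one, `χ` = the character of `K₄/L`, `N` = the norm,
`θ` = the character of `M/K₄`.
-/

namespace Fermat.Agent.LT.Psi

/-- `{±1} ⊂ μ₄` -/
def i24 : ZMod 2 →+ ZMod 4 where
  toFun a := if a = 0 then 0 else 2
  map_zero' := rfl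
  map_add' := by decide

theorem i24_one : i24 1 = 2 := rfl

theorem i24_add_self (a : ZMod 2) : i24 a + i24 a = 0 := by
  rw [← map_add]
  have : a + a = 0 := by revert a; decide
  rw [this, map_zero]

theorem zmod2_cases (a : ZMod 2) : a = 0 ∨ a = 1 := by revert a; decide

section

variable {A B : Type*} [AddCommGroup A] [AddCommGroup B]

/-- **Extension.** -/
theorem exists_quartic (P : AddSubgroup A) (χ : A →+ ZMod 2) (N : B →+ A) (θ : B →+ ZMod 2)
    (hP : ∀ p ∈ P, χ p = 0) (hN : ∀ J, χ (N J) = 0)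
    (hI : ∀ a, χ a = 0 → ∃ p ∈ P, ∃ J, a = p + N J) (hH : ∀ J, N J ∈ P → θ J = 0)
    (a0 : A) (h0 : χ a0 = 1) (J0 : B) (hJ0 : N J0 = 2 • a0) (hθ0 : θ J0 = 1) :
    ∃ ψ : A →+ ZMod 4, (∀ p ∈ P, ψ p = 0) ∧ (∀ J, ψ (N J) = i24 (θ J)) ∧
      ∀ a, χ a = 1 → ψ a = 1 ∨ ψ a = 3 := by
  classical
  let f : A → ZMod 4 := fun a =>
    if h : ∃ p ∈ P, ∃ J, a = p + N J then i24 (θ h.choose_spec.2.choose) else 0
  have hf : ∀ p ∈ P, ∀ J, f (p + N J) = i24 (θ J) := by
    intro p hp J
    have h : ∃ p' ∈ P, ∃ J', p + N J = p' + N J' := ⟨p, hp, J, rfl⟩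
    have h1 := h.choose_spec.2.choose_spec
    have h2 := h.choose_spec.1
    have h3 : f (p + N J) = i24 (θ h.choose_spec.2.choose) := dif_pos h
    rw [h3]
    have h4 : N (J - h.choose_spec.2.choose) ∈ P := by
      rw [map_sub]
      have : N J - N h.choose_spec.2.choose = h.choose - p := by
        rw [sub_eq_sub_iff_add_eq_add, add_comm (N J) p]
        exact h1
      rw [this]
      exact P.sub_mem h2 hp
    have h5 := hH _ h4
    rw [map_sub, sub_eq_zero] at h5
    rw [h5]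
  have hfadd : ∀ a b, χ a = 0 → χ b = 0 → f (a + b) = f a + f b := by
    intro a b ha hb
    obtain ⟨p, hp, J, rfl⟩ := hI a ha
    obtain ⟨p', hp', J', rfl⟩ := hI b hb
    have : p + N J + (p' + N J') = (p + p') + N (J + J') := by rw [map_add]; abel
    rw [this, hf _ (P.add_mem hp hp'), hf _ hp, hf _ hp', map_add, map_add]
  have hf0 : f (2 • a0) = 2 := by
    have h1 := hf 0 P.zero_mem J0
    rw [zero_add, hJ0, hθ0] at h1
    exact h1
  let g : A → ZMod 4 := fun a => if χ a = 0 then f a else f (a - a0) + 1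
  have g0 : ∀ a, χ a = 0 → g a = f a := fun a h => if_pos h
  have g1 : ∀ a, χ a = 1 → g a = f (a - a0) + 1 := fun a h => if_neg (by rw [h]; decide)
  have hsub : ∀ a, χ a = 1 → χ (a - a0) = 0 := fun a h => by rw [map_sub, h, h0, sub_self]
  have hzero : f 0 = 0 := by
    have := hf 0 P.zero_mem 0
    rw [map_zero, add_zero, map_zero, map_zero] at this
    exact this
  let ψ : A →+ ZMod 4 :=
    { toFun := g
      map_zero' := by rw [g0 0 (map_zero χ)]; exact hzero
      map_add' := by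
        intro a b
        rcases zmod2_cases (χ a) with ha | ha <;> rcases zmod2_cases (χ b) with hb | hb
        · rw [g0 a ha, g0 b hb, g0 (a + b) (by rw [map_add, ha, hb, add_zero]), hfadd a b ha hb]
        · rw [g0 a ha, g1 b hb, g1 (a + b) (by rw [map_add, ha, hb, zero_add]), add_sub_assoc,
            hfadd a _ ha (hsub b hb), add_assoc]
        · rw [g1 a ha, g0 b hb, g1 (a + b) (by rw [map_add, ha, hb, add_zero])]
          have : a + b - a0 = (a - a0) + b := by abel
          rw [this, hfadd _ b (hsub a ha) hb]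
          ring
        · rw [g1 a ha, g1 b hb, g0 (a + b) (by rw [map_add, ha, hb]; decide)]
          have h2 : χ (2 • a0) = 0 := by rw [map_nsmul, h0]; decide
          have : a + b = (a - a0) + ((b - a0) + 2 • a0) := by rw [two_smul]; abel
          rw [this, hfadd _ _ (hsub a ha) (by rw [map_add, hsub b hb, h2, add_zero]),
            hfadd _ _ (hsub b hb) h2, hf0]
          ring }
  refine ⟨ψ, fun p hp => ?_, fun J => ?_, fun a ha => ?_⟩
  · change g p = 0
    rw [g0 p (hP p hp)]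
    have := hf p hp 0
    rw [map_zero, add_zero, map_zero, map_zero] at this
    exact this
  · change g (N J) = _
    rw [g0 _ (hN J)]
    have := hf 0 P.zero_mem J
    rwa [zero_add] at this
  · change g a = 1 ∨ g a = 3
    rw [g1 a ha]
    obtain ⟨p, hp, J, hJ⟩ := hI _ (hsub a ha)
    rw [hJ, hf p hp]
    have key : ∀ b : ZMod 2, i24 b + 1 = 1 ∨ i24 b + 1 = 3 := by decide
    exact key _

variable {C : Type*} [AddCommGroup C]

/-- **The quartic character is inverted by the conjugation.** -/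
theorem exists_quartic_conj (P : AddSubgroup A) (χ : A →+ ZMod 2) (N : B →+ A) (θ : B →+ ZMod 2)
    (hP : ∀ p ∈ P, χ p = 0) (hN : ∀ J, χ (N J) = 0)
    (hI : ∀ a, χ a = 0 → ∃ p ∈ P, ∃ J, a = p + N J) (hH : ∀ J, N J ∈ P → θ J = 0)
    (a0 : A) (h0 : χ a0 = 1) (J0 : B) (hJ0 : N J0 = 2 • a0) (hθ0 : θ J0 = 1)
    (c : A →+ A) (hcP : ∀ p ∈ P, c p ∈ P) (c' : B →+ B) (hcN : ∀ J, N (c' J) = c (N J))
    (hcθ : ∀ J, θ (c' J) = θ J)
    (NE : A →+ C) (ext : C →+ A) (hext : ∀ a, ext (NE a) = a + c a)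
    (x wi wj wk : C) (I ai : A) (uj uk : B) (hx : ext x ∈ P) (hD : wi + wj + wk = x + NE I)
    (hχI : χ I = 0) (hχi : χ ai = 1) (hwi : ext wi = ai + c ai)
    (hwj : ext wj = N uj) (hwk : ext wk = N uk) (huj : θ uj = 1) (huk : θ uk = 1) :
    ∃ ψ : A →+ ZMod 4, (∀ p ∈ P, ψ p = 0) ∧ (∀ J, ψ (N J) = i24 (θ J)) ∧
      (∀ a, χ a = 1 → ψ a = 1 ∨ ψ a = 3) ∧ ∀ a, ψ a + ψ (c a) = 0 := by
  obtain ⟨ψ, h1, h2, h3⟩ := exists_quartic P χ N θ hP hN hI hH a0 h0 J0 hJ0 hθ0
  refine ⟨ψ, h1, h2, h3, ?_⟩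
  have key0 : ∀ a, χ a = 0 → ψ a + ψ (c a) = 0 := by
    intro a ha
    obtain ⟨p, hp, J, rfl⟩ := hI a ha
    rw [map_add c, map_add ψ, map_add ψ, h1 p hp, h1 _ (hcP p hp), ← hcN, h2, h2, hcθ, zero_add,
      i24_add_self]
  have hi : ψ ai + ψ (c ai) = 0 := by
    have e1 : ψ (ext (wi + wj + wk)) = ψ ai + ψ (c ai) := by
      rw [map_add, map_add, map_add, map_add, hwi, hwj, hwk, h2, h2, huj, huk, add_assoc,
        i24_add_self, add_zero, map_add]
    rw [← e1, hD, map_add, map_add, h1 _ hx, zero_add, hext, map_add]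
    exact key0 I hχI
  intro a
  rcases zmod2_cases (χ a) with ha | ha
  · exact key0 a ha
  · have h4 := key0 (a - ai) (by rw [map_sub, ha, hχi, sub_self])
    rw [map_sub, map_sub, map_sub] at h4
    have h5 : ψ a + ψ (c a) - (ψ ai + ψ (c ai)) = 0 := by rw [← h4]; ring
    rwa [hi, sub_zero] at h5

end

end Fermat.Agent.LT.Psi
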