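import Mathlib
import Fermat.Agent.LT.Psi.Tower2

set_option autoImplicit false

/-!
# Elements close to one with prescribed parities at the nonsquare places
-/

open NumberField IsDedekindDomain nonZeroDivisors Pointwise

namespace Fermat.Agent.LT.Psi

open Fermat.Agent.CFT

local notation "Om" => AlgebraicClosure ℚ

section

variable {F : IntermediateField ℚ Om} [FiniteDimensional ℚ F]

open Classical in
/-- **(I2)** -/
theorem exists_near_parity [IsTotallyComplex F] (a : Fˣ) (T : Finset (HeightOneSpectrum (𝓞 F)))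
    (hT2 : ∀ v ∈ Tp F 2, v ∈ T) (hTa : ∀ v ∉ T, (2 : ℤ) ∣ ordH F v (Additive.ofMul a)) (n : ℕ)
    (d : HeightOneSpectrum (𝓞 F) → ℤ) (hd : d.support.Finite)
    (hsum : ∑ᶠ v, (if v ∉ T ∧ NS v a then (d v : ZMod 2) else 0) = 0) :
    ∃ x : Fˣ, (∀ v ∈ T, Near v n (x : F)) ∧
      ∀ v ∉ T, NS v a → (2 : ℤ) ∣ d v - ordH F v (Additive.ofMul x) := by
  obtain ⟨y, hy⟩ := exists_hs a (fun v => if v ∉ T ∧ NS v a then (d v : ZMod 2) else 0)
    (hd.subset (by
      intro v hv
      rw [Function.mem_support] at hv ⊢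
      intro h
      apply hv
      rw [h, Int.cast_zero, ite_self]))
    (fun v hv => if_neg (fun h => by
      obtain ⟨z, hz⟩ := h.2
      exact hz (hv z))) hsum
  obtain ⟨X, Y, hne, hXY⟩ := exists_conic_approx T a y (fun v hv => by
    rw [hy v, if_neg (fun h => h.1 hv)]) n
  refine ⟨Units.mk0 _ hne / y, fun v hv => ?_, fun v hv hns => ?_⟩
  · rw [Units.val_div_eq_div_val, Units.val_mk0]
    exact hXY v hv
  · have h1 : hs F v a (Units.mk0 _ hne / y) = (d v : ZMod 2) := by
      rw [hs_div_right, hs_norm (y := Units.mk0 _ hne) rfl, zero_add, hy v, if_pos ⟨hv, hns⟩]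
    obtain ⟨z, hz⟩ := hns
    rw [hs_of_even (fun h => hv (hT2 v h)) (hTa v hv) hz] at h1
    refine (ZMod.intCast_zmod_eq_zero_iff_dvd _ 2).1 ?_
    rw [Int.cast_sub, h1, sub_self]

end

end Fermat.Agent.LT.Psi
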