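import Fermat.Agent.LT.Psi.Out
import Fermat.Agent.LT.NT.QDatI
import Fermat.Agent.LT.NT.PsiOut
import Fermat.Agent.LT.NT.DPow

set_option linter.unusedSectionVars false
set_option linter.unusedVariables false
set_option autoImplicit false

/-!
# The quartic character of `ρ`
-/

noncomputable section

namespace Fermat.Agent.LT.Psi

open Matrix Fermat.Agent.LTEnd NumberField Module WeierstrassCurve IsDedekindDomain
open Fermat.Agent.CFT
open Fermat.Agent.LT.NT
open scoped MatrixGroups Pointwise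

local notation "Qbar" => AlgebraicClosure ℚ
local notation "Γℚ" => (AlgebraicClosure ℚ ≃ₐ[ℚ] AlgebraicClosure ℚ)
local notation "G3" => GL (Fin 2) (ZMod 3)

/-- `i` as a unit -/
def iu : ℂˣ := Units.mk0 Complex.I Complex.I_ne_zero

theorem iu_sq : iu ^ 2 = -1 := by
  apply Units.ext
  rw [Units.val_pow_eq_pow_val, iu, Units.val_mk0, Complex.I_sq]
  rfl

theorem iu_four : iu ^ 4 = 1 := by
  have : iu ^ 4 = (iu ^ 2) ^ 2 := by rw [← pow_mul]
  rw [this, iu_sq, neg_one_sq]

/-- the isomorphism `ZMod 4 ≃ μ₄` -/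
def chi4 : ZMod 4 →+ Additive ℂˣ :=
  ZMod.lift 4 ⟨zmultiplesHom _ (Additive.ofMul iu), by
    change (((4 : ℕ) : ℤ)) • Additive.ofMul iu = 0
    rw [natCast_zsmul, ← ofMul_pow, iu_four]; rfl⟩

theorem chi4_one : (chi4 1).toMul = iu := by
  have h : chi4 ((1 : ℤ) : ZMod 4) = (zmultiplesHom _ (Additive.ofMul iu)) 1 := ZMod.lift_coe 4 _ 1
  rw [Int.cast_one] at h
  rw [h]
  change ((1 : ℤ) • Additive.ofMul iu).toMul = iu
  rw [one_smul]; rfl

theorem chi4_zero : (chi4 0).toMul = 1 := by rw [map_zero]; rfl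

theorem chi4_two : (chi4 2).toMul = -1 := by
  have h : (2 : ZMod 4) = 1 + 1 := rfl
  rw [h, map_add, toMul_add, chi4_one, ← pow_two, iu_sq]

theorem chi4_odd {t : ZMod 4} (h : t = 1 ∨ t = 3) : (chi4 t).toMul ^ 2 = -1 := by
  have h1 : (chi4 t).toMul ^ 2 = (chi4 (t + t)).toMul := by
    rw [map_add, toMul_add, pow_two]
  have h2 : t + t = 2 := by
    rcases h with rfl | rfl <;> rfl
  rw [h1, h2, chi4_two]

theorem chi4_zpow (t : ZMod 4) (m : ℤ) : (chi4 t).toMul ^ m = (chi4 ((m : ZMod 4) * t)).toMul := by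
  rw [← zsmul_eq_mul, map_zsmul, toMul_zsmul]

open Classical in
/-- passing to products -/
theorem finprod_chi4 {F : Type*} [Field F] [NumberField F] {ψ : HeightOneSpectrum (𝓞 F) → ZMod 4}
    {x : Fˣ} {S : Finset (HeightOneSpectrum (𝓞 F))} (hS : ∀ P ∈ S, od P x = 0 ∨ ψ P = 0)
    (h : ∑ᶠ P, (od P x : ZMod 4) * ψ P = 0) :
    ∏ᶠ w : HeightOneSpectrum (𝓞 F),
      (if w ∈ S then 1 else (chi4 (ψ w)).toMul ^ (ordH F w (Additive.ofMul x))) = 1 := by
  have h1 : ∀ w, (if w ∈ S then 1 else (chi4 (ψ w)).toMul ^ (ordH F w (Additive.ofMul x))) =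
      (chi4 ((od w x : ZMod 4) * ψ w)).toMul := by
    intro w
    split_ifs with hw
    · rcases hS w hw with h2 | h2
      · rw [h2, Int.cast_zero, zero_mul, chi4_zero]
      · rw [h2, mul_zero, chi4_zero]
    · exact chi4_zpow _ _
  have hsup : (Function.support fun P => (od P x : ZMod 4) * ψ P) ⊆ ((finite_od x).toFinset : Set _) := by
    intro P hP
    rw [Set.Finite.coe_toFinset]
    intro h0
    apply hP
    change (od P x : ZMod 4) * ψ P = 0
    rw [h0, Int.cast_zero, zero_mul]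
  rw [finprod_congr h1, finprod_eq_prod_of_mulSupport_subset (s := (finite_od x).toFinset)]
  · rw [finsum_eq_sum_of_support_subset _ hsup] at h
    rw [← toMul_sum, ← map_sum, h, chi4_zero]
  · intro P hP
    rw [Set.Finite.coe_toFinset]
    intro h0
    apply hP
    change (chi4 ((od P x : ZMod 4) * ψ P)).toMul = 1
    rw [h0, Int.cast_zero, zero_mul, chi4_zero]

section

variable {ρ : Γℚ →* G3} (hρ : Continuous ρ) (hs : Function.Surjective ρ) (hd : DetCyc ρ)

include hρ hs hd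

theorem nonempty_psiOut (u : G3) [hu : Ord4 u] [NumberField (EF ρ)] [NumberField (LF u ρ)]
    : Nonempty (PsiOut ρ u) := by
  classical
  obtain ⟨u', hu', huu, -⟩ := exists_qchars u
  set T := qdat hρ hs u u' huu with hT
  have fE : FiniteDimensional ℚ (EF ρ) := finiteDimensional_fixF hρ _
  have fL : FiniteDimensional ℚ (LF u ρ) := finiteDimensional_fixF hρ _
  have fK : FiniteDimensional ℚ (BF ρ) := finiteDimensional_fixF hρ _
  have nK : NumberField (BF ρ) := numberField_fixF hρ _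
  have tE : IsTotallyComplex (EF ρ) := hd.isTotallyComplex hρ q8_le
  have tL : IsTotallyComplex (LF u ρ) := hd.isTotallyComplex hρ ((Ord4.le u).trans q8_le)
  have tK : IsTotallyComplex (BF ρ) := hd.isTotallyComplex hρ (Z2_le_Q8.trans q8_le)
  obtain ⟨W⟩ := exists_tow (L := LF u ρ) (K := BF ρ) T (mem_LF_fixing_iff hρ hs u u' huu)
    (mem_BF_fixing_iff hρ hs u u' huu)
  obtain ⟨ψ, n, hn1, hψ0, hψ, hodd, hev, hconj⟩ := W.exists_psi (B := W.bad) subset_rfl W.finite_bad
  have hfin1 : {P : HeightOneSpectrum (𝓞 (LF u ρ)) | under (EF ρ) P ∈ W.bad}.Finite :=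
    W.QE.finite_fiber W.finite_bad
  have hfin2 : {P : HeightOneSpectrum (𝓞 (LF u ρ)) | ¬ UnrAt ρ (resChar P)}.Finite :=
    finite_not_unr hρ
  set S : Finset (HeightOneSpectrum (𝓞 (LF u ρ))) := (hfin1.union hfin2).toFinset with hS
  have hmemS : ∀ P, P ∉ S → under (EF ρ) P ∉ W.bad ∧ UnrAt ρ (resChar P) := by
    intro P hP
    rw [hS, Set.Finite.mem_toFinset, Set.mem_union, not_or] at hP
    exact ⟨hP.1, not_not.1 hP.2⟩
  have hmemS' : ∀ P, under (EF ρ) P ∈ W.bad → P ∈ S := by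
    intro P hP
    rw [hS, Set.Finite.mem_toFinset]
    exact Or.inl hP
  -- the dictionary
  have hdic : ∀ P, P ∉ S → ∀ A φ, IsFrobV (LF u ρ) P A φ →
      (ρ φ = 1 → ψ P = 0) ∧ (ρ φ = -1 → ψ P = 2) ∧ (ρ φ ≠ 1 → ρ φ ≠ -1 → ψ P = 1 ∨ ψ P = 3) := by
    intro P hP A φ hφ
    obtain ⟨hPb, hun⟩ := hmemS P hP
    have hℓ := resChar_prime P
    have hA : A.LiesOverPrime (resChar P) := liesOverPrime_of_below hφ.below
    have hPA : P = placeBelow (LF u ρ) A hℓ hA := HeightOneSpectrum.ext hφ.below.symm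
    have hφL : φ ∈ (LF u ρ).fixingSubgroup := by
      rw [IntermediateField.mem_fixingSubgroup_iff]
      intro x hx
      exact hφ.fix ⟨x, hx⟩
    have hφE : φ ∈ (EF ρ).fixingSubgroup := fix_anti (L := EF ρ) (K := LF u ρ) hφL
    have hφA : φ • A = A := ((Fermat.Agent.Frob.isFrobeniusAt_iff A φ _).1 hφ.frob).1
    have hdφ : T.d ⟨φ, hφE⟩ = 0 := (W.hL ⟨φ, hφE⟩).1 hφL
    have hpow : ∀ g : (EF ρ).fixingSubgroup, (g : Γℚ) • A = A → T.d g = 0 →
        ρ g ∈ Subgroup.zpowers (ρ φ) := by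
      intro g hg hdg
      exact mem_zpowers_of_mem_UA hρ _ hun hφ ⟨hg, (W.hL g).2 hdg⟩
    have hPK : P = under (LF u ρ) (placeBelow (BF ρ) A hℓ hA) := by
      rw [under_placeBelow']; exact hPA
    -- the kernel case
    have hker : ρ φ = 1 ∨ ρ φ = -1 → ¬ NS P W.aL := by
      intro h hns
      rw [hPA, W.ns_aL] at hns
      obtain ⟨g, hg, hdg, hag⟩ := hns
      obtain ⟨m, hm⟩ := Subgroup.mem_zpowers_iff.1 (hpow g hg hdg)
      apply hag
      rcases h with h | h
      · rw [h, _root_.one_zpow] at hm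
        exact (T.of_r_one (g := g) hm.symm).2
      · rw [h] at hm
        rcases Int.even_or_odd m with he | ho
        · rw [he.neg_one_zpow] at hm
          exact (T.of_r_one (g := g) hm.symm).2
        · rw [ho.neg_one_zpow] at hm
          exact (T.of_r_z (g := g) hm.symm).2
    refine ⟨fun h => ?_, fun h => ?_, fun h1 h2 => ?_⟩
    · rw [hev P hPb (hker (Or.inl h))]
      have hθ : ¬ NS (placeBelow (BF ρ) A hℓ hA) W.θ := by
        rw [W.ns_θ]
        rintro ⟨g, hg, hz⟩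
        have hz' := T.of_r_z hz
        obtain ⟨m, hm⟩ := Subgroup.mem_zpowers_iff.1 (hpow g hg hz'.1)
        rw [h, _root_.one_zpow] at hm
        have h3 : T.r g = 1 := hm.symm
        rw [h3] at hz
        exact T.z_ne hz.symm
      have := W.QL.bt_of_not W.hθ hθ
      rw [← hPK] at this
      rw [this]; rfl
    · rw [hev P hPb (hker (Or.inr h))]
      have hθ : NS (placeBelow (BF ρ) A hℓ hA) W.θ := by
        rw [W.ns_θ]
        exact ⟨⟨φ, hφE⟩, hφA, h⟩
      have := Quad.bt_of_ns (L := LF u ρ) hθ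
      rw [← hPK] at this
      rw [this]; rfl
    · refine hodd P hPb ?_
      rw [hPA, W.ns_aL]
      refine ⟨⟨φ, hφE⟩, hφA, hdφ, fun ha => ?_⟩
      rcases T.ker _ hdφ ha with h3 | h3
      · exact h1 h3
      · exact h2 h3
  refine ⟨⟨fun P => (chi4 (ψ P)).toMul, S, n, ?_, ?_, ?_, ?_, ?_⟩⟩
  · intro x hx
    refine finprod_chi4 (fun P hP => Or.inl ((hx P hP).od_eq hn1)) (hψ x fun P hP => ?_)
    exact hx P (hmemS' P hP)
  · intro P hP A φ hφ h
    rw [(hdic P hP A φ hφ).1 h, chi4_zero]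
  · intro P hP A φ hφ h
    rw [(hdic P hP A φ hφ).2.1 h, chi4_two]
  · intro P hP A φ hφ h1 h2
    exact chi4_odd ((hdic P hP A φ hφ).2.2 h1 h2)
  · intro c hc P hP
    rcases W.QE.eq_one_or c with h | h
    · exact absurd h hc
    · rw [h, ← toMul_add, ← map_add, hconj, chi4_zero]

end

end Fermat.Agent.LT.Psi
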