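import Mathlib
import Fermat.Agent.LT.Psi.QD

set_option linter.unusedSectionVars false
set_option linter.unusedVariables false
set_option autoImplicit false

/-!
# Local analysis of quaternionic data
-/

open NumberField IsDedekindDomain nonZeroDivisors Pointwise

namespace Fermat.Agent.LT.Psi

open Fermat.Agent.CFT
open Fermat.Agent.Frob (below mem_below)
open Loc (GalGlob)

local notation "Om" => AlgebraicClosure ℚ

local notation "Γ" => (AlgebraicClosure ℚ ≃ₐ[ℚ] AlgebraicClosure ℚ)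

section

variable {E L K : IntermediateField ℚ Om} [FiniteDimensional ℚ E] [FiniteDimensional ℚ L]
  [FiniteDimensional ℚ K] [Algebra E L] [IsScalarTower E L Om] [Algebra L K]
  [IsScalarTower L K Om] {G0 : Type*} [Group G0]

namespace Tow

variable {T : QDat E G0} (W : Tow T L K)

include W

theorem hLE : L.fixingSubgroup ≤ E.fixingSubgroup := fix_anti

theorem hKL : K.fixingSubgroup ≤ L.fixingSubgroup := fix_anti

omit W in
theorem mem_UA {F : IntermediateField ℚ Om} {A : ValuationSubring Om} {g : Γ} :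
    g ∈ Loc.UA A F ↔ g • A = A ∧ g ∈ F.fixingSubgroup := Iff.rfl

/-- `d` at a place of `E` -/
theorem ns_d {A : ValuationSubring Om} {ℓ : ℕ} (hℓ : ℓ.Prime) (hA : A.LiesOverPrime ℓ) :
    NS (placeBelow E A hℓ hA) W.dE ↔ ∃ g : E.fixingSubgroup, (g : Γ) • A = A ∧ T.d g ≠ 0 := by
  rw [ns_iff hℓ hA (β := ((W.QE.α : L) : Om)) (by
    have := congrArg (fun t : L => (t : Om)) W.QE.sq
    simpa [coe_algMap] using this)]
  constructor
  · rintro ⟨g, hg, h⟩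
    exact ⟨⟨g, hg.2⟩, hg.1, fun h' => h ((W.hd ⟨g, hg.2⟩).2 h')⟩
  · rintro ⟨g, hg, h⟩
    exact ⟨g, ⟨hg, g.2⟩, fun h' => h ((W.hd g).1 h')⟩

theorem α_sq : (((W.QL.α : K) : Om)) ^ 2 = ((W.aE : E) : Om) := by
  have h1 := congrArg (fun t : K => (t : Om)) W.QL.sq
  simp only [coe_algMap, W.aL_eq] at h1
  exact h1

/-- `a` at a place of `E` -/
theorem ns_a {A : ValuationSubring Om} {ℓ : ℕ} (hℓ : ℓ.Prime) (hA : A.LiesOverPrime ℓ) :
    NS (placeBelow E A hℓ hA) W.aE ↔ ∃ g : E.fixingSubgroup, (g : Γ) • A = A ∧ T.a g ≠ 0 := by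
  rw [ns_iff hℓ hA (β := ((W.QL.α : K) : Om)) W.α_sq]
  constructor
  · rintro ⟨g, hg, h⟩
    exact ⟨⟨g, hg.2⟩, hg.1, fun h' => h ((W.ha ⟨g, hg.2⟩).2 h')⟩
  · rintro ⟨g, hg, h⟩
    exact ⟨g, ⟨hg, g.2⟩, fun h' => h ((W.ha g).1 h')⟩

/-- `a` at a place of `L` -/
theorem ns_aL {A : ValuationSubring Om} {ℓ : ℕ} (hℓ : ℓ.Prime) (hA : A.LiesOverPrime ℓ) :
    NS (placeBelow L A hℓ hA) W.aL ↔
      ∃ g : E.fixingSubgroup, (g : Γ) • A = A ∧ T.d g = 0 ∧ T.a g ≠ 0 := by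
  rw [ns_iff hℓ hA (β := ((W.QL.α : K) : Om)) (by
    have := congrArg (fun t : K => (t : Om)) W.QL.sq
    simpa [coe_algMap] using this)]
  constructor
  · rintro ⟨g, hg, h⟩
    exact ⟨⟨g, W.hLE hg.2⟩, hg.1, (W.hL _).1 hg.2, fun h' => h ((W.ha ⟨g, W.hLE hg.2⟩).2 h')⟩
  · rintro ⟨g, hg, hd, h⟩
    exact ⟨g, ⟨hg, (W.hL g).2 hd⟩, fun h' => h ((W.ha g).1 h')⟩

/-- `θ` at a place of `K` -/
theorem ns_θ {A : ValuationSubring Om} {ℓ : ℕ} (hℓ : ℓ.Prime) (hA : A.LiesOverPrime ℓ) :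
    NS (placeBelow K A hℓ hA) W.θ ↔ ∃ g : E.fixingSubgroup, (g : Γ) • A = A ∧ T.r g = T.z := by
  rw [ns_iff hℓ hA (β := W.ω) W.ω_sq]
  constructor
  · rintro ⟨g, hg, h⟩
    have hgE : g ∈ E.fixingSubgroup := W.hLE (W.hKL hg.2)
    have h1 := (W.hK ⟨g, hgE⟩).1 hg.2
    refine ⟨⟨g, hgE⟩, hg.1, ?_⟩
    rcases T.ker ⟨g, hgE⟩ h1.1 h1.2 with h2 | h2
    · exact absurd ((W.hω ⟨g, hgE⟩ hg.2).2 h2) h
    · exact h2
  · rintro ⟨g, hg, h⟩
    have hgK : (g : Γ) ∈ K.fixingSubgroup := (W.hK g).2 (T.of_r_z h)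
    refine ⟨g, ⟨hg, hgK⟩, fun h' => ?_⟩
    have := (W.hω g hgK).1 h'
    rw [this] at h
    exact T.z_ne h.symm

omit W in
/-- places over a given place -/
theorem exists_placeBelow_over {F F' : IntermediateField ℚ Om} [FiniteDimensional ℚ F]
    [FiniteDimensional ℚ F'] [Algebra F F'] [IsScalarTower F F' Om]
    (v : HeightOneSpectrum (𝓞 F')) :
    ∃ (A : ValuationSubring Om) (ℓ : ℕ) (hℓ : ℓ.Prime) (hA : A.LiesOverPrime ℓ),
      v = placeBelow F' A hℓ hA ∧ under F v = placeBelow F A hℓ hA := by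
  obtain ⟨A, ℓ, hℓ, hA, rfl⟩ := exists_placeBelow v
  exact ⟨A, ℓ, hℓ, hA, rfl, under_placeBelow' A hℓ hA⟩

/-- squares of elements outside the kernel -/
theorem exists_z {A : ValuationSubring Om} {g : E.fixingSubgroup} (hg : (g : Γ) • A = A)
    (h : ¬ (T.d g = 0 ∧ T.a g = 0)) : ∃ g : E.fixingSubgroup, (g : Γ) • A = A ∧ T.r g = T.z := by
  refine ⟨g * g, ?_, ?_⟩
  · rw [Subgroup.coe_mul, mul_smul, hg, hg]
  · rw [map_mul]; exact T.sq g h

theorem ns_θ_of_aL (v : HeightOneSpectrum (𝓞 K)) (h : NS (under L v) W.aL) : NS v W.θ := by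
  obtain ⟨A, ℓ, hℓ, hA, rfl, hv⟩ := exists_placeBelow_over (F := L) v
  rw [hv, W.ns_aL] at h
  rw [W.ns_θ]
  obtain ⟨g, hg, hd, ha⟩ := h
  exact W.exists_z hg (fun h => ha h.2)

theorem hθ : ∃ c : Kˣ, W.QL.tu W.θ = W.θ * c ^ 2 := by
  have := W.QL.isGalois
  obtain ⟨g0, hg0, hτ⟩ := exists_lift W.QL.τ
  have hω0 : W.ω ≠ 0 := by
    intro h
    have h1 := W.ω_sq
    rw [h, zero_pow two_ne_zero] at h1
    exact W.θ.ne_zero (Subtype.ext h1.symm)
  have hg0E : g0 ∈ E.fixingSubgroup := W.hLE hg0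
  have hmem : g0 W.ω / W.ω ∈ K := by
    rw [mem_iff_fixed]
    rintro ⟨h, hh⟩
    change h (g0 W.ω / W.ω) = _
    have hhE : h ∈ E.fixingSubgroup := W.hLE (W.hKL hh)
    set h' : E.fixingSubgroup := ⟨g0, hg0E⟩⁻¹ * ⟨h, hhE⟩ * (⟨g0, hg0E⟩⁻¹)⁻¹ with hh'
    have hh'K : (h' : Γ) ∈ K.fixingSubgroup := by
      rw [W.hK, hh', T.d_conj, T.a_conj]
      exact (W.hK ⟨h, hhE⟩).1 hh
    have hfix : ∀ k ∈ K.fixingSubgroup, k W.ω = W.ω ∨ k W.ω = -W.ω := by
      intro k hk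
      have h1 : (k W.ω) ^ 2 = W.ω ^ 2 := by
        rw [← map_pow, W.ω_sq]
        exact (IntermediateField.mem_fixingSubgroup_iff _ _).1 hk _ (W.θ : K).2
      exact sq_eq_sq_iff_eq_or_eq_neg.1 h1
    have hcomm : h (g0 W.ω) = g0 ((h' : Γ) W.ω) := by
      rw [← AlgEquiv.mul_apply, ← AlgEquiv.mul_apply]
      congr 1
      rw [hh']
      push_cast
      group
    have hiff : (h' : Γ) W.ω = W.ω ↔ h W.ω = W.ω := by
      rw [W.hω h' hh'K, hh', T.r_conj_one]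
      exact (W.hω ⟨h, hhE⟩ hh).symm
    rw [map_div₀, hcomm]
    rcases hfix h hh with h1 | h1
    · rw [h1, hiff.2 h1]
    · have h2 : (h' : Γ) W.ω = -W.ω := by
        rcases hfix _ hh'K with h3 | h3
        · exfalso
          have h4 := hiff.1 h3
          rw [h1] at h4
          have h5 : (2 : Om) * W.ω = 0 := by linear_combination -h4
          rcases mul_eq_zero.1 h5 with h6 | h6
          · exact two_ne_zero h6
          · exact hω0 h6
        · exact h3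
      rw [h1, h2, map_neg, neg_div_neg_eq]
  have hne : (⟨g0 W.ω / W.ω, hmem⟩ : K) ≠ 0 := by
    intro h
    have h1 : g0 W.ω / W.ω = 0 := congrArg Subtype.val h
    rw [div_eq_zero_iff] at h1
    rcases h1 with h1 | h1
    · exact hω0 ((map_eq_zero g0).1 h1)
    · exact hω0 h1
  refine ⟨Units.mk0 _ hne, ?_⟩
  apply Units.ext
  apply Subtype.ext
  rw [Quad.coe_tu, hτ, Units.val_mul, Units.val_pow_eq_pow_val, Units.val_mk0]
  change g0 ((W.θ : K) : Om) = ((W.θ : K) : Om) * (g0 W.ω / W.ω) ^ 2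
  rw [← W.ω_sq, map_pow]
  field_simp

/-- both `a` and `d` nonsquare: `a d` is a square -/
theorem da_eq [IsTotallyComplex E] {A : ValuationSubring Om} {ℓ : ℕ} (hℓ : ℓ.Prime)
    (hA : A.LiesOverPrime ℓ)
    (h2 : placeBelow E A hℓ hA ∉ Tp E 2) (hd2 : (2 : ℤ) ∣ od (placeBelow E A hℓ hA) W.dE)
    (ha2 : (2 : ℤ) ∣ od (placeBelow E A hℓ hA) W.aE)
    (hnd : NS (placeBelow E A hℓ hA) W.dE) (hna : NS (placeBelow E A hℓ hA) W.aE)
    (g : E.fixingSubgroup) (hg : (g : Γ) • A = A) : T.d g = T.a g := by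
  have h1 : ¬ NS (placeBelow E A hℓ hA) (W.dE * W.aE) := by
    rw [not_ns_iff]
    intro y
    obtain ⟨y1, hy1⟩ := hnd
    obtain ⟨y2, hy2⟩ := hna
    rw [hs_mul_left, hs_of_even h2 hd2 hy1 y, hs_of_even h2 ha2 hy2 y, zmod2_add_self]
  rw [ns_iff hℓ hA (β := ((W.QE.α : L) : Om) * ((W.QL.α : K) : Om)) (by
    rw [mul_pow, W.α_sq]
    have := congrArg (fun t : L => (t : Om)) W.QE.sq
    simp only [coe_algMap] at this
    rw [Units.val_mul, MulMemClass.coe_mul, ← this]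
    rfl)] at h1
  push Not at h1
  have h3 := h1 g ⟨hg, g.2⟩
  rw [map_mul] at h3
  have hα0 : ((W.QE.α : L) : Om) ≠ 0 := fun h => W.QE.α_ne_zero (Subtype.ext h)
  have hβ0 : ((W.QL.α : K) : Om) ≠ 0 := fun h => W.QL.α_ne_zero (Subtype.ext h)
  have hb : ∀ s t : ZMod 2, (s = 0 ↔ t = 0) → s = t := by decide
  apply hb
  rw [← W.hd g, ← W.ha g]
  constructor
  · intro h4
    rw [h4] at h3
    exact mul_left_cancel₀ hα0 h3
  · intro h4
    rw [h4] at h3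
    exact mul_right_cancel₀ hβ0 h3

end Tow

end

end Fermat.Agent.LT.Psi
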