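import Mathlib
import Fermat.Agent.LT.Psi.QLoc

set_option linter.unusedSectionVars false
set_option linter.unusedVariables false
set_option autoImplicit false

/-!
# The quartic character: compatibility with `E`
-/

open NumberField IsDedekindDomain nonZeroDivisors Pointwise

namespace Fermat.Agent.LT.Psi

open Fermat.Agent.CFT
open Fermat.Agent.Frob (below mem_below)
open Loc (GalGlob)

local notation "Om" => AlgebraicClosure ℚ

local notation "Γ" => (AlgebraicClosure ℚ ≃ₐ[ℚ] AlgebraicClosure ℚ)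

section

variable {E L : IntermediateField ℚ Om} [FiniteDimensional ℚ E] [FiniteDimensional ℚ L]
  [Algebra E L] [IsScalarTower E L Om]

/-- sum over a fibre -/
noncomputable def nu (ψ : HeightOneSpectrum (𝓞 L) → ZMod 4) (w : HeightOneSpectrum (𝓞 E)) : ZMod 4 :=
  ∑ᶠ (P) (_ : under E P = w), ψ P

theorem nu_of_zero {ψ : HeightOneSpectrum (𝓞 L) → ZMod 4} {w : HeightOneSpectrum (𝓞 E)}
    (h : ∀ P, under E P = w → ψ P = 0) : nu ψ w = 0 := by
  classical
  rw [nu, ← finsum_zero (α := HeightOneSpectrum (𝓞 L)) (M := ZMod 4)]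
  refine finsum_congr fun P => ?_
  rw [finsum_eq_if]
  split_ifs with h1
  · exact h P h1
  · rfl

namespace Quad

variable {d : Eˣ} (Q : Quad E L d)

include Q

theorem nu_ns (ψ : HeightOneSpectrum (𝓞 L) → ZMod 4) {P : HeightOneSpectrum (𝓞 L)}
    (h : placeSmul Q.τ P = P) : nu ψ (under E P) = ψ P := Q.finsum_fiber_ns _ h

theorem nu_sp (ψ : HeightOneSpectrum (𝓞 L) → ZMod 4) {P : HeightOneSpectrum (𝓞 L)}
    (h : placeSmul Q.τ P ≠ P) : nu ψ (under E P) = ψ P + ψ (placeSmul Q.τ P) :=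
  Q.finsum_fiber_sp _ h

theorem finite_fiber {B : Set (HeightOneSpectrum (𝓞 E))} (hB : B.Finite) :
    {P : HeightOneSpectrum (𝓞 L) | under E P ∈ B}.Finite := by
  refine Set.Finite.preimage' (f := under E) hB fun w _ => ?_
  obtain ⟨P, rfl⟩ := under_surj (K := L) w
  refine (Set.toFinite {P, placeSmul Q.τ P}).subset fun P' hP' => ?_
  rcases Q.eq_or_of_under (Eq.symm hP' : under E P = under E P') with h | h
  · exact Or.inl h
  · exact Or.inr h

/-- the value at an element of `E` -/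
theorem sum_alg {B : Set (HeightOneSpectrum (𝓞 E))}
    (hgood : ∀ w ∉ B, w ∉ Tp E 2 ∧ (2 : ℤ) ∣ od w d)
    {ψ : HeightOneSpectrum (𝓞 L) → ZMod 4} (hψ : ∀ P, under E P ∈ B → ψ P = 0) (x : Eˣ) :
    ∑ᶠ P, (od P (Units.map (algebraMap E L : E →* L) x) : ZMod 4) * ψ P =
      ∑ᶠ w, (od w x : ZMod 4) * nu ψ w := by
  classical
  rw [finsum_fiber (under E) _ (finite_mul_od ψ _)]
  refine finsum_congr fun w => ?_
  obtain ⟨P, rfl⟩ := under_surj (K := L) w
  by_cases hw : under E P ∈ B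
  · rw [nu_of_zero (fun P' hP' => hψ P' (by rw [hP']; exact hw)), mul_zero,
      ← finsum_zero (α := HeightOneSpectrum (𝓞 L)) (M := ZMod 4)]
    refine finsum_congr fun P' => ?_
    rw [finsum_eq_if]
    split_ifs with h1
    · rw [hψ P' (by rw [h1]; exact hw), mul_zero]
    · rfl
  · have h1 : ∀ P', under E P' = under E P →
        od P' (Units.map (algebraMap E L : E →* L) x) = od (under E P) x := by
      intro P' hP'
      rw [← hP']
      exact Q.ordH_alg (by rw [hP']; exact (hgood _ hw).1) (by rw [hP']; exact (hgood _ hw).2) x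
    by_cases h : placeSmul Q.τ P = P
    · rw [Q.nu_ns ψ h, Q.finsum_fiber_ns _ h, h1 P rfl]
    · rw [Q.nu_sp ψ h, Q.finsum_fiber_sp _ h, h1 P rfl, h1 _ (Q.under_τ P), mul_add]

end Quad

open scoped Classical in
/-- the correction term -/
theorem kap_eq_zero [IsTotallyComplex E] {d a : Eˣ} {B : Set (HeightOneSpectrum (𝓞 E))}
    (hB : B.Finite)
    (hgood : ∀ w ∉ B, w ∉ Tp E 2 ∧ (2 : ℤ) ∣ od w d ∧ (2 : ℤ) ∣ od w a)
    {n : ℕ} (h1n : 1 ≤ n) (hn : ∀ w ∈ B, lev w ≤ n)
    {κ : HeightOneSpectrum (𝓞 E) → ZMod 4}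
    (hκ : ∀ x : Eˣ, (∀ w ∈ B, Near w n (x : E)) → ∑ᶠ w, (od w x : ZMod 4) * κ w = 0)
    (hκ0 : ∀ w, ¬ (w ∉ B ∧ ¬ NS w d ∧ NS w a) → κ w = 0)
    (hκ2 : ∀ w, 2 * κ w = 0)
    {w1 : HeightOneSpectrum (𝓞 E)} (hw1 : w1 ∉ B) (hw1d : NS w1 d) (hw1a : NS w1 a)
    (w : HeightOneSpectrum (𝓞 E)) : κ w = 0 := by
  by_cases hw : w ∉ B ∧ ¬ NS w d ∧ NS w a
  swap
  · exact hκ0 w hw
  have hne : w ≠ w1 := by
    rintro rfl
    exact hw.2.1 hw1d
  obtain ⟨y, hy⟩ := exists_hs a (fun v => if v = w ∨ v = w1 then (1 : ZMod 2) else 0)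
    ((Set.toFinite {w, w1}).subset fun v hv => by
      by_contra hcon
      apply hv
      exact if_neg (fun h => hcon h))
    (by
      intro v hv
      rw [if_neg]
      rintro (rfl | rfl)
      · exact not_ns_iff.2 hv hw.2.2
      · exact not_ns_iff.2 hv hw1a)
    (by
      rw [finsum_eq_sum_of_support_subset (s := {w, w1}), Finset.sum_pair hne]
      · simp only [true_or, or_true, if_true]; rfl
      · intro v hv
        by_contra hcon
        apply hv
        refine if_neg fun h => hcon ?_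
        rw [Finset.coe_pair]
        exact h)
  obtain ⟨X, Y, hXY, hnear⟩ := exists_conic_approx hB.toFinset a y (by
    intro v hv
    rw [Set.Finite.mem_toFinset] at hv
    rw [hy, if_neg]
    rintro (rfl | rfl)
    · exact hw.1 hv
    · exact hw1 hv) n
  set x : Eˣ := Units.mk0 _ hXY / y with hx
  have hxval : (x : E) = (X ^ 2 - (a : E) * Y ^ 2) / (y : E) := by
    rw [hx, Units.val_div_eq_div_val, Units.val_mk0]
  have hxB : ∀ v ∈ B, Near v n (x : E) := by
    intro v hv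
    rw [hxval]
    exact hnear v (hB.mem_toFinset.2 hv)
  have hxs : ∀ v, hs E v a x = if v = w ∨ v = w1 then (1 : ZMod 2) else 0 := by
    intro v
    rw [hx, hs_div_right, hs_norm (y := Units.mk0 _ hXY) rfl, zero_add, hy]
  have h1 := hκ x hxB
  have hod : ∀ v ∉ B, NS v a → ((od v x : ℤ) : ZMod 2) = if v = w ∨ v = w1 then (1 : ZMod 2) else 0 := by
    intro v hv hva
    rw [← hxs]
    obtain ⟨y', hy'⟩ := hva
    exact (hs_of_even (hgood v hv).1 (hgood v hv).2.2 hy' x).symm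
  rw [finsum_eq_single _ w] at h1
  · have h2 := hod w hw.1 hw.2.2
    rw [if_pos (Or.inl rfl)] at h2
    have h3 : (od w x) % 2 = 1 := by
      have h4 : ((od w x - 1 : ℤ) : ZMod 2) = 0 := by push_cast; rw [h2]; exact sub_self _
      rw [ZMod.intCast_zmod_eq_zero_iff_dvd] at h4
      obtain ⟨k, hk⟩ := h4
      have : od w x = 1 + 2 * k := by
        have := hk
        push_cast at this
        omega
      rw [this]
      omega
    obtain ⟨k, hk⟩ : ∃ k, od w x = 2 * k + 1 := ⟨od w x / 2, by omega⟩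
    rw [hk] at h1
    push_cast at h1
    have h5 := hκ2 w
    linear_combination h1 - (k : ZMod 4) * h5
  · intro v hv
    by_cases hv2 : v ∉ B ∧ ¬ NS v d ∧ NS v a
    · have hv1 : v ≠ w1 := by
        rintro rfl
        exact hv2.2.1 hw1d
      have h2 := hod v hv2.1 hv2.2.2
      rw [if_neg (by rintro (h | h); exacts [hv h, hv1 h]), ZMod.intCast_zmod_eq_zero_iff_dvd] at h2
      obtain ⟨k, hk⟩ := h2
      rw [hk]
      have h5 := hκ2 v
      push_cast
      linear_combination (k : ZMod 4) * h5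
    · rw [hκ0 v hv2, mul_zero]

/-- a place where `a` and `d` are nonsquares -/
theorem exists_place_ns [IsTotallyComplex E] {d a : Eˣ} (hd : kp 2 E (Additive.ofMul d) ≠ 0)
    (had : kp 2 E (Additive.ofMul a) ∉ Submodule.span (ZMod 2) {kp 2 E (Additive.ofMul (d * a))})
    {B : Set (HeightOneSpectrum (𝓞 E))} (hB : B.Finite) :
    ∃ w ∉ B, NS w d ∧ NS w a := by
  obtain ⟨v, hv, h1, h2⟩ := (symDataTC hz2 (neg_one_mem' E)).cheb _ _ had hB.toFinset
  have h1' : ¬ NS v (d * a) := not_ns_iff_sv.2 h1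
  have h2' : NS v a := by
    by_contra h
    exact h2 (not_ns_iff_sv.1 h)
  refine ⟨v, fun h => hv (hB.mem_toFinset.2 h), ?_, h2'⟩
  obtain ⟨y, hy⟩ := h2'
  refine ⟨y, fun h => hy ?_⟩
  have h3 := not_ns_iff.1 h1' y
  rw [hs_mul_left, h, zero_add] at h3
  exact h3

/-- a place where `a` is a nonsquare and `d` is a square -/
theorem exists_place_ns' [IsTotallyComplex E] {d a : Eˣ}
    (had : kp 2 E (Additive.ofMul a) ∉ Submodule.span (ZMod 2) {kp 2 E (Additive.ofMul d)})
    {B : Set (HeightOneSpectrum (𝓞 E))} (hB : B.Finite) :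
    ∃ w ∉ B, ¬ NS w d ∧ NS w a := by
  obtain ⟨v, hv, h1, h2⟩ := (symDataTC hz2 (neg_one_mem' E)).cheb _ _ had hB.toFinset
  refine ⟨v, fun h => hv (hB.mem_toFinset.2 h), not_ns_iff_sv.2 h1, ?_⟩
  by_contra h
  exact h2 (not_ns_iff_sv.1 h)

end

end Fermat.Agent.LT.Psi
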