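import Mathlib
import Fermat.Agent.LT.Psi.QGlob

set_option linter.unusedSectionVars false
set_option linter.unusedVariables false
set_option autoImplicit false

/-!
# The quartic character: final assembly
-/

open NumberField IsDedekindDomain nonZeroDivisors Pointwise

namespace Fermat.Agent.LT.Psi

open Fermat.Agent.CFT
open Fermat.Agent.Frob (below mem_below)
open Loc (GalGlob)

local notation "Om" => AlgebraicClosure ℚ

local notation "Γ" => (AlgebraicClosure ℚ ≃ₐ[ℚ] AlgebraicClosure ℚ)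

section

variable {E L K : IntermediateField ℚ Om} [FiniteDimensional ℚ E] [FiniteDimensional ℚ L]
  [FiniteDimensional ℚ K] [Algebra E L] [IsScalarTower E L Om] [Algebra L K]
  [IsScalarTower L K Om] {G0 : Type*} [Group G0]

namespace Tow

variable {T : QDat E G0} (W : Tow T L K)

include W

/-- the bad places of `E` -/
def bad : Set (HeightOneSpectrum (𝓞 E)) :=
  Tp E 2 ∪ {w | od w W.dE ≠ 0} ∪ {w | od w W.aE ≠ 0} ∪
    (fun v : HeightOneSpectrum (𝓞 K) => under E (under L v)) '' {v | od v W.θ ≠ 0}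

theorem finite_bad : W.bad.Finite := by
  refine (((finite_Tp two_ne_zero).union (finite_od _)).union (finite_od _)).union ?_
  exact (finite_od W.θ).image _

variable {B : Set (HeightOneSpectrum (𝓞 E))} (hWB : W.bad ⊆ B)

include hWB

theorem good_two {w : HeightOneSpectrum (𝓞 E)} (hw : w ∉ B) : w ∉ Tp E 2 := fun h =>
  hw (hWB (Or.inl (Or.inl (Or.inl h))))

theorem good_d {w : HeightOneSpectrum (𝓞 E)} (hw : w ∉ B) : od w W.dE = 0 := by
  by_contra h
  exact hw (hWB (Or.inl (Or.inl (Or.inr h))))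

theorem good_a {w : HeightOneSpectrum (𝓞 E)} (hw : w ∉ B) : od w W.aE = 0 := by
  by_contra h
  exact hw (hWB (Or.inl (Or.inr h)))

theorem good_θ {v : HeightOneSpectrum (𝓞 K)} (hw : under E (under L v) ∉ B) :
    od v W.θ = 0 := by
  by_contra h
  exact hw (hWB (Or.inr ⟨v, h, rfl⟩))

theorem good {P : HeightOneSpectrum (𝓞 L)} (hP : under E P ∉ B) : Good (K := K) W.aL W.θ P := by
  refine ⟨fun h => W.good_two hWB hP (Quad.mem_Tp_under h), ?_, ?_, ?_⟩
  · have h1 : W.aL = Units.map (algebraMap E L : E →* L) W.aE := Units.ext W.aL_eq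
    rw [h1, ordH_algebraMap]
    have h2 := W.good_a hWB hP
    rw [od] at h2
    rw [h2, mul_zero]
    exact dvd_zero _
  · intro v hv
    have := W.good_θ hWB (v := v) (by rw [hv]; exact hP)
    rw [od] at this
    rw [this]
    exact dvd_zero _
  · intro h v hv
    exact W.ns_θ_of_aL v (by rw [hv]; exact h)

/-- the inert case -/
theorem inert_case [IsTotallyComplex E] {P : HeightOneSpectrum (𝓞 L)} (hP : under E P ∉ B)
    (h : NS (under E P) W.dE) : ¬ NS P W.aL ∧ Quad.bt W.θ P = 1 := by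
  obtain ⟨A, ℓ, hℓ, hA, rfl, hw⟩ := exists_placeBelow_over (F := E) P
  rw [hw] at h hP
  constructor
  · intro h1
    rw [W.ns_aL] at h1
    obtain ⟨g, hg, hd, ha⟩ := h1
    have h2 : NS (placeBelow E A hℓ hA) W.aE := (W.ns_a hℓ hA).2 ⟨g, hg, ha⟩
    have h3 := W.da_eq hℓ hA (W.good_two hWB hP) (by rw [W.good_d hWB hP]; exact dvd_zero _)
      (by rw [W.good_a hWB hP]; exact dvd_zero _) h h2 g hg
    rw [hd] at h3
    exact ha h3.symm
  · obtain ⟨g, hg, hd⟩ := (W.ns_d hℓ hA).1 h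
    obtain ⟨g', hg', hz⟩ := W.exists_z hg (fun h' => hd h'.1)
    have h1 : NS (placeBelow K A hℓ hA) W.θ := (W.ns_θ hℓ hA).2 ⟨g', hg', hz⟩
    have h2 := Quad.bt_of_ns (L := L) h1
    rwa [under_placeBelow'] at h2

omit hWB in
/-- the split case -/
theorem split_case {P : HeightOneSpectrum (𝓞 L)} (h : ¬ NS (under E P) W.dE) :
    NS P W.aL ↔ NS (under E P) W.aE := by
  obtain ⟨A, ℓ, hℓ, hA, rfl, hw⟩ := exists_placeBelow_over (F := E) P
  rw [hw] at h ⊢
  rw [W.ns_d] at h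
  push Not at h
  rw [W.ns_aL, W.ns_a]
  constructor
  · rintro ⟨g, hg, -, ha⟩
    exact ⟨g, hg, ha⟩
  · rintro ⟨g, hg, ha⟩
    exact ⟨g, hg, h g hg, ha⟩

omit hWB in
/-- `β` is invariant under conjugation -/
theorem bt_τ (P : HeightOneSpectrum (𝓞 L)) :
    Quad.bt (K := K) W.θ (placeSmul W.QE.τ P) = Quad.bt W.θ P := by
  have := W.QE.isGalois
  obtain ⟨g, hg, hτ⟩ := exists_lift W.QE.τ
  obtain ⟨A, ℓ, hℓ, hA, rfl⟩ := exists_placeBelow P
  have hgA : (g • A).LiesOverPrime ℓ := Fermat.Agent.Frob.liesOverPrime_smul hA g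
  have h1 : placeSmul W.QE.τ (placeBelow L A hℓ hA) = placeBelow L (g • A) hℓ hgA :=
    (placeBelow_smul hτ hℓ hA hgA).symm
  rw [h1]
  have key : NS (placeBelow K (g • A) hℓ hgA) W.θ ↔ NS (placeBelow K A hℓ hA) W.θ := by
    rw [W.ns_θ, W.ns_θ]
    have hz : ∀ (h h' : E.fixingSubgroup), T.r h = T.z → T.r (h' * h * h'⁻¹) = T.z := by
      intro h h' hh
      have h2 := T.of_r_z hh
      rcases T.ker (h' * h * h'⁻¹) (by rw [T.d_conj]; exact h2.1) (by rw [T.a_conj]; exact h2.2)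
        with h3 | h3
      · rw [T.r_conj_one] at h3
        rw [h3] at hh
        exact absurd hh.symm T.z_ne
      · exact h3
    let g' : E.fixingSubgroup := ⟨g, hg⟩
    have hg' : (g' : Γ) = g := rfl
    clear_value g'
    constructor
    · rintro ⟨h, hh, hr⟩
      refine ⟨g'⁻¹ * h * g'⁻¹⁻¹, ?_, hz _ _ hr⟩
      rw [Subgroup.coe_mul, Subgroup.coe_mul, inv_inv, Subgroup.coe_inv, hg', mul_smul, mul_smul,
        hh, inv_smul_smul]
    · rintro ⟨h, hh, hr⟩
      refine ⟨g' * h * g'⁻¹, ?_, hz _ _ hr⟩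
      rw [Subgroup.coe_mul, Subgroup.coe_mul, Subgroup.coe_inv, hg', mul_smul, mul_smul,
        inv_smul_smul, hh]
  have e1 : placeBelow L (g • A) hℓ hgA = under L (placeBelow K (g • A) hℓ hgA) :=
    (under_placeBelow' (L := L) (K := K) (g • A) hℓ hgA).symm
  have e2 : placeBelow L A hℓ hA = under L (placeBelow K A hℓ hA) :=
    (under_placeBelow' (L := L) (K := K) A hℓ hA).symm
  by_cases h : NS (placeBelow K A hℓ hA) W.θ
  · rw [e1, e2, Quad.bt_of_ns h, Quad.bt_of_ns (key.2 h)]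
  · rw [e1, e2, W.QL.bt_of_not W.hθ h, W.QL.bt_of_not W.hθ (fun h' => h (key.1 h'))]

omit hWB in
/-- the Kummer classes are independent -/
theorem indep (s t : ZMod 2) (h : s • kp 2 E (Additive.ofMul W.dE) +
    t • kp 2 E (Additive.ofMul W.aE) = 0) : s = 0 ∧ t = 0 := by
  have hker : ∀ g : E.fixingSubgroup, s * T.d g + t * T.a g = 0 := by
    intro g
    have h1 := congrArg (fun x => (kum hz2 (neg_one_mem' E) x : E.fixingSubgroup → ZMod 2) g) h
    simp only [map_add, map_smul, map_zero, kum_kp] at h1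
    have h2 : (kumHom hz2 (neg_one_mem' E) (Additive.ofMul W.dE) : E.fixingSubgroup → ZMod 2) g =
        T.d g := by
      rw [kumHom_apply hz2 (neg_one_mem' E) (α := ((W.QE.α : L) : Om)) (by
        have := congrArg (fun t : L => (t : Om)) W.QE.sq
        simpa [coe_algMap] using this)]
      have h3 := W.hd g
      have hα0 : ((W.QE.α : L) : Om) ≠ 0 := fun h => W.QE.α_ne_zero (Subtype.ext h)
      have h4 := kummer_eq_zero_iff hz2 (g := g) hα0 (by
        have := congrArg (fun t : L => (t : Om)) W.QE.sq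
        simp only [coe_algMap] at this
        have h5 : ((W.QE.α : L) : Om) ^ 2 = ((W.dE : E) : Om) := this
        rw [h5]
        exact smul_coe_of_mem g _)
      have hb : ∀ s t : ZMod 2, (s = 0 ↔ t = 0) → s = t := by decide
      exact hb _ _ (h4.trans h3)
    have h2' : (kumHom hz2 (neg_one_mem' E) (Additive.ofMul W.aE) : E.fixingSubgroup → ZMod 2) g =
        T.a g := by
      rw [kumHom_apply hz2 (neg_one_mem' E) (x := Additive.ofMul W.aE) (α := ((W.QL.α : K) : Om)) W.α_sq]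
      have h3 := W.ha g
      have hα0 : ((W.QL.α : K) : Om) ≠ 0 := fun h => W.QL.α_ne_zero (Subtype.ext h)
      have h4 := kummer_eq_zero_iff hz2 (g := g) hα0 (by
        rw [W.α_sq]
        exact smul_coe_of_mem g _)
      have hb : ∀ s t : ZMod 2, (s = 0 ↔ t = 0) → s = t := by decide
      exact hb _ _ (h4.trans h3)
    rw [← h2, ← h2']
    exact h1
  obtain ⟨g, hg, hg'⟩ := T.surj 1 0
  obtain ⟨g2, hg2, hg2'⟩ := T.surj 0 1
  have e1 := hker g
  have e2 := hker g2
  rw [hg, hg', mul_one, mul_zero, add_zero] at e1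
  rw [hg2, hg2', mul_one, mul_zero, zero_add] at e2
  exact ⟨e1, e2⟩

/-- **the quartic Hecke character** -/
theorem exists_psi [IsTotallyComplex E] [IsTotallyComplex L] [IsTotallyComplex K]
    (hB : B.Finite) :
    ∃ (ψ : HeightOneSpectrum (𝓞 L) → ZMod 4) (n : ℕ), 1 ≤ n ∧
      (∀ P, under E P ∈ B → ψ P = 0) ∧
      (∀ x : Lˣ, (∀ P, under E P ∈ B → Near P n (x : L)) → ∑ᶠ P, (od P x : ZMod 4) * ψ P = 0) ∧
      (∀ P, under E P ∉ B → NS P W.aL → ψ P = 1 ∨ ψ P = 3) ∧
      (∀ P, under E P ∉ B → ¬ NS P W.aL → ψ P = dbl (Quad.bt W.θ P)) ∧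
      ∀ P, ψ P + ψ (placeSmul W.QE.τ P) = 0 := by
  classical
  have hgal := W.QE.isGalois
  set BL : Set (HeightOneSpectrum (𝓞 L)) := {P | under E P ∈ B} with hBL
  have hBLfin : BL.Finite := W.QE.finite_fiber hB
  obtain ⟨ψ, n1, hn1, hψ0, hψ1, hψ2, hψ⟩ := W.QL.exists_psi W.hθ hBLfin
    (fun P hP => W.good hWB hP)
  obtain ⟨n2, -, hn2⟩ := exists_bound hB (fun w => lev w)
  have hn : 1 ≤ max n1 n2 := hn1.trans (le_max_left _ _)
  have hψ' : ∀ x : Lˣ, (∀ P, under E P ∈ B → Near P (max n1 n2) (x : L)) →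
      ∑ᶠ P, (od P x : ZMod 4) * ψ P = 0 := fun x hx =>
    hψ x fun P hP => near_mono (le_max_left _ _) (hx P hP)
  refine ⟨ψ, max n1 n2, hn, fun P hP => hψ0 P hP, hψ', fun P hP => hψ1 P hP,
    fun P hP => hψ2 P hP, ?_⟩
  -- values on fibres
  have hτ : ∀ P, under E (placeSmul W.QE.τ P) = under E P := fun P => W.QE.under_τ P
  have hinert : ∀ P, under E P ∉ B → NS (under E P) W.dE → ψ P = 2 := by
    intro P hP h
    obtain ⟨h1, h2⟩ := W.inert_case hWB hP h
    rw [hψ2 P hP h1, h2]; rfl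
  have hsplit : ∀ P, under E P ∉ B → ¬ NS (under E P) W.dE → ¬ NS (under E P) W.aE →
      ψ P + ψ (placeSmul W.QE.τ P) = 0 := by
    intro P hP h h'
    have h1 : ¬ NS P W.aL := fun h2 => h' ((W.split_case h).1 h2)
    have h2 : ¬ NS (placeSmul W.QE.τ P) W.aL := fun h2 => h' (by
      rw [← hτ P]
      exact (W.split_case (by rw [hτ]; exact h)).1 h2)
    rw [hψ2 P hP h1, hψ2 _ (by change under E (placeSmul W.QE.τ P) ∉ B; rw [hτ]; exact hP) h2,
      W.bt_τ, ← dbl_add, zmod2_add_self]; rfl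
  have hsplit2 : ∀ P, under E P ∉ B → ¬ NS (under E P) W.dE → NS (under E P) W.aE →
      2 * (ψ P + ψ (placeSmul W.QE.τ P)) = 0 := by
    intro P hP h h'
    have h1 : NS P W.aL := (W.split_case h).2 h'
    have h2 : NS (placeSmul W.QE.τ P) W.aL :=
      (W.split_case (P := placeSmul W.QE.τ P) (by rw [hτ]; exact h)).2 (by rw [hτ]; exact h')
    have key : ∀ s t : ZMod 4, (s = 1 ∨ s = 3) → (t = 1 ∨ t = 3) → 2 * (s + t) = 0 := by decide
    exact key _ _ (hψ1 P hP h1)
      (hψ1 _ (by change under E (placeSmul W.QE.τ P) ∉ B; rw [hτ]; exact hP) h2)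
  have hspl : ∀ P, ¬ NS (under E P) W.dE → placeSmul W.QE.τ P ≠ P := fun P h h' =>
    h ((W.QE.ns_iff P).2 h')
  have hnsp : ∀ P, NS (under E P) W.dE → placeSmul W.QE.τ P = P := fun P h => (W.QE.ns_iff P).1 h
  -- the correction
  have hbadE : ∀ w ∉ B, w ∉ Tp E 2 ∧ (2 : ℤ) ∣ od w W.dE ∧ (2 : ℤ) ∣ od w W.aE := fun w hw =>
    ⟨W.good_two hWB hw, by rw [W.good_d hWB hw]; exact dvd_zero _,
      by rw [W.good_a hWB hw]; exact dvd_zero _⟩
  set κ : HeightOneSpectrum (𝓞 E) → ZMod 4 := fun w =>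
    nu ψ w - dbl (if w ∉ B ∧ NS w W.dE then 1 else 0) with hκdef
  have hnuB : ∀ w ∈ B, nu ψ w = 0 := fun w hw => nu_of_zero fun P hP => hψ0 P (by
    change under E P ∈ B
    rw [hP]; exact hw)
  have hκs : ∀ x : Eˣ, (∀ w ∈ B, Near w (max n1 n2) (x : E)) →
      ∑ᶠ w, (od w x : ZMod 4) * κ w = 0 := by
    intro x hx
    have h1 := W.QE.sum_alg (fun w hw => ⟨(hbadE w hw).1, (hbadE w hw).2.1⟩)
      (ψ := ψ) (fun P hP => hψ0 P hP) x
    rw [hψ' _ (fun P hP => by
      rw [Units.coe_map]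
      exact near_up (hx _ hP))] at h1
    have h2 : ∀ w, (od w x : ZMod 4) * κ w = (od w x : ZMod 4) * nu ψ w +
        dblHom (hs E w W.dE x) := by
      intro w
      rw [hs_out (fun w hw => ⟨(hbadE w hw).1, (hbadE w hw).2.1⟩)
        (fun w hw => (hn2 w hw).trans (le_max_right _ _)) hx w, hκdef]
      change _ = _ + dbl _
      have h3 : (od w x : ZMod 4) * dbl (if w ∉ B ∧ NS w W.dE then 1 else 0) =
          dbl (if w ∉ B ∧ NS w W.dE then (od w x : ZMod 2) else 0) := by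
        rw [dbl_aux]
        congr 1
        split_ifs
        · rw [mul_one]
        · rw [mul_zero]
      rw [← h3]
      have h4 : ∀ m s t : ZMod 4, 2 * t = 0 → m * (s - t) = m * s + m * t := by decide
      exact h4 _ _ _ (two_mul_dbl _)
    rw [finsum_congr h2, finsum_add_distrib (finite_mul_od _ _), ← h1, zero_add,
      ← AddMonoidHom.map_finsum _ (finite_hs _ x), sum_hs, map_zero]
    refine (finite_hs W.dE x).subset fun w hw => ?_
    intro h0
    apply hw
    change dblHom (hs E w W.dE x) = 0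
    rw [h0, map_zero]
  have hκ0 : ∀ w, ¬ (w ∉ B ∧ ¬ NS w W.dE ∧ NS w W.aE) → κ w = 0 := by
    intro w hw
    change nu ψ w - dbl (if w ∉ B ∧ NS w W.dE then 1 else 0) = 0
    by_cases hwB : w ∈ B
    · rw [hnuB w hwB, if_neg (fun h => h.1 hwB)]; rfl
    · obtain ⟨P, rfl⟩ := under_surj (K := L) w
      by_cases hd : NS (under E P) W.dE
      · rw [W.QE.nu_ns ψ (hnsp P hd), if_pos ⟨hwB, hd⟩, hinert P hwB hd]; rfl
      · rw [W.QE.nu_sp ψ (hspl P hd), if_neg (fun h => hd h.2)]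
        have ha : ¬ NS (under E P) W.aE := fun ha => hw ⟨hwB, hd, ha⟩
        rw [hsplit P hwB hd ha]; rfl
  have hκ2 : ∀ w, 2 * κ w = 0 := by
    intro w
    by_cases hw : w ∉ B ∧ ¬ NS w W.dE ∧ NS w W.aE
    · change 2 * (nu ψ w - dbl (if w ∉ B ∧ NS w W.dE then 1 else 0)) = 0
      obtain ⟨P, rfl⟩ := under_surj (K := L) w
      rw [W.QE.nu_sp ψ (hspl P hw.2.1), if_neg (fun h => hw.2.1 h.2), mul_sub,
        hsplit2 P hw.1 hw.2.1 hw.2.2]; rfl
    · rw [hκ0 w hw, mul_zero]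
  have hkpd : kp 2 E (Additive.ofMul W.dE) ≠ 0 := by
    intro h
    have := (W.indep 1 0 (by rw [h, smul_zero, zero_smul, add_zero])).1
    exact one_ne_zero this
  have hkpad : kp 2 E (Additive.ofMul W.aE) ∉
      Submodule.span (ZMod 2) {kp 2 E (Additive.ofMul (W.dE * W.aE))} := by
    intro h
    rw [Submodule.mem_span_singleton] at h
    obtain ⟨c, hc⟩ := h
    rw [ofMul_mul, map_add, smul_add] at hc
    have h1 := W.indep c (c - 1) (by
      rw [sub_smul, one_smul]
      rw [← sub_eq_zero] at hc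
      rw [← hc]
      abel)
    rw [h1.1] at h1
    have := h1.2
    revert this
    decide
  obtain ⟨w1, hw1, hw1d, hw1a⟩ := exists_place_ns hkpd hkpad hB
  have hκ := kap_eq_zero hB hbadE hn (fun w hw => (hn2 w hw).trans (le_max_right _ _))
    hκs hκ0 hκ2 hw1 hw1d hw1a
  -- conclusion
  intro P
  by_cases hP : under E P ∈ B
  · rw [hψ0 P hP, hψ0 _ (by change under E (placeSmul W.QE.τ P) ∈ B; rw [hτ]; exact hP), add_zero]
  · by_cases hd : NS (under E P) W.dE
    · rw [hnsp P hd, hinert P hP hd]; rfl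
    · have h1 := hκ (under E P)
      change nu ψ (under E P) - dbl (if under E P ∉ B ∧ NS (under E P) W.dE then 1 else 0) = 0 at h1
      rw [if_neg (fun h => hd h.2), W.QE.nu_sp ψ (hspl P hd)] at h1
      have h2 : dbl 0 = 0 := rfl
      rw [h2, sub_zero] at h1
      exact h1

end Tow

end

end Fermat.Agent.LT.Psi
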