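import Mathlib
import Fermat.Agent.LT.Psi.Tower2

set_option linter.unusedSectionVars false
set_option linter.unusedVariables false
set_option autoImplicit false

/-!
# Quadratic reciprocity for elements close to one
-/

open NumberField IsDedekindDomain nonZeroDivisors Pointwise

namespace Fermat.Agent.LT.Psi

open Fermat.Agent.CFT
open Fermat.Agent.Frob (below mem_below)
open Loc (GalGlob)

local notation "Om" => AlgebraicClosure ℚ

local notation "Γ" => (AlgebraicClosure ℚ ≃ₐ[ℚ] AlgebraicClosure ℚ)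

section

variable {F : IntermediateField ℚ Om} [FiniteDimensional ℚ F]

open Classical in
/-- the quadratic character of `F(√a)` -/
noncomputable def chi (a : Fˣ) (v : HeightOneSpectrum (𝓞 F)) : ZMod 2 := if NS v a then 1 else 0

theorem chi_of_ns {a : Fˣ} {v : HeightOneSpectrum (𝓞 F)} (h : NS v a) : chi a v = 1 := if_pos h

theorem chi_of_not_ns {a : Fˣ} {v : HeightOneSpectrum (𝓞 F)} (h : ¬ NS v a) : chi a v = 0 :=
  if_neg h

theorem chi_eq_zero_iff {a : Fˣ} {v : HeightOneSpectrum (𝓞 F)} : chi a v = 0 ↔ ¬ NS v a := by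
  by_cases h : NS v a
  · rw [chi_of_ns h]
    simp [h]
  · rw [chi_of_not_ns h]
    simp [h]

theorem chi_eq_one_iff {a : Fˣ} {v : HeightOneSpectrum (𝓞 F)} : chi a v = 1 ↔ NS v a := by
  by_cases h : NS v a
  · rw [chi_of_ns h]
    simp [h]
  · rw [chi_of_not_ns h]
    simp [h]

/-- good places of the quadratic character -/
def GoodQ (a : Fˣ) (v : HeightOneSpectrum (𝓞 F)) : Prop :=
  v ∉ Tp F 2 ∧ (2 : ℤ) ∣ ordH F v (Additive.ofMul a)

/-- the symbol at a good place -/
theorem hs_eq_chi_mul [IsTotallyComplex F] {a : Fˣ} {v : HeightOneSpectrum (𝓞 F)}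
    (h : GoodQ a v) (y : Fˣ) :
    hs F v a y = chi a v * (ordH F v (Additive.ofMul y) : ZMod 2) := by
  by_cases hn : NS v a
  · obtain ⟨y', hy'⟩ := hn
    rw [hs_of_even h.1 h.2 hy' y, chi_of_ns ⟨y', hy'⟩, one_mul]
  · rw [chi_of_not_ns hn, zero_mul]
    exact not_ns_iff.1 hn y

theorem finite_ordH (y : Fˣ) :
    {v : HeightOneSpectrum (𝓞 F) | ordH F v (Additive.ofMul y) ≠ 0}.Finite :=
  finite_ordH_ne_zero (K := F) (Additive.ofMul y)

/-- the bad places form a finite set -/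
theorem finite_not_goodQ (a : Fˣ) : {v : HeightOneSpectrum (𝓞 F) | ¬ GoodQ a v}.Finite := by
  refine ((TpF (p := 2) F).finite_toSet.union (finite_ordH a)).subset fun v hv => ?_
  by_contra hcon
  rw [Set.mem_union, not_or] at hcon
  refine hv ⟨fun h => hcon.1 (Finset.mem_coe.2 (mem_TpF.2 h)), ?_⟩
  have h2 : ordH F v (Additive.ofMul a) = 0 := by
    by_contra h
    exact hcon.2 h
  rw [h2]
  exact dvd_zero _

/-- the level of reciprocity -/
noncomputable def lvT (T : Finset (HeightOneSpectrum (𝓞 F))) : ℕ := T.sup lev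

theorem lev_le_lvT {T : Finset (HeightOneSpectrum (𝓞 F))} {v : HeightOneSpectrum (𝓞 F)}
    (h : v ∈ T) : lev v ≤ lvT T := Finset.le_sup (f := lev) h

open Classical in
/-- **(R) Reciprocity for elements close to one.** -/
theorem sum_chi_eq_zero [IsTotallyComplex F] {a : Fˣ} {T : Finset (HeightOneSpectrum (𝓞 F))}
    (hT : ∀ v ∉ T, GoodQ a v) {n : ℕ} (hn : lvT T ≤ n) {x : Fˣ}
    (hx : ∀ v ∈ T, Near v n (x : F)) :
    ∑ᶠ v, (if v ∈ T then 0 else chi a v * (ordH F v (Additive.ofMul x) : ZMod 2)) = 0 := by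
  refine (finsum_congr fun v => ?_).trans (sum_hs a x)
  split_ifs with h
  · rw [hs_near_right (near_mono ((lev_le_lvT h).trans hn) (hx v h))]
  · rw [hs_eq_chi_mul (hT v h)]

open Classical in
/-- **(R)**, existence of a level -/
theorem exists_rec [IsTotallyComplex F] {a : Fˣ} {T : Finset (HeightOneSpectrum (𝓞 F))}
    (hT : ∀ v ∉ T, GoodQ a v) : ∃ n : ℕ, ∀ x : Fˣ, (∀ v ∈ T, Near v n (x : F)) →
    ∑ᶠ v, (if v ∈ T then 0 else chi a v * (ordH F v (Additive.ofMul x) : ZMod 2)) = 0 :=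
  ⟨lvT T, fun x hx => sum_chi_eq_zero hT le_rfl hx⟩

open Classical in
/-- **(R)**, pointwise levels -/
theorem rec_near [IsTotallyComplex F] (a : Fˣ) (T : Finset (HeightOneSpectrum (𝓞 F)))
    (hT2 : ∀ v ∈ Tp F 2, v ∈ T)
    (hTa : ∀ v ∉ T, (2 : ℤ) ∣ ordH F v (Additive.ofMul a)) {x : Fˣ}
    (hx : ∀ v ∈ T, Near v (lev v) (x : F)) :
    ∑ᶠ v, (if v ∉ T ∧ NS v a then (ordH F v (Additive.ofMul x) : ZMod 2) else 0) = 0 := by
  refine (finsum_congr fun v => ?_).trans (sum_hs a x)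
  by_cases hv : v ∈ T
  · rw [if_neg (fun h => h.1 hv), hs_near_right (hx v hv)]
  · have hg : GoodQ a v := ⟨fun h => hv (hT2 v h), hTa v hv⟩
    rw [hs_eq_chi_mul hg]
    by_cases hn : NS v a
    · rw [if_pos ⟨hv, hn⟩, chi_of_ns hn, one_mul]
    · rw [if_neg (fun h => hn h.2), chi_of_not_ns hn, zero_mul]

end

end Fermat.Agent.LT.Psi
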